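import Mathlib

/-!
# X-RR: additivity of the Euler characteristic of a pair of subspaces

For subspaces `L₁ ≤ L₁'`, `L₂ ≤ L₂'` of a vector space `V` over a field `K` we prove (with
cardinal-valued ranks, no finiteness hypotheses)

`rank (L₁' ⊓ L₂') + rank (V ⧸ L₁ ⊔ L₂) =
   rank (L₁ ⊓ L₂) + rank (V ⧸ L₁' ⊔ L₂') + relRank L₁ L₁' + relRank L₂ L₂'`

where `relRank L L' = rank (L' / L)` (the rank of the image of `L'` in `V ⧸ L`).
-/

set_option autoImplicit false

namespace Fermat.Agent.X0.RR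

universe u v

variable {K : Type v} [Field K] {V : Type u} [AddCommGroup V] [Module K V]

/-- The rank of the image of `L'` in `V ⧸ L` (the dimension of `L' / L` if `L ≤ L'`). -/
noncomputable def relRank (L L' : Submodule K V) : Cardinal.{u} :=
  Module.rank K ↥(Submodule.map L.mkQ L')

theorem relRank_self (L : Submodule K V) : relRank L L = 0 := by
  unfold relRank
  rw [Submodule.mkQ_map_self]
  exact rank_subsingleton' _ _

/-- rank–nullity for the restriction of a linear map to a submodule -/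
theorem rank_map_add_rank_ker_inf {A B : Type u} [AddCommGroup A] [Module K A] [AddCommGroup B]
    [Module K B] (f : A →ₗ[K] B) (N : Submodule K A) :
    Module.rank K ↥(Submodule.map f N) + Module.rank K ↥(LinearMap.ker f ⊓ N) =
      Module.rank K ↥N := by
  have h := LinearMap.rank_range_add_rank_ker (f.domRestrict N)
  rw [LinearMap.range_domRestrict, LinearMap.ker_domRestrict] at h
  have e : ↥(Submodule.comap N.subtype (LinearMap.ker f)) ≃ₗ[K] ↥(LinearMap.ker f ⊓ N) := by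
    have h1 : Submodule.comap N.subtype (LinearMap.ker f) =
        Submodule.comap N.subtype (LinearMap.ker f ⊓ N) := by
      ext x
      simp
    rw [h1]
    exact Submodule.comapSubtypeEquivOfLe inf_le_right
  rw [e.rank_eq] at h
  exact h

theorem ker_factor {L M : Submodule K V} (h : L ≤ M) :
    LinearMap.ker (Submodule.factor h) = Submodule.map L.mkQ M := by
  ext y
  obtain ⟨x, rfl⟩ := Submodule.Quotient.mk_surjective _ y
  rw [LinearMap.mem_ker]
  constructor
  · intro hy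
    have hx : x ∈ M := by
      have : M.mkQ x = 0 := by
        rw [← Submodule.factor_mk h x]; exact hy
      simpa using this
    exact ⟨x, hx, rfl⟩
  · rintro ⟨z, hz, hzx⟩
    have : Submodule.Quotient.mk x = L.mkQ z := hzx.symm
    rw [this, Submodule.factor_mk]
    simpa using hz

theorem map_factor_map_mkQ {L M : Submodule K V} (h : L ≤ M) (N : Submodule K V) :
    Submodule.map (Submodule.factor h) (Submodule.map L.mkQ N) = Submodule.map M.mkQ N := by
  rw [← Submodule.map_comp]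
  congr 1

/-- tower law -/
theorem relRank_add {L M N : Submodule K V} (hLM : L ≤ M) (hMN : M ≤ N) :
    relRank L M + relRank M N = relRank L N := by
  unfold relRank
  have h := rank_map_add_rank_ker_inf (Submodule.factor hLM) (Submodule.map L.mkQ N)
  rw [map_factor_map_mkQ, ker_factor,
    inf_eq_left.mpr (Submodule.map_mono hMN)] at h
  rw [add_comm]
  exact h

/-- `relRank L P` only depends on `L ⊓ P` -/
theorem relRank_eq_rank_quotient (L P : Submodule K V) :
    relRank L P = Module.rank K (↥P ⧸ Submodule.comap P.subtype L) := by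
  unfold relRank
  let g : ↥P →ₗ[K] V ⧸ L := L.mkQ.comp P.subtype
  have hker : LinearMap.ker g = Submodule.comap P.subtype L := by
    ext x
    simp [g]
  have hrange : LinearMap.range g = Submodule.map L.mkQ P := by
    rw [LinearMap.range_comp, Submodule.range_subtype]
  have e := g.quotKerEquivRange
  rw [← hrange, ← e.rank_eq]
  exact (Submodule.quotEquivOfEq _ _ hker).rank_eq

theorem relRank_inf_left (L P : Submodule K V) : relRank (L ⊓ P) P = relRank L P := by
  rw [relRank_eq_rank_quotient, relRank_eq_rank_quotient]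
  have : Submodule.comap P.subtype (L ⊓ P) = Submodule.comap P.subtype L := by
    ext x
    simp
  rw [this]

/-- the modular step: enlarging the first component -/
theorem relRank_step {L₁ L₁' : Submodule K V} (h₁ : L₁ ≤ L₁') (L₂ : Submodule K V) :
    relRank (L₁ ⊓ L₂) (L₁' ⊓ L₂) + relRank (L₁ ⊔ L₂) (L₁' ⊔ L₂) = relRank L₁ L₁' := by
  have h := rank_map_add_rank_ker_inf (Submodule.factor (le_sup_left : L₁ ≤ L₁ ⊔ L₂))
    (Submodule.map L₁.mkQ L₁')
  rw [map_factor_map_mkQ, ker_factor] at h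
  -- first term
  have e1 : Submodule.map (L₁ ⊔ L₂).mkQ L₁' = Submodule.map (L₁ ⊔ L₂).mkQ (L₁' ⊔ L₂) := by
    rw [Submodule.map_sup]
    have : Submodule.map (L₁ ⊔ L₂).mkQ L₂ = ⊥ := by
      rw [eq_bot_iff]
      rintro _ ⟨x, hx, rfl⟩
      simp only [Submodule.mkQ_apply, Submodule.mem_bot, Submodule.Quotient.mk_eq_zero]
      exact Submodule.mem_sup_right hx
    rw [this, sup_bot_eq]
  -- second term
  have e2 : Submodule.map L₁.mkQ (L₁ ⊔ L₂) ⊓ Submodule.map L₁.mkQ L₁' =
      Submodule.map L₁.mkQ (L₁' ⊓ L₂) := by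
    apply le_antisymm
    · rintro _ ⟨⟨x, hx, rfl⟩, ⟨y, hy, hxy⟩⟩
      -- `x ∈ L₁ ⊔ L₂`, `y ∈ L₁'`, `x - y ∈ L₁`
      have hxy' : y - x ∈ L₁ := by
        have : L₁.mkQ (y - x) = 0 := by rw [map_sub, hxy, sub_self]
        rwa [Submodule.mkQ_apply, Submodule.Quotient.mk_eq_zero] at this
      obtain ⟨a, ha, b, hb, rfl⟩ := Submodule.mem_sup.mp hx
      have hb' : b ∈ L₁' := by
        have : b = y - (y - (a + b)) - a := by abel
        rw [this]
        exact L₁'.sub_mem (L₁'.sub_mem hy (h₁ hxy')) (h₁ ha)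
      refine ⟨b, ⟨hb', hb⟩, ?_⟩
      simp only [Submodule.mkQ_apply, map_add]
      rw [(Submodule.Quotient.mk_eq_zero L₁).mpr ha, zero_add]
    · rintro _ ⟨x, ⟨hx1, hx2⟩, rfl⟩
      exact ⟨⟨x, Submodule.mem_sup_right hx2, rfl⟩, ⟨x, hx1, rfl⟩⟩
  rw [e1, e2] at h
  have e3 : relRank (L₁ ⊓ L₂) (L₁' ⊓ L₂) = relRank L₁ (L₁' ⊓ L₂) := by
    rw [← relRank_inf_left L₁ (L₁' ⊓ L₂)]
    congr 1
    rw [← inf_assoc, inf_eq_left.mpr h₁]
  rw [e3, add_comm]
  exact h

/-- **Additivity of the Euler characteristic** (cardinal form). -/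
theorem rank_inf_add_rank_quotient_sup {L₁ L₁' L₂ L₂' : Submodule K V} (h₁ : L₁ ≤ L₁')
    (h₂ : L₂ ≤ L₂') :
    Module.rank K ↥(L₁' ⊓ L₂') + Module.rank K (V ⧸ (L₁ ⊔ L₂)) =
      Module.rank K ↥(L₁ ⊓ L₂) + Module.rank K (V ⧸ (L₁' ⊔ L₂')) + relRank L₁ L₁' +
        relRank L₂ L₂' := by
  have hA : L₁ ⊓ L₂ ≤ L₁' ⊓ L₂' := inf_le_inf h₁ h₂
  have hS : L₁ ⊔ L₂ ≤ L₁' ⊔ L₂' := sup_le_sup h₁ h₂
  -- (i)
  have hi : Module.rank K ↥(L₁' ⊓ L₂') =
      relRank (L₁ ⊓ L₂) (L₁' ⊓ L₂') + Module.rank K ↥(L₁ ⊓ L₂) := by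
    rw [relRank_eq_rank_quotient]
    have := Submodule.rank_quotient_add_rank
      (Submodule.comap (L₁' ⊓ L₂').subtype (L₁ ⊓ L₂))
    rw [← this, (Submodule.comapSubtypeEquivOfLe hA).rank_eq]
  -- (ii)
  have hii : Module.rank K (V ⧸ (L₁ ⊔ L₂)) =
      Module.rank K (V ⧸ (L₁' ⊔ L₂')) + relRank (L₁ ⊔ L₂) (L₁' ⊔ L₂') := by
    have h := LinearMap.rank_range_add_rank_ker (Submodule.factor hS)
    have hsurj : LinearMap.range (Submodule.factor hS) = ⊤ := by
      rw [LinearMap.range_eq_top]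
      intro y
      obtain ⟨x, rfl⟩ := Submodule.Quotient.mk_surjective _ y
      exact ⟨(L₁ ⊔ L₂).mkQ x, Submodule.factor_mk hS x⟩
    rw [hsurj, rank_top, ker_factor] at h
    exact h.symm
  -- (iii)
  have s1 := relRank_step h₁ L₂
  have s2 := relRank_step h₂ L₁'
  rw [inf_comm L₂ L₁', inf_comm L₂' L₁', sup_comm L₂ L₁', sup_comm L₂' L₁'] at s2
  have t1 := relRank_add (inf_le_inf_right L₂ h₁) (inf_le_inf_left L₁' h₂)
  have t2 := relRank_add (sup_le_sup_right h₁ L₂) (sup_le_sup_left h₂ L₁')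
  rw [hi, hii, ← t1, ← t2, ← s1, ← s2]
  ring

end Fermat.Agent.X0.RR
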