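import Fermat.Agent.X0.RR.Infty

/-!
# X-RR, piece RR5: the two Dedekind models of a function field

`K` an algebraically closed field of characteristic zero, `F` a finite extension of `RatFunc K`.
`Bf K F` is the integral closure of `K[X]` in `F`, `Binf K F` the integral closure of the valuation
ring at infinity `Rinf K`.

The facts about `Rinf K` (discrete valuation ring, `K`-algebra structure, residue field `K`) come
from piece RR0 (`RR/Infty.lean`).

## Contents

* Part 1, abstract lemmas: `bijective_algebraMap_quotient_of_isMaximal` (RES),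
  `finrank_quotient_eq_one_of_bijective`, `inertiaDeg_eq_one_of_bijective`,
  `exists_basis_span_eq_integralClosure`, `liesOver_maximalIdeal_of_ne_bot`,
  `heightOneSpectrumEquivPrimesOver`, `charZero_quotient_of_ne_top`.
* Part 2, `Bf K F` over `K[X]`: instances `Bf.isFractionRing`, `Bf.isIntegrallyClosed`,
  `Bf.isTorsionFree`, `Bf.isDedekindDomain`, `Bf.moduleFinite`, `Bf.moduleFree`; `Bf.finrank_eq`,
  `Bf.exists_basis`, `Bf.bijective_algebraMap_quotient`, `Bf.finrank_quotient`,
  `Bf.inertiaDeg_eq_one`, `Bf.sum_ramificationIdx`.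
* Part 3, `Binf K F` over `Rinf K`: the same with `Binf.`; moreover
  `Binf.maximalIdeal_Rinf_ne_bot`, `Binf.liesOver_maximalIdeal`, `Binf.heightOneSpectrumEquiv`,
  `Binf.finite_heightOneSpectrum`, `Binf.sum_ramificationIdx`, `Binf.finsum_ramificationIdx` (INF).
* `isSeparable_fractionRing_of_charZero`, `Bf.isSeparable_fractionRing`,
  `Binf.isSeparable_fractionRing`: separability in the `FractionRing` form.
* Part 4, (CONST): `isIntegral_of_mem_Bf_of_mem_Binf`, `exists_eq_algebraMap_of_mem_Bf_of_mem_Binf`.
-/

set_option autoImplicit false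

open Polynomial Module IsDedekindDomain
open scoped nonZeroDivisors

namespace Fermat.Agent.X0.RR

/-! ## Part 1: abstract lemmas -/

section General

/-- (RES), abstract form: if all residue fields of `A` at maximal ideals are `k` (algebraically
closed) and `B` is integral over `A`, then all residue fields of `B` at maximal ideals are `k`. -/
theorem bijective_algebraMap_quotient_of_isMaximal
    {k A B : Type*} [Field k] [IsAlgClosed k] [CommRing A] [CommRing B] [Algebra k A]
    [Algebra A B] [Algebra k B] [IsScalarTower k A B] [Algebra.IsIntegral A B]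
    (hres : ∀ p : Ideal A, p.IsMaximal → Function.Surjective (algebraMap k (A ⧸ p)))
    (P : Ideal B) [hP : P.IsMaximal] : Function.Bijective (algebraMap k (B ⧸ P)) := by
  have hp : (P.under A).IsMaximal := Ideal.IsMaximal.under A P
  let _ : Field (B ⧸ P) := Ideal.Quotient.field P
  have h1 : Algebra.IsIntegral (A ⧸ P.under A) (B ⧸ P) := inferInstance
  have h2 : Algebra.IsIntegral k (A ⧸ P.under A) :=
    Algebra.isIntegral_of_surjective (hres _ hp)
  have h3 : Algebra.IsIntegral k (B ⧸ P) := Algebra.IsIntegral.trans (A ⧸ P.under A)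
  exact IsAlgClosed.algebraMap_bijective_of_isIntegral

/-- If `k → B ⧸ P` is bijective then `B ⧸ P` is one-dimensional over `k`. -/
theorem finrank_quotient_eq_one_of_bijective
    {k B : Type*} [Field k] [CommRing B] [Algebra k B] (P : Ideal B)
    (h : Function.Bijective (algebraMap k (B ⧸ P))) : finrank k (B ⧸ P) = 1 := by
  have e : k ≃ₗ[k] (B ⧸ P) :=
    LinearEquiv.ofBijective (Algebra.linearMap k (B ⧸ P)) h
  rw [← e.finrank_eq, finrank_self]

/-- Inertia degree one, abstract form. -/
theorem inertiaDeg_eq_one_of_bijective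
    {k A B : Type*} [Field k] [CommRing A] [CommRing B] [Algebra k A]
    [Algebra A B] [Algebra k B] [IsScalarTower k A B]
    (P : Ideal B) [P.IsMaximal] (p : Ideal A) [p.IsMaximal] [P.LiesOver p]
    (h : Function.Bijective (algebraMap k (B ⧸ P))) : P.inertiaDeg A = 1 := by
  rw [Ideal.inertiaDeg_eq_of_isMaximal p P]
  let _ : Field (A ⧸ p) := Ideal.Quotient.field p
  let _ : Field (B ⧸ P) := Ideal.Quotient.field P
  have h1 := finrank_quotient_eq_one_of_bijective P h
  have h2 : finrank k (A ⧸ p) * finrank (A ⧸ p) (B ⧸ P) = finrank k (B ⧸ P) :=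
    finrank_mul_finrank k (A ⧸ p) (B ⧸ P)
  rw [h1] at h2
  exact Nat.eq_one_of_mul_eq_one_left h2

/-- Quotients of an algebra over a characteristic zero field by proper ideals have characteristic
zero (used for tameness). -/
theorem charZero_quotient_of_ne_top {k A : Type*} [Field k] [CharZero k] [CommRing A]
    [Algebra k A] (p : Ideal A) (hp : p ≠ ⊤) : CharZero (A ⧸ p) := by
  have : Nontrivial (A ⧸ p) := Ideal.Quotient.nontrivial_iff.2 hp
  exact charZero_of_injective_algebraMap (algebraMap k (A ⧸ p)).injective

/-- The integral closure of a PID `A` in a finite separable extension `F` of its fraction field `Q`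
has an `A`-basis which is a `Q`-basis of `F`. -/
theorem exists_basis_span_eq_integralClosure (A Q F : Type*) [CommRing A] [IsDomain A]
    [IsPrincipalIdealRing A] [Field Q] [Algebra A Q] [IsFractionRing A Q] [Field F] [Algebra Q F]
    [Algebra A F] [IsScalarTower A Q F] [FiniteDimensional Q F] [Algebra.IsSeparable Q F] :
    ∃ b : Basis (Fin (finrank Q F)) Q F,
      Submodule.span A (Set.range b) = Subalgebra.toSubmodule (integralClosure A F) := by
  have : Module.IsTorsionFree A F := .trans_faithfulSMul A Q F
  have hfree : Module.Free A (integralClosure A F) :=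
    IsIntegralClosure.module_free A Q F (integralClosure A F)
  have hfin : Module.Finite A (integralClosure A F) :=
    IsIntegralClosure.finite A Q F (integralClosure A F)
  have hrank : finrank A (integralClosure A F) = finrank Q F :=
    IsIntegralClosure.rank A Q F (integralClosure A F)
  let c : Basis (Fin (finrank Q F)) A (integralClosure A F) :=
    Module.finBasisOfFinrankEq A (integralClosure A F) hrank
  have : IsLocalization (Algebra.algebraMapSubmonoid (integralClosure A F) A⁰) F :=
    IsIntegralClosure.isLocalization A Q F (integralClosure A F)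
  refine ⟨c.localizationLocalization Q A⁰ F, ?_⟩
  rw [Basis.localizationLocalization_span]
  ext x
  simp only [LinearMap.mem_range, Subalgebra.mem_toSubmodule]
  constructor
  · rintro ⟨y, rfl⟩
    exact y.2
  · intro hx
    exact ⟨⟨x, hx⟩, rfl⟩

end General

section GeneralLocal

/-- Over a local PID, every nonzero prime of an integral extension domain lies over the maximal
ideal. -/
theorem liesOver_maximalIdeal_of_ne_bot {A B : Type*} [CommRing A] [IsDomain A] [IsLocalRing A]
    [IsPrincipalIdealRing A] [CommRing B] [IsDomain B] [Algebra A B] [Algebra.IsIntegral A B]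
    (P : Ideal B) [P.IsPrime] (hP : P ≠ ⊥) :
    P.LiesOver (IsLocalRing.maximalIdeal A) := by
  have h1 : P.under A ≠ ⊥ := mt Ideal.eq_bot_of_comap_eq_bot hP
  have h2 : (P.under A).IsMaximal := Ideal.IsPrime.isMaximal inferInstance h1
  exact ⟨(IsLocalRing.eq_maximalIdeal h2).symm⟩

variable (A B : Type*) [CommRing A] [IsDomain A] [IsLocalRing A] [IsPrincipalIdealRing A]
  [CommRing B] [IsDedekindDomain B] [Algebra A B] [Algebra.IsIntegral A B]
  [Module.IsTorsionFree A B]

/-- Over a local PID which is not a field, the height one primes of an integral extension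
(Dedekind) are exactly the primes over the maximal ideal. -/
noncomputable def heightOneSpectrumEquivPrimesOver (hA : IsLocalRing.maximalIdeal A ≠ ⊥) :
    HeightOneSpectrum B ≃ (IsLocalRing.maximalIdeal A).primesOver B where
  toFun v := ⟨v.asIdeal, v.isPrime, liesOver_maximalIdeal_of_ne_bot v.asIdeal v.ne_bot⟩
  invFun P := ⟨P.1, P.2.1, Ideal.ne_bot_of_mem_primesOver hA P.2⟩
  left_inv _ := rfl
  right_inv _ := rfl

theorem finite_heightOneSpectrum_of_isLocalRing (hA : IsLocalRing.maximalIdeal A ≠ ⊥) :
    Finite (HeightOneSpectrum B) :=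
  Finite.of_equiv _ (heightOneSpectrumEquivPrimesOver A B hA).symm

end GeneralLocal

/-! ## Part 2: the finite model `Bf K F` -/

section Finite

variable (K : Type*) [Field K] (F : Type*) [Field F] [Algebra K[X] F] [Algebra (RatFunc K) F]
  [IsScalarTower K[X] (RatFunc K) F] [FiniteDimensional (RatFunc K) F]

instance Bf.isFractionRing : IsFractionRing (Bf K F) F :=
  integralClosure.isFractionRing_of_finite_extension (RatFunc K) F

instance Bf.isIntegrallyClosed : IsIntegrallyClosed (Bf K F) :=
  integralClosure.isIntegrallyClosedOfFiniteExtension (RatFunc K)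

instance Bf.isTorsionFree_field : Module.IsTorsionFree K[X] F :=
  .trans_faithfulSMul K[X] (RatFunc K) F

instance Bf.isTorsionFree : Module.IsTorsionFree K[X] (Bf K F) :=
  IsIntegralClosure.isTorsionFree K[X] F

variable [Algebra.IsSeparable (RatFunc K) F]

instance Bf.isDedekindDomain : IsDedekindDomain (Bf K F) :=
  integralClosure.isDedekindDomain K[X] (RatFunc K) F

instance Bf.moduleFinite : Module.Finite K[X] (Bf K F) :=
  IsIntegralClosure.finite K[X] (RatFunc K) F (Bf K F)

instance Bf.moduleFree : Module.Free K[X] (Bf K F) :=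
  IsIntegralClosure.module_free K[X] (RatFunc K) F (Bf K F)

theorem Bf.finrank_eq : finrank K[X] (Bf K F) = finrank (RatFunc K) F :=
  IsIntegralClosure.rank K[X] (RatFunc K) F (Bf K F)

/-- `Bf K F` has a `K[X]`-basis which is a `RatFunc K`-basis of `F`. -/
theorem Bf.exists_basis :
    ∃ b : Basis (Fin (finrank (RatFunc K) F)) (RatFunc K) F,
      Submodule.span K[X] (Set.range b) = Subalgebra.toSubmodule (Bf K F) :=
  exists_basis_span_eq_integralClosure K[X] (RatFunc K) F

end Finite

section FiniteK

variable (K : Type*) [Field K] (F : Type*) [Field F] [Algebra K[X] F] [Algebra (RatFunc K) F]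
  [IsScalarTower K[X] (RatFunc K) F] [Algebra K F] [IsScalarTower K (RatFunc K) F]

/-- The tower `K → K[X] → F`; with it `Bf K F` becomes a `K`-algebra (`Subalgebra.algebra'`) and
the towers `K → K[X] → Bf K F`, `K → Bf K F → F` are found by instance search. -/
instance isScalarTower_polynomial_field : IsScalarTower K K[X] F := by
  refine IsScalarTower.of_algebraMap_eq fun c => ?_
  rw [IsScalarTower.algebraMap_apply K (RatFunc K) F,
    IsScalarTower.algebraMap_apply K[X] (RatFunc K) F,
    ← IsScalarTower.algebraMap_apply K K[X] (RatFunc K)]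

/-- Residue fields of `K[X]` at maximal ideals are `K` (for `K` algebraically closed). -/
theorem surjective_algebraMap_quotient_polynomial [IsAlgClosed K]
    (p : Ideal K[X]) (hp : p.IsMaximal) : Function.Surjective (algebraMap K (K[X] ⧸ p)) := by
  let _ : Field (K[X] ⧸ p) := Ideal.Quotient.field p
  have h2 : Module.Finite K (K[X] ⧸ p) := finite_of_finite_type_of_isJacobsonRing K (K[X] ⧸ p)
  exact (IsAlgClosed.algebraMap_bijective_of_isIntegral (k := K) (K := K[X] ⧸ p)).2

variable {K F}

/-- (RES) for `Bf`. -/
theorem Bf.bijective_algebraMap_quotient [IsAlgClosed K] (P : Ideal (Bf K F)) [P.IsMaximal] :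
    Function.Bijective (algebraMap K (Bf K F ⧸ P)) :=
  bijective_algebraMap_quotient_of_isMaximal (A := K[X])
    (surjective_algebraMap_quotient_polynomial K) P

/-- (RES) for `Bf`: residue degree one over `K`. -/
theorem Bf.finrank_quotient [IsAlgClosed K] (P : Ideal (Bf K F)) [P.IsMaximal] :
    finrank K (Bf K F ⧸ P) = 1 :=
  finrank_quotient_eq_one_of_bijective P (Bf.bijective_algebraMap_quotient P)

/-- (RES) for `Bf`: inertia degree one over `K[X]`. -/
theorem Bf.inertiaDeg_eq_one [IsAlgClosed K] (P : Ideal (Bf K F)) [P.IsMaximal] :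
    P.inertiaDeg K[X] = 1 := by
  have : (P.under K[X]).IsMaximal := Ideal.IsMaximal.under K[X] P
  exact inertiaDeg_eq_one_of_bijective (k := K) P (P.under K[X])
    (Bf.bijective_algebraMap_quotient P)

/-- The fundamental identity for `Bf` over a maximal ideal of `K[X]`: `∑ e = n`. -/
theorem Bf.sum_ramificationIdx [IsAlgClosed K] [FiniteDimensional (RatFunc K) F]
    [Algebra.IsSeparable (RatFunc K) F] (p : Ideal K[X]) [p.IsMaximal] :
    ∑ P : p.primesOver (Bf K F), P.1.ramificationIdx K[X] = finrank (RatFunc K) F := by
  rw [← Bf.finrank_eq, ← Ideal.sum_ramification_inertia_eq_finrank p (Bf K F)]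
  refine Finset.sum_congr rfl fun P _ => ?_
  have : P.1.IsMaximal := Ideal.IsMaximal.of_liesOver_isMaximal P.1 p
  rw [Bf.inertiaDeg_eq_one P.1, mul_one]

end FiniteK

/-! ## Part 3: the model at infinity `Binf K F` -/

section RinfBasic

variable {K : Type*} [Field K]

theorem Binf.X_inv_mem_Rinf : (RatFunc.X : RatFunc K)⁻¹ ∈ Rinf K := by
  rw [mem_Rinf_iff]
  right
  rw [RatFunc.intDegree_inv, RatFunc.intDegree_X]
  norm_num

theorem Binf.X_notMem_Rinf : (RatFunc.X : RatFunc K) ∉ Rinf K := by
  rw [mem_Rinf_iff]
  rintro (h | h)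
  · exact RatFunc.X_ne_zero h
  · rw [RatFunc.intDegree_X] at h
    norm_num at h

/-- `Rinf K` is not a field: `X⁻¹` is a nonzero nonunit. -/
theorem Binf.maximalIdeal_Rinf_ne_bot : IsLocalRing.maximalIdeal (Rinf K) ≠ ⊥ := by
  intro h
  have hf : IsField (Rinf K) := IsLocalRing.isField_iff_maximalIdeal_eq.2 h
  have hne : (⟨RatFunc.X⁻¹, Binf.X_inv_mem_Rinf⟩ : Rinf K) ≠ 0 := by
    intro h0
    have := congrArg Subtype.val h0
    simp at this
    exact RatFunc.X_ne_zero this
  obtain ⟨b, hb⟩ := hf.mul_inv_cancel hne
  have hb' := congrArg Subtype.val hb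
  simp only [MulMemClass.coe_mul, OneMemClass.coe_one] at hb'
  have : (b : RatFunc K) = RatFunc.X := by
    have hX : (RatFunc.X : RatFunc K) ≠ 0 := RatFunc.X_ne_zero
    field_simp at hb'
    exact hb'
  exact Binf.X_notMem_Rinf (this ▸ b.2)

end RinfBasic

section Infinite

variable (K : Type*) [Field K] (F : Type*) [Field F] [Algebra (RatFunc K) F]
  [FiniteDimensional (RatFunc K) F]

instance Binf.isFractionRing : IsFractionRing (Binf K F) F :=
  integralClosure.isFractionRing_of_finite_extension (RatFunc K) F

instance Binf.isIntegrallyClosed : IsIntegrallyClosed (Binf K F) :=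
  integralClosure.isIntegrallyClosedOfFiniteExtension (RatFunc K)

instance Binf.isTorsionFree_field : Module.IsTorsionFree (Rinf K) F :=
  .trans_faithfulSMul (Rinf K) (RatFunc K) F

instance Binf.isTorsionFree : Module.IsTorsionFree (Rinf K) (Binf K F) :=
  IsIntegralClosure.isTorsionFree (Rinf K) F

variable [Algebra.IsSeparable (RatFunc K) F]

instance Binf.isDedekindDomain : IsDedekindDomain (Binf K F) :=
  integralClosure.isDedekindDomain (Rinf K) (RatFunc K) F

instance Binf.moduleFinite : Module.Finite (Rinf K) (Binf K F) :=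
  IsIntegralClosure.finite (Rinf K) (RatFunc K) F (Binf K F)

instance Binf.moduleFree : Module.Free (Rinf K) (Binf K F) :=
  IsIntegralClosure.module_free (Rinf K) (RatFunc K) F (Binf K F)

theorem Binf.finrank_eq : finrank (Rinf K) (Binf K F) = finrank (RatFunc K) F :=
  IsIntegralClosure.rank (Rinf K) (RatFunc K) F (Binf K F)

/-- `Binf K F` has an `Rinf K`-basis which is a `RatFunc K`-basis of `F`. -/
theorem Binf.exists_basis :
    ∃ b : Basis (Fin (finrank (RatFunc K) F)) (RatFunc K) F,
      Submodule.span (Rinf K) (Set.range b) = Subalgebra.toSubmodule (Binf K F) :=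
  exists_basis_span_eq_integralClosure (Rinf K) (RatFunc K) F

variable {K F}

omit [FiniteDimensional (RatFunc K) F] [Algebra.IsSeparable (RatFunc K) F] in
/-- (INF): every nonzero prime of `Binf K F` lies over the maximal ideal of `Rinf K`. -/
theorem Binf.liesOver_maximalIdeal (P : Ideal (Binf K F)) [P.IsPrime] (hP : P ≠ ⊥) :
    P.LiesOver (IsLocalRing.maximalIdeal (Rinf K)) :=
  liesOver_maximalIdeal_of_ne_bot P hP

variable (K F)

/-- (INF): the height one primes of `Binf K F` are the primes over the maximal ideal of
`Rinf K`. -/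
noncomputable def Binf.heightOneSpectrumEquiv :
    HeightOneSpectrum (Binf K F) ≃ (IsLocalRing.maximalIdeal (Rinf K)).primesOver (Binf K F) :=
  heightOneSpectrumEquivPrimesOver (Rinf K) (Binf K F) Binf.maximalIdeal_Rinf_ne_bot

@[simp]
theorem Binf.heightOneSpectrumEquiv_apply (v : HeightOneSpectrum (Binf K F)) :
    (Binf.heightOneSpectrumEquiv K F v : Ideal (Binf K F)) = v.asIdeal := rfl

/-- (INF): `Binf K F` has only finitely many nonzero primes. -/
instance Binf.finite_heightOneSpectrum : Finite (HeightOneSpectrum (Binf K F)) :=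
  finite_heightOneSpectrum_of_isLocalRing (Rinf K) (Binf K F) Binf.maximalIdeal_Rinf_ne_bot

end Infinite

section InfiniteK

variable {K : Type*} [Field K] {F : Type*} [Field F] [Algebra (RatFunc K) F]
  [Algebra K F] [IsScalarTower K (RatFunc K) F]

/-- The tower `K → Rinf K → F`; with it `Binf K F` becomes a `K`-algebra (`Subalgebra.algebra'`)
and the towers `K → Rinf K → Binf K F`, `K → Binf K F → F` are found by instance search. -/
instance isScalarTower_Rinf_field : IsScalarTower K (Rinf K) F := by
  refine IsScalarTower.of_algebraMap_eq fun c => ?_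
  rw [IsScalarTower.algebraMap_apply K (RatFunc K) F,
    IsScalarTower.algebraMap_apply (Rinf K) (RatFunc K) F,
    ← IsScalarTower.algebraMap_apply K (Rinf K) (RatFunc K)]

/-- The residue field of `Rinf K` is `K`, in the form needed for (RES). -/
theorem Binf.surjective_algebraMap_quotient_Rinf
    (p : Ideal (Rinf K)) (hp : p.IsMaximal) : Function.Surjective (algebraMap K (Rinf K ⧸ p)) := by
  obtain rfl := IsLocalRing.eq_maximalIdeal hp
  intro x
  obtain ⟨f, rfl⟩ := Ideal.Quotient.mk_surjective x
  obtain ⟨c, hc⟩ := exists_sub_algebraMap_mem_maximalIdeal_Rinf f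
  refine ⟨c, ?_⟩
  rw [IsScalarTower.algebraMap_apply K (Rinf K) (Rinf K ⧸ _), Ideal.Quotient.algebraMap_eq,
    eq_comm, Ideal.Quotient.eq]
  exact hc

/-- (RES) for `Binf`. -/
theorem Binf.bijective_algebraMap_quotient [IsAlgClosed K] (P : Ideal (Binf K F)) [P.IsMaximal] :
    Function.Bijective (algebraMap K (Binf K F ⧸ P)) :=
  bijective_algebraMap_quotient_of_isMaximal (A := Rinf K)
    Binf.surjective_algebraMap_quotient_Rinf P

/-- (RES) for `Binf`: residue degree one over `K`. -/
theorem Binf.finrank_quotient [IsAlgClosed K] (P : Ideal (Binf K F)) [P.IsMaximal] :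
    finrank K (Binf K F ⧸ P) = 1 :=
  finrank_quotient_eq_one_of_bijective P (Binf.bijective_algebraMap_quotient P)

/-- (RES) for `Binf`: inertia degree one over `Rinf K`. -/
theorem Binf.inertiaDeg_eq_one [IsAlgClosed K] (P : Ideal (Binf K F)) [P.IsMaximal] :
    P.inertiaDeg (Rinf K) = 1 := by
  have : (P.under (Rinf K)).IsMaximal := Ideal.IsMaximal.under (Rinf K) P
  exact inertiaDeg_eq_one_of_bijective (k := K) P (P.under (Rinf K))
    (Binf.bijective_algebraMap_quotient P)

variable [IsAlgClosed K] [FiniteDimensional (RatFunc K) F] [Algebra.IsSeparable (RatFunc K) F]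

/-- (INF): the fundamental identity at infinity, `∑_{P | ∞} e(P) = n`. -/
theorem Binf.sum_ramificationIdx :
    ∑ P : (IsLocalRing.maximalIdeal (Rinf K)).primesOver (Binf K F), P.1.ramificationIdx (Rinf K)
      = finrank (RatFunc K) F := by
  rw [← Binf.finrank_eq, ← Ideal.sum_ramification_inertia_eq_finrank
    (IsLocalRing.maximalIdeal (Rinf K)) (Binf K F)]
  refine Finset.sum_congr rfl fun P _ => ?_
  have : P.1.IsMaximal :=
    Ideal.IsMaximal.of_liesOver_isMaximal P.1 (IsLocalRing.maximalIdeal (Rinf K))
  rw [Binf.inertiaDeg_eq_one P.1, mul_one]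

/-- (INF): the fundamental identity at infinity, as a sum over all nonzero primes of `Binf`. -/
theorem Binf.finsum_ramificationIdx :
    ∑ᶠ v : HeightOneSpectrum (Binf K F), v.asIdeal.ramificationIdx (Rinf K)
      = finrank (RatFunc K) F := by
  rw [← Binf.sum_ramificationIdx (K := K) (F := F), ← finsum_eq_sum_of_fintype]
  exact finsum_eq_of_bijective (Binf.heightOneSpectrumEquiv K F)
    (Binf.heightOneSpectrumEquiv K F).bijective (fun _ => rfl)

end InfiniteK

/-! ## Separability in the `FractionRing` form (for `differentIdeal` and `RR/TameDifferent`) -/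

section FractionRingSeparable

attribute [local instance] FractionRing.liftAlgebra FractionRing.isScalarTower_liftAlgebra

/-- In characteristic zero the extension of fraction fields of a finite torsion-free extension of
domains is (finite and) separable: this is the hypothesis
`[Algebra.IsSeparable (FractionRing A) (FractionRing B)]` of `RR/TameDifferent` and of Mathlib's
`differentIdeal` API (with the local instances `FractionRing.liftAlgebra`,
`FractionRing.isScalarTower_liftAlgebra`). -/
theorem isSeparable_fractionRing_of_charZero (A B : Type*) [CommRing A] [IsDomain A] [CharZero A]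
    [CommRing B] [IsDomain B] [Algebra A B] [Module.IsTorsionFree A B] [Module.Finite A B] :
    Algebra.IsSeparable (FractionRing A) (FractionRing B) := by
  have : FiniteDimensional (FractionRing A) (FractionRing B) := .of_isLocalization A B A⁰
  infer_instance

variable (K : Type*) [Field K] [CharZero K] (F : Type*) [Field F] [Algebra (RatFunc K) F]
  [FiniteDimensional (RatFunc K) F]

theorem Bf.isSeparable_fractionRing [Algebra K[X] F] [IsScalarTower K[X] (RatFunc K) F] :
    Algebra.IsSeparable (FractionRing K[X]) (FractionRing (Bf K F)) :=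
  isSeparable_fractionRing_of_charZero _ _

theorem Binf.isSeparable_fractionRing :
    Algebra.IsSeparable (FractionRing (Rinf K)) (FractionRing (Binf K F)) :=
  isSeparable_fractionRing_of_charZero _ _

end FractionRingSeparable

/-! ## Part 4: (CONST) -/

section Const

variable {K : Type*} [Field K]

/-- A polynomial which lies in `Rinf K` is a constant. -/
theorem mem_range_algebraMap_of_polynomial_of_mem_Rinf {r : RatFunc K}
    (h1 : r ∈ (algebraMap K[X] (RatFunc K)).range) (h2 : r ∈ Rinf K) :
    r ∈ (algebraMap K (RatFunc K)).range := by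
  obtain ⟨p, rfl⟩ := h1
  rw [mem_Rinf_iff] at h2
  have hp : p.natDegree ≤ 0 := by
    rcases h2 with h0 | hd
    · have : p = 0 := by
        apply IsFractionRing.injective K[X] (RatFunc K)
        rw [h0, map_zero]
      simp [this]
    · rw [RatFunc.intDegree_polynomial] at hd
      exact_mod_cast hd
  rw [Polynomial.eq_C_of_natDegree_le_zero hp]
  exact ⟨p.coeff 0, by rw [IsScalarTower.algebraMap_apply K K[X] (RatFunc K)]; rfl⟩

variable {F : Type*} [Field F] [Algebra K[X] F] [Algebra (RatFunc K) F]
  [IsScalarTower K[X] (RatFunc K) F] [Algebra K F] [IsScalarTower K (RatFunc K) F]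

/-- (CONST): an element of `F` integral both over `K[X]` and over `Rinf K` is integral over `K`. -/
theorem isIntegral_of_mem_Bf_of_mem_Binf {h : F} (h1 : h ∈ Bf K F) (h2 : h ∈ Binf K F) :
    IsIntegral K h := by
  have h1' : IsIntegral K[X] h := h1
  have h2' : IsIntegral (Rinf K) h := h2
  have e1 := minpoly.isIntegrallyClosed_eq_field_fractions' (RatFunc K) h1'
  have e2 := minpoly.isIntegrallyClosed_eq_field_fractions' (RatFunc K) h2'
  have hl : minpoly (RatFunc K) h ∈ Polynomial.lifts (algebraMap K (RatFunc K)) := by
    rw [Polynomial.lifts_iff_coeff_lifts]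
    intro n
    apply mem_range_algebraMap_of_polynomial_of_mem_Rinf
    · rw [e1, coeff_map]
      exact ⟨_, rfl⟩
    · rw [e2, coeff_map]
      exact SetLike.coe_mem _
  have hm : (minpoly (RatFunc K) h).Monic := minpoly.monic (h1'.tower_top)
  obtain ⟨g, hg, -, hgm⟩ := Polynomial.lifts_and_degree_eq_and_monic hl hm
  refine ⟨g, hgm, ?_⟩
  have := minpoly.aeval (RatFunc K) h
  rw [← hg, Polynomial.aeval_map_algebraMap] at this
  exact this

/-- (CONST): `Bf ∩ Binf = K` for `K` algebraically closed. -/
theorem exists_eq_algebraMap_of_mem_Bf_of_mem_Binf [IsAlgClosed K] {h : F} (h1 : h ∈ Bf K F)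
    (h2 : h ∈ Binf K F) : ∃ c : K, h = algebraMap K F c := by
  have hi := isIntegral_of_mem_Bf_of_mem_Binf h1 h2
  have hd : (minpoly K h).degree = 1 :=
    IsAlgClosed.degree_eq_one_of_irreducible K (minpoly.irreducible hi)
  obtain ⟨c, hc⟩ := minpoly.mem_range_of_degree_eq_one K h hd
  exact ⟨c, hc.symm⟩

end Const

end Fermat.Agent.X0.RR
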