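import Mathlib

/-!
# X-RR: shared definitions

`K` a field, `Q = RatFunc K`.

* `Rinf K` : the valuation ring of `Q` at infinity (rational functions of degree `≤ 0`).
* `IntDegLE f m` : `f = 0` or `f.intDegree ≤ m`, i.e. `f ∈ X ^ m • Rinf K`.
* `Bf K F`, `Binf K F` : for a finite extension `F` of `Q`, the integral closures of `K[X]` and of
  `Rinf K` in `F` (the "finite" and the "infinite" Dedekind models of the function field `F`).
-/

set_option autoImplicit false

open Polynomial

namespace Fermat.Agent.X0.RR

variable (K : Type*) [Field K]

open Classical in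
/-- The valuation ring at infinity of `RatFunc K`: rational functions of degree `≤ 0`. -/
noncomputable def Rinf : ValuationSubring (RatFunc K) :=
  (RatFunc.inftyValuation K).valuationSubring

variable {K}

/-- `f = 0` or `deg f ≤ m`: membership in `X ^ m • Rinf K`. -/
def IntDegLE (f : RatFunc K) (m : ℤ) : Prop := f = 0 ∨ f.intDegree ≤ m

open Classical in
theorem mem_Rinf_iff (f : RatFunc K) : f ∈ Rinf K ↔ IntDegLE f 0 := by
  unfold Rinf IntDegLE
  rw [Valuation.mem_valuationSubring_iff, RatFunc.inftyValuation_apply]
  by_cases hf : f = 0
  · simp [hf, RatFunc.inftyValuationDef]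
  · rw [RatFunc.inftyValuation_of_nonzero K hf, ← WithZero.exp_zero, WithZero.exp_le_exp]
    simp [hf]

section FunctionField

variable (K) (F : Type*) [Field F] [Algebra K[X] F] [Algebra (RatFunc K) F]

/-- The integral closure of `K[X]` in `F`. -/
noncomputable abbrev Bf : Subalgebra K[X] F := integralClosure K[X] F

/-- The integral closure of `Rinf K` in `F`. -/
noncomputable abbrev Binf : Subalgebra (Rinf K) F := integralClosure (Rinf K) F

end FunctionField

end Fermat.Agent.X0.RR
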