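import Mathlib
import Fermat.Agent.X0.RR.Defs

/-!
# X-RR (RR0): degrees of rational functions and the two one-dimensional facts

* `IntDegLE` API;
* `exists_leadingCoeff_infty` : the leading term at infinity of a rational function;
* `exists_polyPart` : polynomial part + proper fraction;
* `polySub K`, `degLE K m` : the `K`-subspaces of polynomials / of functions of degree `≤ m`;
* FACT1 `finrank_polySub_inf_degLE`, FACT2 `finrank_quotient_polySub_sup_degLE`.
-/

set_option autoImplicit false

open Polynomial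

namespace Fermat.Agent.X0.RR

variable {K : Type*} [Field K]

/-! ### `IntDegLE` -/

theorem IntDegLE.zero (m : ℤ) : IntDegLE (0 : RatFunc K) m := Or.inl rfl

theorem IntDegLE.mono {f : RatFunc K} {m m' : ℤ} (h : IntDegLE f m) (hm : m ≤ m') :
    IntDegLE f m' := h.imp id fun h => h.trans hm

theorem IntDegLE.neg {f : RatFunc K} {m : ℤ} (h : IntDegLE f m) : IntDegLE (-f) m := by
  rcases h with rfl | h
  · simpa using IntDegLE.zero m
  · exact Or.inr (by rwa [RatFunc.intDegree_neg])

theorem IntDegLE.add {f g : RatFunc K} {m : ℤ} (hf : IntDegLE f m) (hg : IntDegLE g m) :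
    IntDegLE (f + g) m := by
  rcases hf with rfl | hf
  · simpa using hg
  rcases hg with rfl | hg
  · rw [add_zero]; exact Or.inr hf
  by_cases h0 : f + g = 0
  · exact Or.inl h0
  by_cases hg0 : g = 0
  · subst hg0; rw [add_zero]; exact Or.inr hf
  exact Or.inr ((RatFunc.intDegree_add_le hg0 h0).trans (max_le hf hg))

theorem IntDegLE.sub {f g : RatFunc K} {m : ℤ} (hf : IntDegLE f m) (hg : IntDegLE g m) :
    IntDegLE (f - g) m := by
  rw [sub_eq_add_neg]; exact hf.add hg.neg

theorem IntDegLE.mul {f g : RatFunc K} {m m' : ℤ} (hf : IntDegLE f m) (hg : IntDegLE g m') :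
    IntDegLE (f * g) (m + m') := by
  rcases hf with rfl | hf
  · simpa using IntDegLE.zero (m + m')
  rcases hg with rfl | hg
  · simpa using IntDegLE.zero (m + m')
  by_cases hf0 : f = 0
  · subst hf0; simpa using IntDegLE.zero (m + m')
  by_cases hg0 : g = 0
  · subst hg0; simpa using IntDegLE.zero (m + m')
  exact Or.inr (by rw [RatFunc.intDegree_mul hf0 hg0]; exact add_le_add hf hg)

theorem intDegLE_C (c : K) : IntDegLE (RatFunc.C c) 0 := Or.inr (by rw [RatFunc.intDegree_C])

theorem IntDegLE.smul {f : RatFunc K} {m : ℤ} (hf : IntDegLE f m) (c : K) :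
    IntDegLE (c • f) m := by
  rw [Algebra.smul_def, RatFunc.algebraMap_eq_C]
  simpa using (intDegLE_C c).mul hf

theorem intDegree_X_zpow (m : ℤ) : ((RatFunc.X : RatFunc K) ^ m).intDegree = m := by
  have hX : (RatFunc.X : RatFunc K) ≠ 0 := RatFunc.X_ne_zero
  induction m using Int.induction_on with
  | zero => simp
  | succ i ih =>
    rw [zpow_add_one₀ hX, RatFunc.intDegree_mul (zpow_ne_zero _ hX) hX, ih, RatFunc.intDegree_X]
  | pred i ih =>
    rw [zpow_sub_one₀ hX, RatFunc.intDegree_mul (zpow_ne_zero _ hX) (inv_ne_zero hX), ih,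
      RatFunc.intDegree_inv, RatFunc.intDegree_X]
    ring

theorem intDegLE_X_zpow (m : ℤ) : IntDegLE ((RatFunc.X : RatFunc K) ^ m) m :=
  Or.inr (intDegree_X_zpow m).le

theorem intDegLE_mul_X_zpow_iff {f : RatFunc K} {m k : ℤ} :
    IntDegLE (f * RatFunc.X ^ k) (m + k) ↔ IntDegLE f m := by
  have hX : (RatFunc.X : RatFunc K) ≠ 0 := RatFunc.X_ne_zero
  constructor
  · intro h
    have := h.mul (intDegLE_X_zpow (-k))
    rwa [mul_assoc, ← zpow_add₀ hX, add_neg_cancel, zpow_zero, mul_one, add_neg_cancel_right]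
      at this
  · intro h
    exact h.mul (intDegLE_X_zpow k)

theorem intDegLE_polynomial_iff {p : K[X]} {m : ℤ} :
    IntDegLE (algebraMap K[X] (RatFunc K) p) m ↔ p = 0 ∨ (p.natDegree : ℤ) ≤ m := by
  unfold IntDegLE
  rw [RatFunc.intDegree_polynomial]
  simp

theorem polynomial_eq_zero_of_intDegLE_neg {p : K[X]} {m : ℤ} (hm : m < 0)
    (h : IntDegLE (algebraMap K[X] (RatFunc K) p) m) : p = 0 := by
  rcases intDegLE_polynomial_iff.mp h with h | h
  · exact h
  · have : (0 : ℤ) ≤ p.natDegree := Int.natCast_nonneg _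
    omega


/-! ### Quotients of polynomials -/

theorem intDegLE_div_of_natDegree {r q : K[X]} (hq : q ≠ 0) {m : ℤ}
    (h : r = 0 ∨ (r.natDegree : ℤ) - q.natDegree ≤ m) :
    IntDegLE (algebraMap K[X] (RatFunc K) r / algebraMap K[X] (RatFunc K) q) m := by
  rcases h with rfl | h
  · simp [IntDegLE]
  by_cases hr : r = 0
  · subst hr; simp [IntDegLE]
  right
  have hr' : algebraMap K[X] (RatFunc K) r ≠ 0 := by simpa using hr
  have hq' : algebraMap K[X] (RatFunc K) q ≠ 0 := by simpa using hq
  rw [RatFunc.intDegree_div hr' hq', RatFunc.intDegree_polynomial, RatFunc.intDegree_polynomial]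
  exact h

/-- The leading term at infinity of a quotient of polynomials (monic denominator). -/
theorem intDegLE_div_sub_leading {p q : K[X]} (hp0 : p ≠ 0) (hqm : q.Monic) :
    IntDegLE (algebraMap K[X] (RatFunc K) p / algebraMap K[X] (RatFunc K) q -
        RatFunc.C p.leadingCoeff * RatFunc.X ^ ((p.natDegree : ℤ) - q.natDegree))
      ((p.natDegree : ℤ) - q.natDegree - 1) := by
  have hq0 : q ≠ 0 := hqm.ne_zero
  set a := p.natDegree with ha
  set b := q.natDegree with hb
  set c := p.leadingCoeff with hc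
  have hc0 : c ≠ 0 := leadingCoeff_ne_zero.mpr hp0
  -- the numerator of the difference
  set r : K[X] := p * X ^ b - C c * X ^ a * q with hr
  have hX : (RatFunc.X : RatFunc K) ≠ 0 := RatFunc.X_ne_zero
  have hq' : algebraMap K[X] (RatFunc K) q ≠ 0 := by simpa using hq0
  have hXb : (RatFunc.X : RatFunc K) ^ b ≠ 0 := pow_ne_zero _ hX
  have key : algebraMap K[X] (RatFunc K) p / algebraMap K[X] (RatFunc K) q -
        RatFunc.C c * RatFunc.X ^ ((a : ℤ) - b) =
      algebraMap K[X] (RatFunc K) r / algebraMap K[X] (RatFunc K) (q * X ^ b) := by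
    rw [zpow_sub₀ hX, zpow_natCast, zpow_natCast]
    rw [hr, map_sub, map_mul, map_mul, map_mul, map_mul, map_pow, map_pow, RatFunc.algebraMap_X,
      RatFunc.algebraMap_C]
    field_simp
  rw [key]
  apply intDegLE_div_of_natDegree (mul_ne_zero hq0 (pow_ne_zero _ X_ne_zero))
  by_cases hr0 : r = 0
  · exact Or.inl hr0
  right
  -- degree of `r` is `< a + b`
  have h1 : (p * X ^ b).degree = ((a + b : ℕ) : WithBot ℕ) := by
    rw [degree_mul, degree_X_pow, degree_eq_natDegree hp0]
    rfl
  have h2 : (C c * X ^ a * q).degree = ((a + b : ℕ) : WithBot ℕ) := by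
    rw [degree_mul, degree_C_mul_X_pow a hc0, degree_eq_natDegree hq0]
    rfl
  have h3 : (p * X ^ b).leadingCoeff = (C c * X ^ a * q).leadingCoeff := by
    rw [leadingCoeff_mul, leadingCoeff_X_pow, mul_one, leadingCoeff_mul, leadingCoeff_mul,
      leadingCoeff_C, leadingCoeff_X_pow, mul_one, hqm.leadingCoeff, mul_one]
  have h4 : p * X ^ b ≠ 0 := mul_ne_zero hp0 (pow_ne_zero _ X_ne_zero)
  have hlt : r.degree < ((a + b : ℕ) : WithBot ℕ) := by
    rw [← h1]
    exact degree_sub_lt_left (h1.trans h2.symm) h4 h3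
  have hnat : r.natDegree < a + b := by
    rw [degree_eq_natDegree hr0] at hlt
    exact_mod_cast hlt
  have hqb : (q * X ^ b).natDegree = b + b := by
    rw [natDegree_mul hq0 (pow_ne_zero _ X_ne_zero), natDegree_X_pow]
  rw [hqb]
  push_cast
  omega

/-- The leading term at infinity of a nonzero rational function. -/
theorem exists_leadingCoeff_infty {f : RatFunc K} (hf : f ≠ 0) :
    ∃ c : K, c ≠ 0 ∧
      IntDegLE (f - RatFunc.C c * RatFunc.X ^ f.intDegree) (f.intDegree - 1) := by
  have hp0 : f.num ≠ 0 := by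
    intro h0
    apply hf
    rw [← RatFunc.num_div_denom f, h0, map_zero, zero_div]
  refine ⟨f.num.leadingCoeff, leadingCoeff_ne_zero.mpr hp0, ?_⟩
  have h := intDegLE_div_sub_leading hp0 f.monic_denom
  rw [RatFunc.num_div_denom f] at h
  exact h

/-- Polynomial part of a quotient of polynomials (monic denominator). -/
theorem intDegLE_div_sub_divByMonic (p : K[X]) {q : K[X]} (hqm : q.Monic) :
    IntDegLE (algebraMap K[X] (RatFunc K) p / algebraMap K[X] (RatFunc K) q -
        algebraMap K[X] (RatFunc K) (p /ₘ q)) (-1) := by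
  have hq0 : q ≠ 0 := hqm.ne_zero
  have hq' : algebraMap K[X] (RatFunc K) q ≠ 0 := by simpa using hq0
  have key : algebraMap K[X] (RatFunc K) p / algebraMap K[X] (RatFunc K) q -
        algebraMap K[X] (RatFunc K) (p /ₘ q) =
      algebraMap K[X] (RatFunc K) (p %ₘ q) / algebraMap K[X] (RatFunc K) q := by
    rw [div_sub' hq']
    congr 1
    rw [← map_mul, ← map_sub]
    congr 1
    have := modByMonic_add_div p q
    linear_combination (-1 : K[X]) * this
  rw [key]
  apply intDegLE_div_of_natDegree hq0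
  by_cases h0 : p %ₘ q = 0
  · exact Or.inl h0
  right
  have hlt := degree_modByMonic_lt p hqm
  rw [degree_eq_natDegree h0, degree_eq_natDegree hq0] at hlt
  have : (p %ₘ q).natDegree < q.natDegree := by exact_mod_cast hlt
  omega

/-- Polynomial part: every rational function is a polynomial plus a function of degree `≤ -1`. -/
theorem exists_polyPart (f : RatFunc K) :
    ∃ p : K[X], IntDegLE (f - algebraMap K[X] (RatFunc K) p) (-1) := by
  refine ⟨f.num /ₘ f.denom, ?_⟩
  have h := intDegLE_div_sub_divByMonic f.num f.monic_denom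
  rwa [RatFunc.num_div_denom f] at h

/-! ### The subspaces of polynomials and of functions of bounded degree -/

variable (K)

/-- The embedding `K[X] → RatFunc K` as a `K`-linear map. -/
noncomputable def polyMap : K[X] →ₗ[K] RatFunc K :=
  (IsScalarTower.toAlgHom K K[X] (RatFunc K)).toLinearMap

/-- The polynomials, as a `K`-subspace of `RatFunc K`. -/
noncomputable def polySub : Submodule K (RatFunc K) := LinearMap.range (polyMap K)

/-- The rational functions of degree `≤ m` (pole order at infinity `≤ m`), as a `K`-subspace. -/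
def degLE (m : ℤ) : Submodule K (RatFunc K) where
  carrier := {f | IntDegLE f m}
  zero_mem' := IntDegLE.zero m
  add_mem' := fun hf hg => hf.add hg
  smul_mem' := fun c _ hf => hf.smul c

variable {K}

@[simp] theorem polyMap_apply (p : K[X]) : polyMap K p = algebraMap K[X] (RatFunc K) p := rfl

theorem polyMap_injective : Function.Injective (polyMap K) :=
  IsFractionRing.injective K[X] (RatFunc K)

theorem mem_polySub {f : RatFunc K} : f ∈ polySub K ↔ ∃ p : K[X], algebraMap K[X] (RatFunc K) p = f :=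
  Iff.rfl

theorem mem_degLE {f : RatFunc K} {m : ℤ} : f ∈ degLE K m ↔ IntDegLE f m := Iff.rfl

theorem degLE_mono {m m' : ℤ} (h : m ≤ m') : degLE K m ≤ degLE K m' := fun _ hf => hf.mono h

theorem mem_degLE_zero_iff {f : RatFunc K} : f ∈ degLE K 0 ↔ f ∈ Rinf K := (mem_Rinf_iff f).symm

/-! ### FACT1 -/

/-- FACT1, set form: polynomials of degree `≤ m` are the image of `degreeLT K (m+1).toNat`. -/
theorem polySub_inf_degLE (m : ℤ) :
    polySub K ⊓ degLE K m = (Polynomial.degreeLT K (m + 1).toNat).map (polyMap K) := by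
  ext f
  simp only [Submodule.mem_inf, mem_polySub, mem_degLE, Submodule.mem_map, polyMap_apply]
  constructor
  · rintro ⟨⟨p, rfl⟩, h⟩
    refine ⟨p, ?_, rfl⟩
    rw [Polynomial.mem_degreeLT]
    rcases intDegLE_polynomial_iff.mp h with rfl | h
    · simp
    · by_cases hp : p = 0
      · subst hp; simp
      rw [degree_eq_natDegree hp]
      have : p.natDegree < (m + 1).toNat := by omega
      exact_mod_cast this
  · rintro ⟨p, hp, rfl⟩
    refine ⟨⟨p, rfl⟩, ?_⟩
    rw [intDegLE_polynomial_iff]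
    by_cases hp0 : p = 0
    · exact Or.inl hp0
    right
    rw [Polynomial.mem_degreeLT, degree_eq_natDegree hp0] at hp
    have : p.natDegree < (m + 1).toNat := by exact_mod_cast hp
    omega

/-- FACT1 as a linear equivalence. -/
noncomputable def polySubInfDegLEEquiv (m : ℤ) :
    ↥(polySub K ⊓ degLE K m) ≃ₗ[K] (Fin (m + 1).toNat → K) :=
  (LinearEquiv.ofEq _ _ (polySub_inf_degLE m)).trans
    ((Submodule.equivMapOfInjective (polyMap K) polyMap_injective _).symm.trans
      (Polynomial.degreeLTEquiv K _))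

instance (m : ℤ) : Module.Finite K ↥(polySub K ⊓ degLE K m) :=
  Module.Finite.equiv (polySubInfDegLEEquiv m).symm

/-- FACT1: the space of polynomials of degree `≤ m` has dimension `(m+1)⁺`. -/
theorem finrank_polySub_inf_degLE (m : ℤ) :
    Module.finrank K ↥(polySub K ⊓ degLE K m) = (m + 1).toNat := by
  rw [(polySubInfDegLEEquiv m).finrank_eq, Module.finrank_fin_fun]


/-! ### FACT2 -/

/-- One step of the expansion at infinity. -/
theorem exists_sub_monomial {h : RatFunc K} {m : ℤ} (hh : IntDegLE h m) :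
    ∃ x : K, IntDegLE (h - RatFunc.C x * RatFunc.X ^ m) (m - 1) := by
  by_cases h0 : h = 0
  · exact ⟨0, by simp [h0, IntDegLE.zero]⟩
  have hle : h.intDegree ≤ m := by
    rcases hh with hh | hh
    · exact absurd hh h0
    · exact hh
  rcases hle.lt_or_eq with hlt | heq
  · refine ⟨0, ?_⟩
    simp only [map_zero, zero_mul, sub_zero]
    exact Or.inr (by omega)
  · obtain ⟨c, -, hc⟩ := exists_leadingCoeff_infty h0
    rw [heq] at hc
    exact ⟨c, hc⟩

theorem eq_zero_of_intDegLE_C_mul_X_zpow {x : K} {m m' : ℤ} (hm : m' < m)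
    (h : IntDegLE (RatFunc.C x * RatFunc.X ^ m) m') : x = 0 := by
  by_contra hx
  have hX : (RatFunc.X : RatFunc K) ≠ 0 := RatFunc.X_ne_zero
  have hC : (RatFunc.C x : RatFunc K) ≠ 0 := by
    rwa [Ne, map_eq_zero]
  rcases h with h | h
  · exact mul_ne_zero hC (zpow_ne_zero _ hX) h
  · rw [RatFunc.intDegree_mul hC (zpow_ne_zero _ hX), RatFunc.intDegree_C, intDegree_X_zpow] at h
    omega

variable (K) in
/-- The map `c ↦ ∑_{i<k} c i • X^(-(i+1))`. -/
noncomputable def tailMap (k : ℕ) : (Fin k → K) →ₗ[K] RatFunc K :=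
  Fintype.linearCombination K (fun i : Fin k => (RatFunc.X : RatFunc K) ^ (-((i : ℕ) + 1 : ℤ)))

theorem tailMap_apply (k : ℕ) (c : Fin k → K) :
    tailMap K k c = ∑ i : Fin k, c i • (RatFunc.X : RatFunc K) ^ (-((i : ℕ) + 1 : ℤ)) := by
  simp [tailMap, Fintype.linearCombination_apply]

theorem tailMap_succ (k : ℕ) (c : Fin k → K) (x : K) :
    tailMap K (k + 1) (Fin.snoc c x) =
      tailMap K k c + x • (RatFunc.X : RatFunc K) ^ (-((k : ℕ) + 1 : ℤ)) := by
  rw [tailMap_apply, tailMap_apply, Fin.sum_univ_castSucc]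
  simp

theorem tailMap_succ' (k : ℕ) (c : Fin (k + 1) → K) :
    tailMap K (k + 1) c =
      tailMap K k (fun i => c i.castSucc) +
        c (Fin.last k) • (RatFunc.X : RatFunc K) ^ (-((k : ℕ) + 1 : ℤ)) := by
  rw [tailMap_apply, tailMap_apply, Fin.sum_univ_castSucc]
  simp

theorem intDegLE_tailMap (k : ℕ) (c : Fin k → K) : IntDegLE (tailMap K k c) (-1) := by
  rw [tailMap_apply]
  refine Submodule.sum_mem (degLE K (-1)) fun i _ => ?_
  refine Submodule.smul_mem _ _ ?_
  exact (intDegLE_X_zpow _).mono (by omega)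

/-- (S'): finite expansion at infinity of a function of degree `≤ -1`. -/
theorem exists_tailMap_sub {g : RatFunc K} (hg : IntDegLE g (-1)) (k : ℕ) :
    ∃ c : Fin k → K, IntDegLE (g - tailMap K k c) (-1 - k) := by
  induction k with
  | zero =>
    refine ⟨0, ?_⟩
    simpa [tailMap_apply] using hg
  | succ k ih =>
    obtain ⟨c, hc⟩ := ih
    obtain ⟨x, hx⟩ := exists_sub_monomial hc
    refine ⟨Fin.snoc c x, ?_⟩
    rw [tailMap_succ]
    have e : g - (tailMap K k c + x • (RatFunc.X : RatFunc K) ^ (-((k : ℕ) + 1 : ℤ))) =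
        g - tailMap K k c - RatFunc.C x * RatFunc.X ^ (-1 - (k : ℤ)) := by
      rw [Algebra.smul_def, RatFunc.algebraMap_eq_C, show (-((k : ℕ) + 1 : ℤ)) = -1 - (k : ℤ) by ring]
      ring
    rw [e]
    refine hx.mono ?_
    push_cast
    omega

/-- (I): the monomials `X^-1, …, X^-k` are independent modulo functions of degree `≤ -1-k`. -/
theorem eq_zero_of_intDegLE_tailMap (k : ℕ) (c : Fin k → K)
    (h : IntDegLE (tailMap K k c) (-1 - k)) : c = 0 := by
  induction k with
  | zero => exact Subsingleton.elim _ _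
  | succ k ih =>
    rw [tailMap_succ'] at h
    have hlast : IntDegLE (c (Fin.last k) • (RatFunc.X : RatFunc K) ^ (-((k : ℕ) + 1 : ℤ)))
        (-1 - k) := by
      refine IntDegLE.smul ?_ _
      exact (intDegLE_X_zpow _).mono (by omega)
    have h1 : IntDegLE (tailMap K k (fun i => c i.castSucc)) (-1 - k) := by
      have := (h.mono (show (-1 - ((k + 1 : ℕ) : ℤ)) ≤ -1 - (k : ℤ) by push_cast; omega)).sub hlast
      simpa using this
    have h2 := ih _ h1
    rw [h2, map_zero, zero_add, Algebra.smul_def, RatFunc.algebraMap_eq_C] at h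
    have h3 : c (Fin.last k) = 0 :=
      eq_zero_of_intDegLE_C_mul_X_zpow (by push_cast; omega) h
    funext i
    refine Fin.lastCases ?_ (fun j => ?_) i
    · simpa using h3
    · simpa using congrFun h2 j

/-- FACT2 as a linear equivalence. -/
noncomputable def quotientPolySubSupDegLEEquiv (d : ℤ) :
    (Fin (-d - 1).toNat → K) ≃ₗ[K] (RatFunc K ⧸ (polySub K ⊔ degLE K d)) := by
  refine LinearEquiv.ofBijective ((polySub K ⊔ degLE K d).mkQ ∘ₗ tailMap K (-d - 1).toNat) ⟨?_, ?_⟩
  · rw [← LinearMap.ker_eq_bot, LinearMap.ker_eq_bot']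
    intro c hc
    rw [LinearMap.comp_apply, Submodule.mkQ_apply, Submodule.Quotient.mk_eq_zero,
      Submodule.mem_sup] at hc
    obtain ⟨p, hp, h, hh, hph⟩ := hc
    rcases Nat.eq_zero_or_pos (-d - 1).toNat with hk | hk
    · have : IsEmpty (Fin (-d - 1).toNat) := by rw [hk]; infer_instance
      exact Subsingleton.elim _ _
    have hd : d = -1 - ((-d - 1).toNat : ℤ) := by omega
    obtain ⟨P, rfl⟩ := mem_polySub.mp hp
    have hP : IntDegLE (algebraMap K[X] (RatFunc K) P) (-1) := by
      have : algebraMap K[X] (RatFunc K) P = tailMap K (-d - 1).toNat c - h := by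
        rw [← hph]; ring
      rw [this]
      exact (intDegLE_tailMap _ c).sub ((mem_degLE.mp hh).mono (by omega))
    have hP0 := polynomial_eq_zero_of_intDegLE_neg (by norm_num) hP
    rw [hP0, map_zero, zero_add] at hph
    apply eq_zero_of_intDegLE_tailMap
    rw [← hph, ← hd]
    exact hh
  · intro y
    obtain ⟨f, rfl⟩ := Submodule.Quotient.mk_surjective _ y
    obtain ⟨p, hp⟩ := exists_polyPart f
    obtain ⟨c, hc⟩ := exists_tailMap_sub hp (-d - 1).toNat
    refine ⟨c, ?_⟩
    rw [LinearMap.comp_apply, Submodule.mkQ_apply, Submodule.Quotient.eq]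
    have : tailMap K (-d - 1).toNat c - f =
        algebraMap K[X] (RatFunc K) (-p) +
          -(f - algebraMap K[X] (RatFunc K) p - tailMap K (-d - 1).toNat c) := by
      rw [map_neg]; ring
    rw [this]
    refine Submodule.add_mem_sup (mem_polySub.mpr ⟨_, rfl⟩) ?_
    refine Submodule.neg_mem _ ?_
    exact hc.mono (by omega)

instance (d : ℤ) : Module.Finite K (RatFunc K ⧸ (polySub K ⊔ degLE K d)) :=
  Module.Finite.equiv (quotientPolySubSupDegLEEquiv d)

/-- FACT2: `dim_K Q / (K[X] + {deg ≤ d}) = (-d-1)⁺`. -/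
theorem finrank_quotient_polySub_sup_degLE (d : ℤ) :
    Module.finrank K (RatFunc K ⧸ (polySub K ⊔ degLE K d)) = (-d - 1).toNat := by
  rw [← (quotientPolySubSupDegLEEquiv d).finrank_eq, Module.finrank_fin_fun]


/-! ### The ring `Rinf K` -/

open Classical in
instance instIsDiscreteValuationRingRinf : IsDiscreteValuationRing ↥(Rinf K) := by
  unfold Rinf
  infer_instance

theorem C_mem_Rinf (c : K) : RatFunc.C c ∈ Rinf K := (mem_Rinf_iff _).mpr (intDegLE_C c)

noncomputable instance instAlgebraRinf : Algebra K ↥(Rinf K) :=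
  RingHom.toAlgebra ((RatFunc.C : K →+* RatFunc K).codRestrict (Rinf K).toSubring C_mem_Rinf)

@[simp] theorem coe_algebraMap_Rinf (c : K) :
    ((algebraMap K ↥(Rinf K) c : ↥(Rinf K)) : RatFunc K) = RatFunc.C c := rfl

instance instIsScalarTowerRinf : IsScalarTower K ↥(Rinf K) (RatFunc K) :=
  IsScalarTower.of_algebraMap_eq fun _ => rfl

open Classical in
theorem mem_maximalIdeal_Rinf_iff (f : ↥(Rinf K)) :
    f ∈ IsLocalRing.maximalIdeal ↥(Rinf K) ↔ IntDegLE (f : RatFunc K) (-1) := by
  have h : f ∈ IsLocalRing.maximalIdeal ↥(Rinf K) ↔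
      RatFunc.inftyValuation K (f : RatFunc K) < 1 := by
    unfold Rinf at f ⊢
    exact Valuation.mem_maximalIdeal_iff (v := RatFunc.inftyValuation K)
  rw [h, RatFunc.inftyValuation_apply]
  unfold IntDegLE
  by_cases hf : (f : RatFunc K) = 0
  · simp [hf, RatFunc.inftyValuationDef]
  · rw [RatFunc.inftyValuation_of_nonzero K hf, ← WithZero.exp_zero, WithZero.exp_lt_exp]
    simp only [hf, false_or]
    omega

/-- (RES) for `Rinf`: every element is congruent to a constant modulo the maximal ideal. -/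
theorem exists_sub_algebraMap_mem_maximalIdeal_Rinf (f : ↥(Rinf K)) :
    ∃ c : K, f - algebraMap K ↥(Rinf K) c ∈ IsLocalRing.maximalIdeal ↥(Rinf K) := by
  obtain ⟨c, hc⟩ := exists_sub_monomial ((mem_Rinf_iff _).mp f.2)
  refine ⟨c, ?_⟩
  rw [mem_maximalIdeal_Rinf_iff]
  simpa using hc

/-- The residue field of `Rinf K` is `K`. -/
theorem bijective_algebraMap_residueField_Rinf :
    Function.Bijective (algebraMap K (IsLocalRing.ResidueField ↥(Rinf K))) := by
  refine ⟨(algebraMap K (IsLocalRing.ResidueField ↥(Rinf K))).injective, fun y => ?_⟩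
  obtain ⟨f, rfl⟩ := IsLocalRing.residue_surjective y
  obtain ⟨c, hc⟩ := exists_sub_algebraMap_mem_maximalIdeal_Rinf f
  refine ⟨c, ?_⟩
  rw [IsScalarTower.algebraMap_apply K ↥(Rinf K) (IsLocalRing.ResidueField ↥(Rinf K))]
  symm
  rw [IsLocalRing.ResidueField.algebraMap_eq, ← sub_eq_zero, ← map_sub,
    IsLocalRing.residue_eq_zero_iff]
  exact hc

theorem X_inv_mem_Rinf : (RatFunc.X : RatFunc K)⁻¹ ∈ Rinf K := by
  rw [mem_Rinf_iff]
  have := (intDegLE_X_zpow (K := K) (-1)).mono (show (-1 : ℤ) ≤ 0 by norm_num)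
  simpa using this

/-- The uniformizer `X⁻¹` of `Rinf K`. -/
noncomputable def Xinv : ↥(Rinf K) := ⟨(RatFunc.X : RatFunc K)⁻¹, X_inv_mem_Rinf⟩

@[simp] theorem coe_Xinv : ((Xinv : ↥(Rinf K)) : RatFunc K) = (RatFunc.X)⁻¹ := rfl

theorem Xinv_ne_zero : (Xinv : ↥(Rinf K)) ≠ 0 := by
  intro h
  have := congrArg (Subtype.val) h
  simp [RatFunc.X_ne_zero] at this

theorem maximalIdeal_Rinf_eq_span : IsLocalRing.maximalIdeal ↥(Rinf K) = Ideal.span {Xinv} := by
  have hX : (RatFunc.X : RatFunc K) ≠ 0 := RatFunc.X_ne_zero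
  apply le_antisymm
  · intro f hf
    rw [mem_maximalIdeal_Rinf_iff] at hf
    rw [Ideal.mem_span_singleton']
    have h1 : IntDegLE ((f : RatFunc K) * RatFunc.X) 0 := by
      have := hf.mul (intDegLE_X_zpow (K := K) 1)
      simpa using this
    refine ⟨⟨(f : RatFunc K) * RatFunc.X, (mem_Rinf_iff _).mpr h1⟩, ?_⟩
    apply Subtype.ext
    simp [hX]
  · rw [Ideal.span_singleton_le_iff_mem, mem_maximalIdeal_Rinf_iff]
    have := intDegLE_X_zpow (K := K) (-1)
    simpa using this

theorem irreducible_Xinv : Irreducible (Xinv : ↥(Rinf K)) :=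
  (IsDiscreteValuationRing.irreducible_iff_uniformizer _).mpr maximalIdeal_Rinf_eq_span

theorem Rinf_not_isField : ¬ IsField ↥(Rinf K) := IsDiscreteValuationRing.not_isField _

/-- `IntDegLE f m` means `f ∈ X ^ m • Rinf K`. -/
theorem intDegLE_iff_mul_X_zpow_mem_Rinf {f : RatFunc K} {m : ℤ} :
    IntDegLE f m ↔ f * RatFunc.X ^ (-m) ∈ Rinf K := by
  rw [mem_Rinf_iff]
  have := intDegLE_mul_X_zpow_iff (K := K) (f := f) (m := m) (k := -m)
  rw [add_neg_cancel] at this
  exact this.symm

end Fermat.Agent.X0.RR
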