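import Mathlib

/-!
# X-RR: the ramification index of a height-one prime, as a multiplicity

`eOver A v` is the multiplicity of `v.asIdeal` in the factorisation of `p B`, where `p` is the
contraction of `v.asIdeal` to `A`.
-/

set_option autoImplicit false

namespace Fermat.Agent.X0.RR

open IsDedekindDomain UniqueFactorizationMonoid

open Classical in
/-- The ramification index of the height-one prime `v` of `B` over `A`: the multiplicity of
`v.asIdeal` in `(v.asIdeal ∩ A) B`. -/
noncomputable def eOver (A : Type*) {B : Type*} [CommRing A] [CommRing B] [Algebra A B]
    [IsDedekindDomain B] (v : HeightOneSpectrum B) : ℕ :=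
  (normalizedFactors (Ideal.map (algebraMap A B) (v.asIdeal.under A))).count v.asIdeal

end Fermat.Agent.X0.RR
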