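import Mathlib
import Fermat.Agent.X0.RR.Defs

/-!
# X-RR, piece RR1: column reduction of polynomial matrices and the predictable degree property

* `colDeg W j`     : the maximal degree of the entries of the column `j` of `W`;
* `leadMat W`      : the matrix of the coefficients of `X ^ colDeg W j` in column `j`;
* `IsColReduced W` : `leadMat W` is nonsingular.

* `exists_colReduced` : every nonsingular polynomial matrix is column equivalent to a column
  reduced one.
* `intDegLE_mulVec_iff` : the predictable degree property.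
-/

set_option autoImplicit false
set_option linter.unusedSectionVars false
set_option linter.unusedSimpArgs false

open Polynomial Matrix

namespace Fermat.Agent.X0.RR

variable {K : Type*} [Field K] {n : Type*} [Fintype n] [DecidableEq n]

/-- the maximal degree in the column `j` -/
def colDeg (W : Matrix n n K[X]) (j : n) : ℕ := Finset.univ.sup fun i => (W i j).natDegree

/-- the matrix of leading column coefficients -/
def leadMat (W : Matrix n n K[X]) : Matrix n n K := fun i j => (W i j).coeff (colDeg W j)

/-- column reduced matrices -/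
def IsColReduced (W : Matrix n n K[X]) : Prop := (leadMat W).det ≠ 0

lemma natDegree_le_colDeg (W : Matrix n n K[X]) (i j : n) : (W i j).natDegree ≤ colDeg W j :=
  Finset.le_sup (f := fun i => (W i j).natDegree) (Finset.mem_univ i)

namespace ColRed

/-- a polynomial of degree `≤ d` whose `d`-th coefficient vanishes has degree `< d` (if `0 < d`). -/
lemma natDegree_lt_of_coeff_eq_zero {p : K[X]} {d : ℕ} (hd : 0 < d) (h1 : p.natDegree ≤ d)
    (h2 : p.coeff d = 0) : p.natDegree < d := by
  rcases lt_or_eq_of_le h1 with h | h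
  · exact h
  · exfalso
    have hp : p ≠ 0 := by
      rintro rfl
      simp at h
      omega
    have := Polynomial.leadingCoeff_ne_zero.mpr hp
    rw [Polynomial.leadingCoeff, h] at this
    exact this h2

/-- the elementary column operation used in the reduction step -/
noncomputable def stepMat (M : Matrix n n K[X]) (c : n → K) (j0 : n) : Matrix n n K[X] :=
  (1 : Matrix n n K[X]).updateCol j0 fun j => C (c j) * X ^ (colDeg M j0 - colDeg M j)

lemma det_stepMat (M : Matrix n n K[X]) (c : n → K) (j0 : n) :
    (stepMat M c j0).det = C (c j0) := by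
  unfold stepMat
  rw [← Matrix.cramer_apply, Matrix.cramer_one]
  simp

lemma mul_stepMat_of_ne (M : Matrix n n K[X]) (c : n → K) {j0 k : n} (hk : k ≠ j0) (i : n) :
    (M * stepMat M c j0) i k = M i k := by
  simp [stepMat, Matrix.mul_apply, Matrix.updateCol_apply, hk, Matrix.one_apply]

lemma mul_stepMat_self (M : Matrix n n K[X]) (c : n → K) (j0 : n) (i : n) :
    (M * stepMat M c j0) i j0
      = ∑ j, M i j * (C (c j) * X ^ (colDeg M j0 - colDeg M j)) := by
  simp [stepMat, Matrix.mul_apply, Matrix.updateCol_apply]

/-- the entries of the new column have degree `≤ d₀` and vanishing `d₀`-th coefficient -/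
lemma step_col_bound (M : Matrix n n K[X]) (c : n → K) (j0 : n)
    (hmax : ∀ j, c j ≠ 0 → colDeg M j ≤ colDeg M j0) (hc : leadMat M *ᵥ c = 0) (i : n) :
    ((M * stepMat M c j0) i j0).natDegree ≤ colDeg M j0 ∧
      ((M * stepMat M c j0) i j0).coeff (colDeg M j0) = 0 := by
  rw [mul_stepMat_self]
  constructor
  · refine Polynomial.natDegree_sum_le_of_forall_le _ _ fun j _ => ?_
    by_cases hj : c j = 0
    · simp [hj]
    · refine (Polynomial.natDegree_mul_le).trans ?_
      have h1 := natDegree_le_colDeg M i j
      have h2 : (C (c j) * X ^ (colDeg M j0 - colDeg M j) : K[X]).natDegree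
          ≤ colDeg M j0 - colDeg M j := Polynomial.natDegree_C_mul_X_pow_le _ _
      have h3 := hmax j hj
      omega
  · rw [Polynomial.finsetSum_coeff]
    have h0 : ∀ j, (M i j * (C (c j) * X ^ (colDeg M j0 - colDeg M j))).coeff (colDeg M j0)
        = leadMat M i j * c j := by
      intro j
      by_cases hj : c j = 0
      · simp [hj]
      · have h3 := hmax j hj
        have e : M i j * (C (c j) * X ^ (colDeg M j0 - colDeg M j))
            = C (c j) * (M i j * X ^ (colDeg M j0 - colDeg M j)) := by ring
        rw [e, Polynomial.coeff_C_mul, Polynomial.coeff_mul_X_pow', if_pos (Nat.sub_le _ _),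
          Nat.sub_sub_self h3, leadMat, mul_comm]
    simp_rw [h0]
    have := congrFun hc i
    simpa [Matrix.mulVec, dotProduct] using this

end ColRed

open ColRed in
/-- **Theorem A**: a nonsingular polynomial matrix is column equivalent to a column reduced one. -/
theorem exists_colReduced (M : Matrix n n K[X]) (hM : M.det ≠ 0) :
    ∃ U : Matrix n n K[X], IsUnit U.det ∧ IsColReduced (M * U) := by
  suffices H : ∀ (s : ℕ) (M : Matrix n n K[X]), M.det ≠ 0 → (∑ j, colDeg M j) = s →
      ∃ U : Matrix n n K[X], IsUnit U.det ∧ IsColReduced (M * U) from H _ M hM rfl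
  classical
  intro s
  induction s using Nat.strong_induction_on with
  | _ s ih =>
    intro M hM hs
    by_cases hred : IsColReduced M
    · exact ⟨1, by simp, by simpa using hred⟩
    · have hdet : (leadMat M).det = 0 := not_not.mp hred
      obtain ⟨c, hc0, hc⟩ := Matrix.exists_mulVec_eq_zero_iff.mpr hdet
      have hsup : (Finset.univ.filter fun j => c j ≠ 0).Nonempty := by
        by_contra h
        rw [Finset.not_nonempty_iff_eq_empty, Finset.filter_eq_empty_iff] at h
        apply hc0
        ext j
        simpa using h (Finset.mem_univ j)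
      obtain ⟨j0, hj0mem, hj0max⟩ :=
        Finset.exists_max_image _ (fun j => colDeg M j) hsup
      have hcj0 : c j0 ≠ 0 := (Finset.mem_filter.mp hj0mem).2
      have hmax : ∀ j, c j ≠ 0 → colDeg M j ≤ colDeg M j0 := fun j hj =>
        hj0max j (Finset.mem_filter.mpr ⟨Finset.mem_univ j, hj⟩)
      set E := stepMat M c j0 with hE
      have hdetE : E.det = C (c j0) := det_stepMat M c j0
      have hdetME : (M * E).det ≠ 0 := by
        rw [Matrix.det_mul, hdetE]
        exact mul_ne_zero hM (by simpa using hcj0)
      have hbound := step_col_bound M c j0 hmax hc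
      -- the degree of column `j0` is positive
      have hpos : 0 < colDeg M j0 := by
        by_contra h0
        have h0' : colDeg M j0 = 0 := by omega
        apply hdetME
        apply Matrix.det_eq_zero_of_column_eq_zero j0
        intro i
        obtain ⟨h1, h2⟩ := hbound i
        rw [h0'] at h1 h2
        rw [Polynomial.eq_C_of_natDegree_le_zero h1, h2, map_zero]
      have hcol_ne : ∀ k, k ≠ j0 → colDeg (M * E) k = colDeg M k := by
        intro k hk
        unfold colDeg
        congr 1
        ext i
        rw [hE, mul_stepMat_of_ne M c hk]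
      have hcol_lt : colDeg (M * E) j0 < colDeg M j0 := by
        have hpos' : (⊥ : ℕ) < colDeg M j0 := by simpa using hpos
        show (Finset.univ.sup fun i => ((M * E) i j0).natDegree) < colDeg M j0
        rw [Finset.sup_lt_iff hpos']
        intro i _
        obtain ⟨h1, h2⟩ := hbound i
        exact natDegree_lt_of_coeff_eq_zero hpos h1 h2
      have hsum : (∑ j, colDeg (M * E) j) < s := by
        rw [← hs]
        apply Finset.sum_lt_sum
        · intro k _
          by_cases hk : k = j0
          · rw [hk]; exact hcol_lt.le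
          · rw [hcol_ne k hk]
        · exact ⟨j0, Finset.mem_univ _, hcol_lt⟩
      obtain ⟨U', hU', hred'⟩ := ih _ hsum (M * E) hdetME rfl
      refine ⟨E * U', ?_, ?_⟩
      · rw [Matrix.det_mul, hdetE]
        exact (Polynomial.isUnit_C.mpr (isUnit_iff_ne_zero.mpr hcj0)).mul hU'
      · rwa [← Matrix.mul_assoc]


/-! ### The predictable degree property, polynomial version -/

namespace ColRed

/-- the "predicted degree" of `W *ᵥ g` -/
noncomputable def predDeg (W : Matrix n n K[X]) (g : n → K[X]) : ℕ :=
  open Classical in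
  (Finset.univ.filter fun j => g j ≠ 0).sup fun j => (g j).natDegree + colDeg W j

lemma le_predDeg (W : Matrix n n K[X]) (g : n → K[X]) {j : n} (hj : g j ≠ 0) :
    (g j).natDegree + colDeg W j ≤ predDeg W g := by
  classical
  exact Finset.le_sup (f := fun j => (g j).natDegree + colDeg W j)
    (Finset.mem_filter.mpr ⟨Finset.mem_univ j, hj⟩)

lemma exists_eq_predDeg (W : Matrix n n K[X]) {g : n → K[X]} (hg : g ≠ 0) :
    ∃ j, g j ≠ 0 ∧ (g j).natDegree + colDeg W j = predDeg W g := by
  classical
  have hne : (Finset.univ.filter fun j => g j ≠ 0).Nonempty := by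
    by_contra h
    rw [Finset.not_nonempty_iff_eq_empty, Finset.filter_eq_empty_iff] at h
    apply hg
    funext j
    simpa using h (Finset.mem_univ j)
  obtain ⟨j, hj, hjeq⟩ := Finset.exists_mem_eq_sup _ hne
    (fun j => (g j).natDegree + colDeg W j)
  exact ⟨j, (Finset.mem_filter.mp hj).2, hjeq.symm⟩

/-- the coefficient of `X ^ predDeg` in `W *ᵥ g` -/
lemma coeff_mulVec_predDeg (W : Matrix n n K[X]) (g : n → K[X]) (i : n) :
    ((W *ᵥ g) i).coeff (predDeg W g)
      = (leadMat W *ᵥ fun j => (g j).coeff (predDeg W g - colDeg W j)) i := by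
  simp only [Matrix.mulVec, dotProduct, Polynomial.finsetSum_coeff]
  refine Finset.sum_congr rfl fun j _ => ?_
  by_cases hj : g j = 0
  · simp [hj]
  · have h1 := natDegree_le_colDeg W i j
    have h2 := le_predDeg W g hj
    have h3 : (g j).natDegree ≤ predDeg W g - colDeg W j := by omega
    have h4 : colDeg W j + (predDeg W g - colDeg W j) = predDeg W g := by omega
    have := Polynomial.coeff_mul_add_eq_of_natDegree_le h1 h3
    rw [h4] at this
    rw [this, leadMat]

lemma natDegree_mulVec_le (W : Matrix n n K[X]) (g : n → K[X]) (i : n) :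
    ((W *ᵥ g) i).natDegree ≤ predDeg W g := by
  simp only [Matrix.mulVec, dotProduct]
  refine Polynomial.natDegree_sum_le_of_forall_le _ _ fun j _ => ?_
  by_cases hj : g j = 0
  · simp [hj]
  · refine (Polynomial.natDegree_mul_le).trans ?_
    have h1 := natDegree_le_colDeg W i j
    have h2 := le_predDeg W g hj
    omega

/-- **predictable degree, polynomial form**: some entry of `W *ᵥ g` has exactly the predicted
degree. -/
lemma exists_coeff_mulVec_ne_zero {W : Matrix n n K[X]} (hW : IsColReduced W) {g : n → K[X]}
    (hg : g ≠ 0) : ∃ i, ((W *ᵥ g) i).coeff (predDeg W g) ≠ 0 := by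
  by_contra h
  push Not at h
  have h0 : leadMat W *ᵥ (fun j => (g j).coeff (predDeg W g - colDeg W j)) = 0 := by
    ext i
    rw [← coeff_mulVec_predDeg, h i]; rfl
  have h1 := Matrix.eq_zero_of_mulVec_eq_zero hW h0
  obtain ⟨j, hj, hjeq⟩ := exists_eq_predDeg W hg
  have h2 := congrFun h1 j
  simp only [Pi.zero_apply] at h2
  have h3 : predDeg W g - colDeg W j = (g j).natDegree := by omega
  rw [h3] at h2
  exact hj (Polynomial.leadingCoeff_eq_zero.mp h2)

end ColRed

open ColRed in
/-- a column reduced matrix is nonsingular -/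
theorem det_ne_zero_of_isColReduced {W : Matrix n n K[X]} (hW : IsColReduced W) : W.det ≠ 0 := by
  intro h
  obtain ⟨g, hg, hWg⟩ := Matrix.exists_mulVec_eq_zero_iff.mpr h
  obtain ⟨i, hi⟩ := exists_coeff_mulVec_ne_zero hW hg
  rw [hWg] at hi
  simp at hi

open ColRed in
/-- **Theorem B, polynomial version.** -/
theorem natDegree_le_of_mulVec {W : Matrix n n K[X]} (hW : IsColReduced W) (g : n → K[X]) (m : ℤ)
    (h : ∀ i, (W *ᵥ g) i = 0 ∨ (((W *ᵥ g) i).natDegree : ℤ) ≤ m) (j : n) :
    g j = 0 ∨ ((g j).natDegree : ℤ) ≤ m - colDeg W j := by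
  by_cases hg : g = 0
  · left; rw [hg]; rfl
  · by_cases hj : g j = 0
    · exact Or.inl hj
    · right
      obtain ⟨i, hi⟩ := exists_coeff_mulVec_ne_zero hW hg
      have h1 : predDeg W g ≤ ((W *ᵥ g) i).natDegree := Polynomial.le_natDegree_of_ne_zero hi
      have h2 : (W *ᵥ g) i ≠ 0 := by
        intro h0; rw [h0] at hi; simp at hi
      have h3 := (h i).resolve_left h2
      have h4 := le_predDeg W g hj
      have h5 : ((g j).natDegree : ℤ) + colDeg W j ≤ predDeg W g := by exact_mod_cast h4
      have h6 : (predDeg W g : ℤ) ≤ ((W *ᵥ g) i).natDegree := by exact_mod_cast h1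
      linarith


/-! ### The predictable degree property, rational version -/

namespace ColRed

lemma intDegLE_zero (m : ℤ) : IntDegLE (0 : RatFunc K) m := Or.inl rfl

lemma intDegLE_mono {f : RatFunc K} {m m' : ℤ} (h : IntDegLE f m) (hm : m ≤ m') :
    IntDegLE f m' := h.imp id fun h => h.trans hm

lemma algebraMap_injective' : Function.Injective (algebraMap K[X] (RatFunc K)) :=
  IsFractionRing.injective K[X] (RatFunc K)

lemma intDegLE_algebraMap_iff (p : K[X]) (m : ℤ) :
    IntDegLE (algebraMap K[X] (RatFunc K) p) m ↔ p = 0 ∨ (p.natDegree : ℤ) ≤ m := by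
  unfold IntDegLE
  rw [RatFunc.intDegree_polynomial, map_eq_zero_iff _ algebraMap_injective']

lemma intDegLE_add {f g : RatFunc K} {m : ℤ} (hf : IntDegLE f m) (hg : IntDegLE g m) :
    IntDegLE (f + g) m := by
  by_cases hfg : f + g = 0
  · exact Or.inl hfg
  · right
    rcases hf with rfl | hf
    · rcases hg with rfl | hg
      · simp at hfg
      · simpa using hg
    · rcases hg with rfl | hg
      · simpa using hf
      · by_cases hg0 : g = 0
        · subst hg0; simpa using hf
        · exact (RatFunc.intDegree_add_le hg0 hfg).trans (max_le hf hg)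

lemma intDegLE_sum {ι : Type*} (s : Finset ι) (f : ι → RatFunc K) (m : ℤ)
    (h : ∀ i ∈ s, IntDegLE (f i) m) : IntDegLE (∑ i ∈ s, f i) m := by
  classical
  induction s using Finset.induction_on with
  | empty => simpa using intDegLE_zero m
  | insert a s ha ih =>
    rw [Finset.sum_insert ha]
    exact intDegLE_add (h a (Finset.mem_insert_self a s))
      (ih fun i hi => h i (Finset.mem_insert_of_mem hi))

lemma intDegLE_mul {f g : RatFunc K} {k l : ℤ} (hf : IntDegLE f k) (hg : IntDegLE g l) :
    IntDegLE (f * g) (k + l) := by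
  rcases hf with rfl | hf
  · left; simp
  · rcases hg with rfl | hg
    · left; simp
    · by_cases hf0 : f = 0
      · left; simp [hf0]
      · by_cases hg0 : g = 0
        · left; simp [hg0]
        · right
          rw [RatFunc.intDegree_mul hf0 hg0]
          exact add_le_add hf hg

lemma intDegLE_mul_left_iff {q : RatFunc K} (hq : q ≠ 0) (f : RatFunc K) (m : ℤ) :
    IntDegLE (q * f) (m + q.intDegree) ↔ IntDegLE f m := by
  by_cases hf : f = 0
  · subst hf
    simp [IntDegLE]
  · unfold IntDegLE
    rw [RatFunc.intDegree_mul hq hf]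
    simp only [mul_eq_zero, hq, hf, false_or]
    constructor <;> intro h <;> linarith

end ColRed

open ColRed in
/-- **Theorem B (predictable degree property).** -/
theorem intDegLE_mulVec_iff {W : Matrix n n K[X]} (hW : IsColReduced W) (f : n → RatFunc K)
    (m : ℤ) :
    (∀ i, IntDegLE ((W.map (algebraMap K[X] (RatFunc K)) *ᵥ f) i) m) ↔
      ∀ j, IntDegLE (f j) (m - colDeg W j) := by
  constructor
  · intro h j
    obtain ⟨b, hb⟩ := IsLocalization.exist_integer_multiples (nonZeroDivisors K[X])
      (Finset.univ : Finset n) f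
    choose g hg using fun j => hb j (Finset.mem_univ j)
    have hb0 : algebraMap K[X] (RatFunc K) (b : K[X]) ≠ 0 := by
      rw [Ne, map_eq_zero_iff _ algebraMap_injective']
      exact nonZeroDivisors.ne_zero b.2
    have hg' : ∀ j, algebraMap K[X] (RatFunc K) (g j)
        = algebraMap K[X] (RatFunc K) (b : K[X]) * f j := by
      intro j
      rw [hg j, Algebra.smul_def]
    -- `W *ᵥ g` corresponds to `b * (W *ᵥ f)`
    have hWg : ∀ i, algebraMap K[X] (RatFunc K) ((W *ᵥ g) i)
        = algebraMap K[X] (RatFunc K) (b : K[X])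
          * (W.map (algebraMap K[X] (RatFunc K)) *ᵥ f) i := by
      intro i
      simp only [Matrix.mulVec, dotProduct, map_sum, map_mul, Matrix.map_apply, Finset.mul_sum]
      refine Finset.sum_congr rfl fun j _ => ?_
      rw [hg' j]; ring
    have hdeg : (algebraMap K[X] (RatFunc K) (b : K[X])).intDegree = ((b : K[X]).natDegree : ℤ) :=
      RatFunc.intDegree_polynomial
    have key := natDegree_le_of_mulVec hW g (m + (b : K[X]).natDegree) (by
      intro i
      rw [← intDegLE_algebraMap_iff, hWg i, ← hdeg, intDegLE_mul_left_iff hb0]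
      exact h i) j
    rw [← intDegLE_algebraMap_iff, hg' j] at key
    have e : m + ((b : K[X]).natDegree : ℤ) - colDeg W j
        = (m - colDeg W j) + (algebraMap K[X] (RatFunc K) (b : K[X])).intDegree := by
      rw [hdeg]; ring
    rw [e, intDegLE_mul_left_iff hb0] at key
    exact key
  · intro h i
    simp only [Matrix.mulVec, dotProduct, Matrix.map_apply]
    refine intDegLE_sum _ _ _ fun j _ => ?_
    have h1 : IntDegLE (algebraMap K[X] (RatFunc K) (W i j)) (colDeg W j) := by
      rw [intDegLE_algebraMap_iff]
      right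
      exact_mod_cast natDegree_le_colDeg W i j
    have := intDegLE_mul h1 (h j)
    rwa [add_sub_cancel] at this


/-! ### Corollary C: the columns `X ^ (-colDeg W j) • W_j` form an `Rinf`-basis of `Rinf ^ n` -/

/-- the matrix `W` over `RatFunc K` -/
noncomputable abbrev ratMat (W : Matrix n n K[X]) : Matrix n n (RatFunc K) :=
  W.map (algebraMap K[X] (RatFunc K))

theorem det_ratMat_ne_zero {W : Matrix n n K[X]} (hW : IsColReduced W) : (ratMat W).det ≠ 0 := by
  have h : (ratMat W).det = algebraMap K[X] (RatFunc K) W.det := by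
    rw [RingHom.map_det]; rfl
  rw [h, Ne, map_eq_zero_iff _ ColRed.algebraMap_injective']
  exact det_ne_zero_of_isColReduced hW

theorem ratMat_mulVec_injective {W : Matrix n n K[X]} (hW : IsColReduced W) :
    Function.Injective (ratMat W).mulVec := by
  intro f₁ f₂ h
  have h0 : ratMat W *ᵥ (f₁ - f₂) = 0 := by rw [Matrix.mulVec_sub, h, sub_self]
  exact sub_eq_zero.mp (Matrix.eq_zero_of_mulVec_eq_zero (det_ratMat_ne_zero hW) h0)

theorem ratMat_mulVec_surjective {W : Matrix n n K[X]} (hW : IsColReduced W) :
    Function.Surjective (ratMat W).mulVec := by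
  intro v
  have hu : IsUnit (ratMat W).det := isUnit_iff_ne_zero.mpr (det_ratMat_ne_zero hW)
  refine ⟨(ratMat W)⁻¹ *ᵥ v, ?_⟩
  rw [Matrix.mulVec_mulVec, Matrix.mul_nonsing_inv _ hu, Matrix.one_mulVec]

open ColRed in
/-- **Corollary C.** `W *ᵥ f` has all entries in `Rinf K` iff `X ^ colDeg W j * f j ∈ Rinf K` for
all `j`. -/
theorem forall_mulVec_mem_Rinf_iff {W : Matrix n n K[X]} (hW : IsColReduced W)
    (f : n → RatFunc K) :
    (∀ i, (ratMat W *ᵥ f) i ∈ Rinf K) ↔ ∀ j, (RatFunc.X : RatFunc K) ^ colDeg W j * f j ∈ Rinf K := by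
  simp_rw [mem_Rinf_iff]
  rw [intDegLE_mulVec_iff hW f 0]
  refine forall_congr' fun j => ?_
  have hX : (RatFunc.X : RatFunc K) ^ colDeg W j ≠ 0 := pow_ne_zero _ RatFunc.X_ne_zero
  have hdeg : ((RatFunc.X : RatFunc K) ^ colDeg W j).intDegree = colDeg W j := by
    have : (RatFunc.X : RatFunc K) ^ colDeg W j
        = algebraMap K[X] (RatFunc K) (Polynomial.X ^ colDeg W j) := by
      rw [map_pow, RatFunc.algebraMap_X]
    rw [this, RatFunc.intDegree_polynomial, Polynomial.natDegree_X_pow]
  have := intDegLE_mul_left_iff hX (f j) (0 - (colDeg W j : ℤ))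
  rw [hdeg, sub_add_cancel] at this
  exact this.symm

/-- **Corollary C, basis form.** A vector has all entries in `Rinf K` iff it is a (unique)
combination of the columns `X ^ (-colDeg W j) • W_j` with coefficients in `Rinf K`. -/
theorem forall_mem_Rinf_iff_exists {W : Matrix n n K[X]} (hW : IsColReduced W)
    (v : n → RatFunc K) :
    (∀ i, v i ∈ Rinf K) ↔
      ∃ g : n → RatFunc K, (∀ j, g j ∈ Rinf K) ∧
        v = ratMat W *ᵥ fun j => ((RatFunc.X : RatFunc K) ^ colDeg W j)⁻¹ * g j := by
  have hX : ∀ j, (RatFunc.X : RatFunc K) ^ colDeg W j ≠ 0 := fun j =>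
    pow_ne_zero _ RatFunc.X_ne_zero
  constructor
  · intro hv
    obtain ⟨f, rfl⟩ := ratMat_mulVec_surjective hW v
    refine ⟨fun j => (RatFunc.X : RatFunc K) ^ colDeg W j * f j,
      (forall_mulVec_mem_Rinf_iff hW f).mp hv, ?_⟩
    congr 1
    funext j
    rw [inv_mul_cancel_left₀ (hX j)]
  · rintro ⟨g, hg, rfl⟩
    rw [forall_mulVec_mem_Rinf_iff hW]
    intro j
    rw [mul_inv_cancel_left₀ (hX j)]
    exact hg j

end Fermat.Agent.X0.RR
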