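import Mathlib
import Fermat.Agent.X0.RR.Infty

/-!
# X-RR (RR2, definitions): lattice pairs in coordinates

`V` a finite-dimensional `RatFunc K`-vector space with a basis `b`.

* `coordK b : V ≃ₗ[K] (ι → RatFunc K)` : coordinates, as a `K`-linear equivalence;
* `latF b` : the `K[X]`-lattice `⊕ K[X] b_i`, as a `K`-subspace of `V`;
* `latInf b d` : the `Rinf`-lattice `⊕ X^{d_i} Rinf b_i`, as a `K`-subspace of `V`.
-/

set_option autoImplicit false

open Polynomial

namespace Fermat.Agent.X0.RR

variable {K : Type*} [Field K] {ι : Type*} [Fintype ι]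
  {V : Type*} [AddCommGroup V] [Module (RatFunc K) V] [Module K V] [IsScalarTower K (RatFunc K) V]

/-- Coordinates with respect to a `RatFunc K`-basis, as a `K`-linear equivalence. -/
noncomputable def coordK (b : Module.Basis ι (RatFunc K) V) : V ≃ₗ[K] (ι → RatFunc K) :=
  b.equivFun.restrictScalars K

@[simp] theorem coordK_apply (b : Module.Basis ι (RatFunc K) V) (v : V) (i : ι) :
    coordK b v i = b.repr v i := rfl

/-- The `K[X]`-lattice spanned by the basis `b`, as a `K`-subspace. -/
noncomputable def latF (b : Module.Basis ι (RatFunc K) V) : Submodule K V :=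
  (Submodule.pi Set.univ fun _ : ι => polySub K).comap (coordK b).toLinearMap

/-- The `Rinf`-lattice spanned by the `X ^ d i • b i`, as a `K`-subspace. -/
noncomputable def latInf (b : Module.Basis ι (RatFunc K) V) (d : ι → ℤ) : Submodule K V :=
  (Submodule.pi Set.univ fun i : ι => degLE K (d i)).comap (coordK b).toLinearMap

theorem mem_latF {b : Module.Basis ι (RatFunc K) V} {v : V} :
    v ∈ latF b ↔ ∀ i, b.repr v i ∈ polySub K := by
  simp [latF, Submodule.mem_pi]

theorem mem_latInf {b : Module.Basis ι (RatFunc K) V} {d : ι → ℤ} {v : V} :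
    v ∈ latInf b d ↔ ∀ i, IntDegLE (b.repr v i) (d i) := by
  simp [latInf, Submodule.mem_pi, mem_degLE]

theorem mem_latInf_zero {b : Module.Basis ι (RatFunc K) V} {v : V} :
    v ∈ latInf b 0 ↔ ∀ i, b.repr v i ∈ Rinf K := by
  simp [mem_latInf, mem_Rinf_iff]

theorem latInf_mono {b : Module.Basis ι (RatFunc K) V} {d d' : ι → ℤ} (h : d ≤ d') :
    latInf b d ≤ latInf b d' := fun _ hv =>
  mem_latInf.mpr fun i => (mem_latInf.mp hv i).mono (h i)

/-- `latF b` is the `K[X]`-span of `b`. -/
theorem mem_latF_iff_mem_span [Module K[X] V] [IsScalarTower K[X] (RatFunc K) V]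
    {b : Module.Basis ι (RatFunc K) V} {v : V} :
    v ∈ latF b ↔ v ∈ Submodule.span K[X] (Set.range b) := by
  rw [mem_latF, b.mem_span_iff_repr_mem K[X]]
  rfl

/-- `latInf b 0` is the `Rinf`-span of `b`. -/
theorem mem_latInf_zero_iff_mem_span [Module ↥(Rinf K) V] [IsScalarTower ↥(Rinf K) (RatFunc K) V]
    {b : Module.Basis ι (RatFunc K) V} {v : V} :
    v ∈ latInf b 0 ↔ v ∈ Submodule.span ↥(Rinf K) (Set.range b) := by
  rw [mem_latInf_zero, b.mem_span_iff_repr_mem ↥(Rinf K)]
  refine forall_congr' fun i => ?_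
  constructor
  · intro h; exact ⟨⟨_, h⟩, rfl⟩
  · rintro ⟨x, hx⟩; rw [← hx]; exact x.2

/-- Multiplying by `X ^ k` shifts the degrees. -/
theorem X_zpow_smul_mem_latInf_iff {b : Module.Basis ι (RatFunc K) V} {d : ι → ℤ} {v : V}
    (k : ℤ) : (RatFunc.X : RatFunc K) ^ k • v ∈ latInf b (fun i => d i + k) ↔ v ∈ latInf b d := by
  simp only [mem_latInf, map_smul, Finsupp.smul_apply, smul_eq_mul]
  refine forall_congr' fun i => ?_
  rw [mul_comm]
  exact intDegLE_mul_X_zpow_iff

end Fermat.Agent.X0.RR
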