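import Mathlib
import Fermat.Agent.X0.RR.Lattice
import Fermat.Agent.X0.RR.ColumnReduce

/-!
# X-RR (RR2b): Birkhoff–Grothendieck in coordinates

Given two bases `β`, `γ` of a finite dimensional `RatFunc K`-vector space `V`, there are a basis
`b` and integers `d` such that `b` spans the same `K[X]`-lattice as `β` and the `X ^ d i • b i`
span the same `Rinf`-lattice as `γ`:

`exists_std_basis : ∃ b d, latF b = latF β ∧ latInf b d = latInf γ 0`.
-/

set_option autoImplicit false

open Polynomial Matrix

namespace Fermat.Agent.X0.RR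

variable {K : Type*} [Field K] {ι : Type*} [Fintype ι]
  {V : Type*} [AddCommGroup V] [Module (RatFunc K) V] [Module K V] [IsScalarTower K (RatFunc K) V]

namespace BGaux

/-- A polynomial matrix maps polynomial vectors to polynomial vectors. -/
lemma ratMat_mulVec_mem_polySub [DecidableEq ι] (U : Matrix ι ι K[X]) {f : ι → RatFunc K}
    (hf : ∀ j, f j ∈ polySub K) (i : ι) : (ratMat U *ᵥ f) i ∈ polySub K := by
  choose p hp using fun j => mem_polySub.mp (hf j)
  refine mem_polySub.mpr ⟨(U *ᵥ p) i, ?_⟩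
  simp only [Matrix.mulVec, dotProduct, map_sum, map_mul, Matrix.map_apply, hp]

lemma ratMat_mul [DecidableEq ι] (A B : Matrix ι ι K[X]) : ratMat (A * B) = ratMat A * ratMat B := by
  simp [ratMat, Matrix.map_mul]

omit [Fintype ι] in
lemma ratMat_one [DecidableEq ι] : ratMat (1 : Matrix ι ι K[X]) = 1 := by
  simp [ratMat]

end BGaux

open BGaux ColRed in
/-- **Birkhoff–Grothendieck in coordinates.** -/
theorem exists_std_basis [DecidableEq ι] (β γ : Module.Basis ι (RatFunc K) V) :
    ∃ (b : Module.Basis ι (RatFunc K) V) (d : ι → ℤ), latF b = latF β ∧ latInf b d = latInf γ 0 := by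
  classical
  -- the base change matrix `N`, `γ.repr v = N *ᵥ β.repr v`
  set N : Matrix ι ι (RatFunc K) := γ.toMatrix β with hN
  have hNrepr : ∀ v : V, N *ᵥ (β.repr v : ι → RatFunc K) = γ.repr v := fun v =>
    Module.Basis.toMatrix_mulVec_repr β γ v
  have hNdet : N.det ≠ 0 := by
    have h1 : N * β.toMatrix γ = 1 := Module.Basis.toMatrix_mul_toMatrix_flip γ β
    intro h0
    have := congrArg Matrix.det h1
    rw [Matrix.det_mul, h0, zero_mul, Matrix.det_one] at this
    exact zero_ne_one this
  -- a common denominator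
  obtain ⟨q, hq⟩ := IsLocalization.exist_integer_multiples (nonZeroDivisors K[X])
    (Finset.univ : Finset (ι × ι)) (fun p => N p.1 p.2)
  choose M₀' hM₀' using fun p => hq p (Finset.mem_univ p)
  set g : K[X] := (q : K[X]) with hg
  have hg0 : g ≠ 0 := nonZeroDivisors.ne_zero q.2
  have hag0 : algebraMap K[X] (RatFunc K) g ≠ 0 := by
    rw [Ne, map_eq_zero_iff _ algebraMap_injective']
    exact hg0
  obtain ⟨M₀, hM₀⟩ : ∃ M₀ : Matrix ι ι K[X], ∀ i j,
      algebraMap K[X] (RatFunc K) (M₀ i j) = g • N i j :=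
    ⟨Matrix.of fun i j => M₀' (i, j), fun i j => hM₀' (i, j)⟩
  have hM₀N : ratMat M₀ = algebraMap K[X] (RatFunc K) g • N := by
    ext i j
    simp only [ratMat, Matrix.map_apply, Matrix.smul_apply, smul_eq_mul]
    rw [hM₀ i j, Algebra.smul_def]
  have hM₀det : M₀.det ≠ 0 := by
    intro h0
    have h : (ratMat M₀).det = algebraMap K[X] (RatFunc K) M₀.det := by
      rw [RingHom.map_det]; rfl
    rw [h0, map_zero, hM₀N, Matrix.det_smul] at h
    exact mul_ne_zero (pow_ne_zero _ hag0) hNdet h
  -- column reduction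
  obtain ⟨U, hU, hW⟩ := exists_colReduced M₀ hM₀det
  set W : Matrix ι ι K[X] := M₀ * U with hWdef
  -- the polynomial inverse of `U`
  have hUU' : U * U⁻¹ = 1 := Matrix.mul_nonsing_inv U hU
  have hU'U : U⁻¹ * U = 1 := Matrix.nonsing_inv_mul U hU
  have hPP' : ratMat U * ratMat U⁻¹ = 1 := by rw [← ratMat_mul, hUU', ratMat_one]
  have hP'P : ratMat U⁻¹ * ratMat U = 1 := by rw [← ratMat_mul, hU'U, ratMat_one]
  -- the new basis: `b.repr v = U⁻¹ *ᵥ β.repr v`
  set b : Module.Basis ι (RatFunc K) V :=
    Module.Basis.ofEquivFun (β.equivFun ≪≫ₗ Matrix.toLin'OfInv hPP' hP'P) with hb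
  have hbrepr : ∀ v : V, (b.repr v : ι → RatFunc K) = ratMat U⁻¹ *ᵥ (β.repr v : ι → RatFunc K) := by
    intro v
    funext i
    rw [hb, Module.Basis.ofEquivFun_repr_apply]
    simp [Matrix.toLin'OfInv, Matrix.toLin'_apply]
  have hβrepr : ∀ v : V, (β.repr v : ι → RatFunc K) = ratMat U *ᵥ (b.repr v : ι → RatFunc K) := by
    intro v
    rw [hbrepr v, Matrix.mulVec_mulVec, hPP', Matrix.one_mulVec]
  refine ⟨b, fun j => (g.natDegree : ℤ) - colDeg W j, ?_, ?_⟩
  · -- the `K[X]`-lattices agree
    ext v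
    rw [mem_latF, mem_latF]
    constructor
    · intro h i
      have := ratMat_mulVec_mem_polySub U (f := fun j => b.repr v j) h i
      rwa [← hβrepr v] at this
    · intro h i
      have := ratMat_mulVec_mem_polySub U⁻¹ (f := fun j => β.repr v j) h i
      rwa [← hbrepr v] at this
  · -- the lattices at infinity agree
    ext v
    rw [mem_latInf, mem_latInf]
    have hkey : ∀ i, algebraMap K[X] (RatFunc K) g * γ.repr v i
        = (ratMat W *ᵥ (b.repr v : ι → RatFunc K)) i := by
      intro i
      rw [hWdef, ratMat_mul, ← Matrix.mulVec_mulVec, ← hβrepr v, hM₀N, Matrix.smul_mulVec,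
        hNrepr v]
      simp
    have hdeg : (algebraMap K[X] (RatFunc K) g).intDegree = (g.natDegree : ℤ) :=
      RatFunc.intDegree_polynomial
    rw [← intDegLE_mulVec_iff hW (fun j => b.repr v j) (g.natDegree : ℤ)]
    refine forall_congr' fun i => ?_
    have := intDegLE_mul_left_iff hag0 (γ.repr v i) 0
    rw [hdeg, zero_add, hkey i] at this
    simpa using this
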