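import Mathlib
import Fermat.Agent.X0.RR.Lattice

/-!
# X-RR (RR2c, DUAL): dual lattices in coordinates

`V` a finite-dimensional `RatFunc K`-vector space with a basis `b`, `B` a nondegenerate bilinear
form on `V`, `b' := B.dualBasis hB b` the `B`-dual basis (`B (b' i) (b j) = δ_ij`).

* `mem_latF_dualBasis_iff` : `latF b'` is the `K[X]`-dual of `latF b`;
* `mem_latInf_dualBasis_shift_iff` : `latInf b' (-d + k)` is the set of `v` with
  `deg B(v, u) ≤ k` for all `u ∈ latInf b d`;
* `mem_latInf_dualBasis_iff` : `latInf b' (-d)` is the `Rinf`-dual of `latInf b d`.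

The dual side is always the FIRST argument of `B` (as in Mathlib's `Submodule.mem_traceDual`);
no symmetry assumption on `B`.
-/

set_option autoImplicit false

open Polynomial

namespace Fermat.Agent.X0.RR

variable {K : Type*} [Field K] {ι : Type*} [Fintype ι] [DecidableEq ι]
  {V : Type*} [AddCommGroup V] [Module (RatFunc K) V] [Module K V] [IsScalarTower K (RatFunc K) V]

namespace DualLattice

omit [Fintype ι] [DecidableEq ι] in
/-- `polySub K` is closed under multiplication. -/
theorem mul_mem_polySub {f g : RatFunc K} (hf : f ∈ polySub K) (hg : g ∈ polySub K) :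
    f * g ∈ polySub K := by
  obtain ⟨p, rfl⟩ := mem_polySub.mp hf
  obtain ⟨q, rfl⟩ := mem_polySub.mp hg
  exact mem_polySub.mpr ⟨p * q, map_mul _ _ _⟩

omit [Fintype ι] [DecidableEq ι] in
theorem one_mem_polySub : (1 : RatFunc K) ∈ polySub K :=
  mem_polySub.mpr ⟨1, map_one _⟩

omit [DecidableEq ι] [Module K V] [IsScalarTower K (RatFunc K) V] in
/-- Expansion of `B v u` in the coordinates of `u` with respect to `b`. -/
theorem bilin_eq_sum_repr (B : LinearMap.BilinForm (RatFunc K) V)
    (b : Module.Basis ι (RatFunc K) V) (v u : V) :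
    B v u = ∑ j, b.repr u j * B v (b j) := by
  conv_lhs => rw [← b.sum_repr u]
  rw [map_sum]
  refine Finset.sum_congr rfl fun j _ => ?_
  rw [map_smul, smul_eq_mul]

omit [Fintype ι] [Module K V] [IsScalarTower K (RatFunc K) V] in
/-- The coordinates of `b i` with respect to `b`. -/
theorem repr_self_eq_ite (b : Module.Basis ι (RatFunc K) V) (i j : ι) :
    b.repr (b i) j = if j = i then 1 else 0 := by
  rw [Module.Basis.repr_self, Finsupp.single_apply]
  simp only [eq_comm]

end DualLattice

open DualLattice

/-- `latF` of the dual basis is the `K[X]`-dual lattice of `latF b`. -/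
theorem mem_latF_dualBasis_iff (B : LinearMap.BilinForm (RatFunc K) V) (hB : B.Nondegenerate)
    (b : Module.Basis ι (RatFunc K) V) (v : V) :
    v ∈ latF (B.dualBasis hB b) ↔ ∀ u ∈ latF b, B v u ∈ polySub K := by
  rw [mem_latF]
  simp only [LinearMap.BilinForm.dualBasis_repr_apply]
  constructor
  · intro h u hu
    rw [bilin_eq_sum_repr B b v u]
    exact Submodule.sum_mem _ fun j _ => mul_mem_polySub (mem_latF.mp hu j) (h j)
  · intro h i
    refine h (b i) (mem_latF.mpr fun j => ?_)
    rw [repr_self_eq_ite]
    split_ifs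
    · exact one_mem_polySub
    · exact Submodule.zero_mem _

/-- General (shifted) form: `latInf b' (-d + k)` consists of the `v` with `deg B(v, u) ≤ k` for all
`u ∈ latInf b d`. -/
theorem mem_latInf_dualBasis_shift_iff (B : LinearMap.BilinForm (RatFunc K) V)
    (hB : B.Nondegenerate) (b : Module.Basis ι (RatFunc K) V) (d : ι → ℤ) (k : ℤ) (v : V) :
    v ∈ latInf (B.dualBasis hB b) (fun i => - d i + k) ↔
      ∀ u ∈ latInf b d, IntDegLE (B v u) k := by
  rw [mem_latInf]
  simp only [LinearMap.BilinForm.dualBasis_repr_apply]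
  constructor
  · intro h u hu
    rw [bilin_eq_sum_repr B b v u]
    have hmem : ∑ j, b.repr u j * B v (b j) ∈ degLE K k := by
      refine Submodule.sum_mem _ fun j _ => ?_
      rw [mem_degLE]
      have := (mem_latInf.mp hu j).mul (h j)
      rwa [show d j + (-d j + k) = k by ring] at this
    exact mem_degLE.mp hmem
  · intro h i
    have hu : (RatFunc.X : RatFunc K) ^ d i • b i ∈ latInf b d := by
      refine mem_latInf.mpr fun j => ?_
      rw [map_smul, Finsupp.smul_apply, smul_eq_mul, repr_self_eq_ite]
      split_ifs with hji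
      · subst hji
        rw [mul_one]
        exact intDegLE_X_zpow _
      · rw [mul_zero]
        exact IntDegLE.zero _
    have h1 := h _ hu
    rw [map_smul, smul_eq_mul, mul_comm] at h1
    have h2 : IntDegLE (B v (b i) * RatFunc.X ^ d i) ((-d i + k) + d i) := by
      rwa [show (-d i + k) + d i = k by ring]
    exact intDegLE_mul_X_zpow_iff.mp h2

/-- `latInf b' (-d)` is the `Rinf`-dual lattice of `latInf b d`. -/
theorem mem_latInf_dualBasis_iff (B : LinearMap.BilinForm (RatFunc K) V) (hB : B.Nondegenerate)
    (b : Module.Basis ι (RatFunc K) V) (d : ι → ℤ) (v : V) :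
    v ∈ latInf (B.dualBasis hB b) (fun i => - d i) ↔ ∀ u ∈ latInf b d, B v u ∈ Rinf K := by
  have h := mem_latInf_dualBasis_shift_iff B hB b d 0 v
  simp only [add_zero] at h
  rw [h]
  simp only [mem_Rinf_iff]

end Fermat.Agent.X0.RR
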