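import Mathlib
import Fermat.Agent.X0.RR.Additivity

/-!
# X-RR: comparing Euler characteristics of two dual pairs of subspaces (pure linear algebra)

`Lf ≤ Lf'`, `Li' ≤ Li` subspaces of `V` with `h⁰(Lf', Li') = h¹(Lf, Li)` and
`h¹(Lf', Li') = h⁰(Lf, Li)` (Serre duality), all finite. Then
`2 h⁰(Lf', Li') - 2 h⁰(Lf, Li) = dim Lf'/Lf - dim Li/Li'`.
-/

set_option autoImplicit false

namespace Fermat.Agent.X0.RR

universe u v

variable {K : Type v} [Field K] {V : Type u} [AddCommGroup V] [Module K V]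

open Module

theorem relRank_eq_finrank_quotient (L P : Submodule K V)
    [Module.Finite K (↥P ⧸ Submodule.comap P.subtype L)] :
    relRank L P = (finrank K (↥P ⧸ Submodule.comap P.subtype L) : Cardinal.{u}) := by
  rw [relRank_eq_rank_quotient, finrank_eq_rank]

theorem euler_char_compare {Lf Lf' Li Li' : Submodule K V} (hf : Lf ≤ Lf') (hi : Li' ≤ Li)
    [Module.Finite K ↥(Lf ⊓ Li)] [Module.Finite K (V ⧸ (Lf ⊔ Li))]
    [Module.Finite K ↥(Lf' ⊓ Li')] [Module.Finite K (V ⧸ (Lf' ⊔ Li'))]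
    [Module.Finite K (↥Lf' ⧸ Submodule.comap Lf'.subtype Lf)]
    [Module.Finite K (↥Li ⧸ Submodule.comap Li.subtype Li')]
    (h0 : finrank K ↥(Lf' ⊓ Li') = finrank K (V ⧸ (Lf ⊔ Li)))
    (h1 : finrank K (V ⧸ (Lf' ⊔ Li')) = finrank K ↥(Lf ⊓ Li)) :
    2 * (finrank K ↥(Lf' ⊓ Li') : ℤ) - 2 * (finrank K ↥(Lf ⊓ Li) : ℤ) =
      (finrank K (↥Lf' ⧸ Submodule.comap Lf'.subtype Lf) : ℤ) -
        (finrank K (↥Li ⧸ Submodule.comap Li.subtype Li') : ℤ) := by
  -- the two instances of additivity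
  have ea := rank_inf_add_rank_quotient_sup (le_refl Lf) hi
  have eb := rank_inf_add_rank_quotient_sup hf (le_refl Li')
  rw [relRank_self, add_zero] at ea
  rw [relRank_self, add_zero] at eb
  -- finiteness of the mixed pair
  have : Module.Finite K ↥(Lf ⊓ Li') :=
    Submodule.finiteDimensional_of_le (inf_le_inf_left Lf hi)
  have hc1 : Module.Finite K (V ⧸ (Lf ⊔ Li')) := by
    rw [← Module.rank_lt_aleph0_iff]
    have hlt : Module.rank K ↥(Lf ⊓ Li) + Module.rank K (V ⧸ (Lf ⊔ Li')) < Cardinal.aleph0 := by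
      rw [ea, relRank_eq_finrank_quotient, ← finrank_eq_rank, ← finrank_eq_rank]
      exact_mod_cast Cardinal.natCast_lt_aleph0
    exact lt_of_le_of_lt (self_le_add_left _ _) hlt
  rw [relRank_eq_finrank_quotient, ← finrank_eq_rank, ← finrank_eq_rank, ← finrank_eq_rank,
    ← finrank_eq_rank] at ea eb
  have ea' : finrank K ↥(Lf ⊓ Li) + finrank K (V ⧸ (Lf ⊔ Li')) =
      finrank K ↥(Lf ⊓ Li') + finrank K (V ⧸ (Lf ⊔ Li)) +
        finrank K (↥Li ⧸ Submodule.comap Li.subtype Li') := by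
    exact_mod_cast ea
  have eb' : finrank K ↥(Lf' ⊓ Li') + finrank K (V ⧸ (Lf ⊔ Li')) =
      finrank K ↥(Lf ⊓ Li') + finrank K (V ⧸ (Lf' ⊔ Li')) +
        finrank K (↥Lf' ⧸ Submodule.comap Lf'.subtype Lf) := by
    exact_mod_cast eb
  omega

end Fermat.Agent.X0.RR
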