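import Mathlib
import Fermat.Agent.X0.RR.Lattice

/-!
# X-RR (RR2a): `h⁰` and `h¹` of a standard lattice pair

For a basis `b` of a finite-dimensional `RatFunc K`-vector space `V` and `d : ι → ℤ`, the pair
`(latF b, latInf b d)` is `⊕ (K[X], X^{d i} Rinf)` in coordinates, hence
`dim (latF ∩ latInf) = ∑ (d i + 1)⁺` and `dim V / (latF + latInf) = ∑ (-d i - 1)⁺`.
-/

set_option autoImplicit false

open Polynomial

namespace Fermat.Agent.X0.RR

section general

variable {R : Type*} [CommRing R] {ι : Type*} {M : ι → Type*} [∀ i, AddCommGroup (M i)]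
  [∀ i, Module R (M i)]

/-- `pi univ p ⊓ pi univ q = pi univ (p ⊓ q)`. -/
theorem pi_univ_inf_pi_univ (p q : ∀ i, Submodule R (M i)) :
    Submodule.pi Set.univ p ⊓ Submodule.pi Set.univ q =
      Submodule.pi Set.univ fun i => p i ⊓ q i := by
  ext x
  simp only [Submodule.mem_inf, Submodule.mem_pi, Set.mem_univ, forall_true_left]
  exact ⟨fun h i => ⟨h.1 i, h.2 i⟩, fun h => ⟨fun i => (h i).1, fun i => (h i).2⟩⟩

/-- `pi univ p ⊔ pi univ q = pi univ (p ⊔ q)`. -/
theorem pi_univ_sup_pi_univ (p q : ∀ i, Submodule R (M i)) :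
    Submodule.pi Set.univ p ⊔ Submodule.pi Set.univ q =
      Submodule.pi Set.univ fun i => p i ⊔ q i := by
  apply le_antisymm
  · exact sup_le (Submodule.pi_mono fun i _ => le_sup_left)
      (Submodule.pi_mono fun i _ => le_sup_right)
  · intro x hx
    simp only [Submodule.mem_pi, Set.mem_univ, forall_true_left, Submodule.mem_sup] at hx
    choose y hy z hz hyz using hx
    rw [Submodule.mem_sup]
    refine ⟨y, ?_, z, ?_, funext hyz⟩
    · simpa [Submodule.mem_pi] using hy
    · simpa [Submodule.mem_pi] using hz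

/-- The product of submodules as a product of modules. -/
def piUnivEquiv (p : ∀ i, Submodule R (M i)) :
    ↥(Submodule.pi Set.univ p) ≃ₗ[R] ∀ i, ↥(p i) where
  toFun x i := ⟨x.1 i, x.2 i (Set.mem_univ i)⟩
  invFun y := ⟨fun i => (y i).1, fun i _ => (y i).2⟩
  map_add' _ _ := rfl
  map_smul' _ _ := rfl
  left_inv _ := rfl
  right_inv _ := rfl

end general

variable {K : Type*} [Field K] {ι : Type*} [Fintype ι]
  {V : Type*} [AddCommGroup V] [Module (RatFunc K) V] [Module K V] [IsScalarTower K (RatFunc K) V]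

theorem latF_inf_latInf (b : Module.Basis ι (RatFunc K) V) (d : ι → ℤ) :
    latF b ⊓ latInf b d =
      (Submodule.pi Set.univ fun i : ι => polySub K ⊓ degLE K (d i)).comap
        (coordK b).toLinearMap := by
  rw [latF, latInf, ← Submodule.comap_inf, pi_univ_inf_pi_univ]

theorem latF_sup_latInf (b : Module.Basis ι (RatFunc K) V) (d : ι → ℤ) :
    latF b ⊔ latInf b d =
      (Submodule.pi Set.univ fun i : ι => polySub K ⊔ degLE K (d i)).comap
        (coordK b).toLinearMap := by
  rw [latF, latInf, ← pi_univ_sup_pi_univ]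
  simp only [Submodule.comap_equiv_eq_map_symm, Submodule.map_sup]

/-- `latF b ⊓ latInf b d` in coordinates. -/
noncomputable def latFInfLatInfEquiv (b : Module.Basis ι (RatFunc K) V) (d : ι → ℤ) :
    ↥(latF b ⊓ latInf b d) ≃ₗ[K] ∀ i : ι, ↥(polySub K ⊓ degLE K (d i)) :=
  (LinearEquiv.ofEq _ _ (latF_inf_latInf b d)).trans
    (((coordK b).ofSubmodule' _).trans (piUnivEquiv _))

theorem finite_latF_inf_latInf (b : Module.Basis ι (RatFunc K) V) (d : ι → ℤ) :
    Module.Finite K ↥(latF b ⊓ latInf b d) :=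
  Module.Finite.equiv (latFInfLatInfEquiv b d).symm

theorem finrank_latF_inf_latInf (b : Module.Basis ι (RatFunc K) V) (d : ι → ℤ) :
    Module.finrank K ↥(latF b ⊓ latInf b d) = ∑ i, (d i + 1).toNat := by
  rw [(latFInfLatInfEquiv b d).finrank_eq, Module.finrank_pi_fintype]
  exact Finset.sum_congr rfl fun i _ => finrank_polySub_inf_degLE (d i)

open Classical in
/-- `V ⧸ (latF b ⊔ latInf b d)` in coordinates. -/
noncomputable def quotientLatFSupLatInfEquiv (b : Module.Basis ι (RatFunc K) V) (d : ι → ℤ) :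
    (V ⧸ (latF b ⊔ latInf b d)) ≃ₗ[K] ∀ i : ι, RatFunc K ⧸ (polySub K ⊔ degLE K (d i)) :=
  (Submodule.Quotient.equiv _ _ (coordK b) (by
    rw [latF_sup_latInf]
    exact Submodule.map_comap_eq_of_surjective (coordK b).surjective _)).trans
    (Submodule.quotientPi _)

theorem finite_quotient_latF_sup_latInf (b : Module.Basis ι (RatFunc K) V) (d : ι → ℤ) :
    Module.Finite K (V ⧸ (latF b ⊔ latInf b d)) :=
  Module.Finite.equiv (quotientLatFSupLatInfEquiv b d).symm

theorem finrank_quotient_latF_sup_latInf (b : Module.Basis ι (RatFunc K) V) (d : ι → ℤ) :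
    Module.finrank K (V ⧸ (latF b ⊔ latInf b d)) = ∑ i, (-d i - 1).toNat := by
  rw [(quotientLatFSupLatInfEquiv b d).finrank_eq, Module.finrank_pi_fintype]
  exact Finset.sum_congr rfl fun i _ => finrank_quotient_polySub_sup_degLE (d i)

end Fermat.Agent.X0.RR
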