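import Mathlib
import Fermat.Agent.X0.RR.EulerCompare
import Fermat.Agent.X0.RR.StdPair
import Fermat.Agent.X0.RR.BG
import Fermat.Agent.X0.RR.DualLattice

/-!
# X-RR (RR2, assembly): Serre duality and Riemann–Roch for lattice pairs

`V` a finite-dimensional `RatFunc K`-vector space with a nondegenerate bilinear form `B`;
`β`, `γ` two bases (giving the `K[X]`-lattice `latF β` and the `Rinf`-lattice `latInf γ 0`);
`β' γ'` the dual bases. The dual pair is `(latF β', latInf γ' (-2))`
(`= (L_f^*, X⁻² L_∞^*)`). Then `h⁰` and `h¹` are exchanged, and the Euler characteristics of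
the two pairs are compared by `euler_char_compare`.
-/

set_option autoImplicit false

open Polynomial Module

namespace Fermat.Agent.X0.RR

variable {K : Type*} [Field K] {ι : Type*} [Fintype ι] [DecidableEq ι]
  {V : Type*} [AddCommGroup V] [Module (RatFunc K) V] [Module K V] [IsScalarTower K (RatFunc K) V]
  (B : LinearMap.BilinForm (RatFunc K) V) (hB : B.Nondegenerate)
  (β γ : Module.Basis ι (RatFunc K) V)

/-- The dual `K[X]`-lattice only depends on the lattice. -/
theorem latF_dualBasis_congr {b β : Module.Basis ι (RatFunc K) V} (h : latF b = latF β) :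
    latF (B.dualBasis hB b) = latF (B.dualBasis hB β) := by
  ext v
  rw [mem_latF_dualBasis_iff, mem_latF_dualBasis_iff, h]

/-- The (shifted) dual `Rinf`-lattice only depends on the lattice. -/
theorem latInf_dualBasis_congr {b γ : Module.Basis ι (RatFunc K) V} {d e : ι → ℤ}
    (h : latInf b d = latInf γ e) (k : ℤ) :
    latInf (B.dualBasis hB b) (fun i => - d i + k) =
      latInf (B.dualBasis hB γ) (fun i => - e i + k) := by
  ext v
  rw [mem_latInf_dualBasis_shift_iff, mem_latInf_dualBasis_shift_iff, h]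

instance finite_latF_inf_latInf_zero : Module.Finite K ↥(latF β ⊓ latInf γ 0) := by
  obtain ⟨b, d, hF, hI⟩ := exists_std_basis β γ
  rw [← hF, ← hI]
  exact finite_latF_inf_latInf b d

instance finite_quotient_latF_sup_latInf_zero : Module.Finite K (V ⧸ (latF β ⊔ latInf γ 0)) := by
  obtain ⟨b, d, hF, hI⟩ := exists_std_basis β γ
  rw [← hF, ← hI]
  exact finite_quotient_latF_sup_latInf b d

/-- The dual pair, in terms of a standard basis of the original pair. -/
theorem dual_pair_eq {b : Module.Basis ι (RatFunc K) V} {d : ι → ℤ}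
    (hF : latF b = latF β) (hI : latInf b d = latInf γ 0) :
    latF (B.dualBasis hB β) = latF (B.dualBasis hB b) ∧
      latInf (B.dualBasis hB γ) (fun _ => -2) =
        latInf (B.dualBasis hB b) (fun i => - d i + -2) := by
  refine ⟨(latF_dualBasis_congr B hB hF).symm, ?_⟩
  have := latInf_dualBasis_congr B hB hI (-2)
  rw [this]
  congr 1

instance finite_dual_inf : Module.Finite K
    ↥(latF (B.dualBasis hB β) ⊓ latInf (B.dualBasis hB γ) (fun _ => -2)) := by
  obtain ⟨b, d, hF, hI⟩ := exists_std_basis β γ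
  obtain ⟨e1, e2⟩ := dual_pair_eq B hB β γ hF hI
  rw [e1, e2]
  exact finite_latF_inf_latInf _ _

instance finite_dual_quotient : Module.Finite K
    (V ⧸ (latF (B.dualBasis hB β) ⊔ latInf (B.dualBasis hB γ) (fun _ => -2))) := by
  obtain ⟨b, d, hF, hI⟩ := exists_std_basis β γ
  obtain ⟨e1, e2⟩ := dual_pair_eq B hB β γ hF hI
  rw [e1, e2]
  exact finite_quotient_latF_sup_latInf _ _

/-- **Serre duality for lattice pairs**, `h⁰` of the dual pair. -/
theorem finrank_dual_inf :
    finrank K ↥(latF (B.dualBasis hB β) ⊓ latInf (B.dualBasis hB γ) (fun _ => -2)) =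
      finrank K (V ⧸ (latF β ⊔ latInf γ 0)) := by
  obtain ⟨b, d, hF, hI⟩ := exists_std_basis β γ
  obtain ⟨e1, e2⟩ := dual_pair_eq B hB β γ hF hI
  rw [e1, e2, ← hF, ← hI, finrank_latF_inf_latInf, finrank_quotient_latF_sup_latInf]
  refine Finset.sum_congr rfl fun i _ => ?_
  congr 1
  ring

/-- **Serre duality for lattice pairs**, `h¹` of the dual pair. -/
theorem finrank_dual_quotient :
    finrank K (V ⧸ (latF (B.dualBasis hB β) ⊔ latInf (B.dualBasis hB γ) (fun _ => -2))) =
      finrank K ↥(latF β ⊓ latInf γ 0) := by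
  obtain ⟨b, d, hF, hI⟩ := exists_std_basis β γ
  obtain ⟨e1, e2⟩ := dual_pair_eq B hB β γ hF hI
  rw [e1, e2, ← hF, ← hI, finrank_latF_inf_latInf, finrank_quotient_latF_sup_latInf]
  refine Finset.sum_congr rfl fun i _ => ?_
  congr 1
  ring

/-- **Riemann–Roch for lattice pairs**: if `L_f ≤ L_f^*` and `X⁻² L_∞^* ≤ L_∞` then
`2 h⁰(L_f^*, X⁻² L_∞^*) - 2 h⁰(L_f, L_∞) = dim L_f^*/L_f - dim L_∞ / X⁻² L_∞^*`. -/
theorem lattice_riemann_roch
    (hf : latF β ≤ latF (B.dualBasis hB β))
    (hi : latInf (B.dualBasis hB γ) (fun _ => -2) ≤ latInf γ 0)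
    [Module.Finite K (↥(latF (B.dualBasis hB β)) ⧸
      Submodule.comap (latF (B.dualBasis hB β)).subtype (latF β))]
    [Module.Finite K (↥(latInf γ 0) ⧸
      Submodule.comap (latInf γ 0).subtype (latInf (B.dualBasis hB γ) (fun _ => -2)))] :
    2 * (finrank K
        ↥(latF (B.dualBasis hB β) ⊓ latInf (B.dualBasis hB γ) (fun _ => -2)) : ℤ) -
      2 * (finrank K ↥(latF β ⊓ latInf γ 0) : ℤ) =
    (finrank K (↥(latF (B.dualBasis hB β)) ⧸
        Submodule.comap (latF (B.dualBasis hB β)).subtype (latF β)) : ℤ) -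
      (finrank K (↥(latInf γ 0) ⧸
        Submodule.comap (latInf γ 0).subtype
          (latInf (B.dualBasis hB γ) (fun _ => -2))) : ℤ) :=
  euler_char_compare hf hi (finrank_dual_inf B hB β γ) (finrank_dual_quotient B hB β γ)

end Fermat.Agent.X0.RR
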