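import Mathlib
import Fermat.Agent.X0.RR.Setup
import Fermat.Agent.X0.RR.LatticeDuality

/-!
# X-RR (RR6, part 1): Riemann–Roch for the pair `(Bf, Binf)` in trace form

`HOL K F` is the `K`-subspace of `F` of all `h` with `Tr(h u) ∈ K[X]` for `u ∈ Bf` and
`deg Tr(h u) ≤ -2` for `u ∈ Binf`, i.e. `HOL = Bf^* ∩ X⁻² Binf^*`.

Main result `two_mul_finrank_HOL_sub_two`:
`2 dim HOL - 2 = dim (Bf^* / Bf) - dim (Binf / X⁻² Binf^*)`.
-/

set_option autoImplicit false
set_option linter.unusedSectionVars false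

open Polynomial Module

namespace Fermat.Agent.X0.RR

variable (K F : Type*) [Field K] [Field F] [Algebra K[X] F] [Algebra (RatFunc K) F]
  [IsScalarTower K[X] (RatFunc K) F] [Algebra K F] [IsScalarTower K (RatFunc K) F]

/-- The trace dual of `Bf`, as a `K`-subspace: `{h | ∀ u ∈ Bf, Tr (h u) ∈ K[X]}`. -/
noncomputable def dualF : Submodule K F where
  carrier := {h | ∀ u ∈ Bf K F, Algebra.trace (RatFunc K) F (h * u) ∈ polySub K}
  zero_mem' := fun u _ => by simp
  add_mem' := fun {a b} ha hb u hu => by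
    rw [add_mul, map_add]
    exact (polySub K).add_mem (ha u hu) (hb u hu)
  smul_mem' := fun c a ha u hu => by
    rw [smul_mul_assoc, ← algebraMap_smul (RatFunc K) c (a * u), map_smul, algebraMap_smul]
    exact (polySub K).smul_mem c (ha u hu)

/-- `X⁻²` times the trace dual of `Binf`, as a `K`-subspace:
`{h | ∀ u ∈ Binf, deg Tr (h u) ≤ -2}`. -/
noncomputable def dualInf : Submodule K F where
  carrier := {h | ∀ u ∈ Binf K F, Algebra.trace (RatFunc K) F (h * u) ∈ degLE K (-2)}
  zero_mem' := fun u _ => by simp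
  add_mem' := fun {a b} ha hb u hu => by
    rw [add_mul, map_add]
    exact (degLE K (-2)).add_mem (ha u hu) (hb u hu)
  smul_mem' := fun c a ha u hu => by
    rw [smul_mul_assoc, ← algebraMap_smul (RatFunc K) c (a * u), map_smul, algebraMap_smul]
    exact (degLE K (-2)).smul_mem c (ha u hu)

/-- `Bf` as a `K`-subspace of `F`. -/
noncomputable def BfK : Submodule K F := (Subalgebra.toSubmodule (Bf K F)).restrictScalars K

/-- `Binf` as a `K`-subspace of `F`. -/
noncomputable def BinfK : Submodule K F :=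
  (Subalgebra.toSubmodule (Binf K F)).restrictScalars K

/-- The space of "holomorphic differentials" `Bf^* ∩ X⁻² Binf^*`. -/
noncomputable def HOL : Submodule K F := dualF K F ⊓ dualInf K F

variable {K F}

theorem mem_dualF {h : F} :
    h ∈ dualF K F ↔ ∀ u ∈ Bf K F, Algebra.trace (RatFunc K) F (h * u) ∈ polySub K := Iff.rfl

theorem mem_dualInf {h : F} :
    h ∈ dualInf K F ↔ ∀ u ∈ Binf K F, IntDegLE (Algebra.trace (RatFunc K) F (h * u)) (-2) :=
  Iff.rfl

theorem mem_BfK {h : F} : h ∈ BfK K F ↔ h ∈ Bf K F := Iff.rfl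

theorem mem_BinfK {h : F} : h ∈ BinfK K F ↔ h ∈ Binf K F := Iff.rfl

theorem mem_HOL {h : F} :
    h ∈ HOL K F ↔ (∀ u ∈ Bf K F, Algebra.trace (RatFunc K) F (h * u) ∈ polySub K) ∧
      ∀ u ∈ Binf K F, IntDegLE (Algebra.trace (RatFunc K) F (h * u)) (-2) := Iff.rfl

section Main

variable [IsAlgClosed K] [CharZero K] [FiniteDimensional (RatFunc K) F]

instance instCharZeroRatFunc : CharZero (RatFunc K) :=
  charZero_of_injective_algebraMap (algebraMap K (RatFunc K)).injective

instance instIsSeparableRatFunc : Algebra.IsSeparable (RatFunc K) F := inferInstance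

variable (K F) in
/-- Bases adapted to `Bf` and `Binf`. -/
theorem exists_bases_BfK_BinfK :
    ∃ β γ : Basis (Fin (finrank (RatFunc K) F)) (RatFunc K) F,
      latF β = BfK K F ∧ latInf γ 0 = BinfK K F := by
  obtain ⟨β, hβ⟩ := Bf.exists_basis K F
  obtain ⟨γ, hγ⟩ := Binf.exists_basis K F
  refine ⟨β, γ, ?_, ?_⟩
  · ext h
    rw [mem_latF_iff_mem_span, hβ]
    rfl
  · ext h
    rw [mem_latInf_zero_iff_mem_span, hγ]
    rfl

theorem latF_dualBasis_eq_dualF {ι : Type*} [Fintype ι] [DecidableEq ι]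
    (β : Basis ι (RatFunc K) F) (hβ : latF β = BfK K F) :
    latF ((Algebra.traceForm (RatFunc K) F).dualBasis (traceForm_nondegenerate (RatFunc K) F) β) =
      dualF K F := by
  ext h
  rw [mem_latF_dualBasis_iff, hβ]
  rfl

theorem latInf_dualBasis_eq_dualInf {ι : Type*} [Fintype ι] [DecidableEq ι]
    (γ : Basis ι (RatFunc K) F) (hγ : latInf γ 0 = BinfK K F) :
    latInf ((Algebra.traceForm (RatFunc K) F).dualBasis (traceForm_nondegenerate (RatFunc K) F) γ)
      (fun _ => -2) = dualInf K F := by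
  ext h
  have := mem_latInf_dualBasis_shift_iff (Algebra.traceForm (RatFunc K) F)
    (traceForm_nondegenerate (RatFunc K) F) γ 0 (-2) h
  rw [hγ] at this
  have e : (fun i : ι => -(0 : ι → ℤ) i + -2) = fun _ => -2 := by
    funext i; simp
  rw [e] at this
  rw [this]
  rfl

/-- `Bf ⊆ Bf^*`. -/
theorem BfK_le_dualF : BfK K F ≤ dualF K F := by
  intro h hh u hu
  have hint : IsIntegral K[X] (h * u) := (Bf K F).mul_mem hh hu
  have := Algebra.isIntegral_trace (L := RatFunc K) (F := F) hint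
  obtain ⟨p, hp⟩ := IsIntegrallyClosed.isIntegral_iff.mp this
  exact ⟨p, hp⟩

/-- (CONST): `Bf ∩ Binf = K`. -/
theorem finrank_BfK_inf_BinfK : finrank K ↥(BfK K F ⊓ BinfK K F) = 1 := by
  have : BfK K F ⊓ BinfK K F = Submodule.span K {(1 : F)} := by
    ext h
    rw [Submodule.mem_inf, mem_BfK, mem_BinfK, Submodule.mem_span_singleton]
    constructor
    · rintro ⟨h1, h2⟩
      obtain ⟨c, rfl⟩ := exists_eq_algebraMap_of_mem_Bf_of_mem_Binf h1 h2
      exact ⟨c, by rw [Algebra.smul_def, mul_one]⟩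
    · rintro ⟨c, rfl⟩
      rw [Algebra.smul_def, mul_one]
      refine ⟨?_, ?_⟩
      · rw [IsScalarTower.algebraMap_apply K K[X] F]
        exact (Bf K F).algebraMap_mem _
      · rw [IsScalarTower.algebraMap_apply K (Rinf K) F]
        exact (Binf K F).algebraMap_mem _
  rw [this]
  exact finrank_span_singleton one_ne_zero

/-- `lattice_riemann_roch` with the four lattices given as arbitrary submodules. -/
theorem lattice_riemann_roch_of_eq {ι : Type*} [Fintype ι] [DecidableEq ι]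
    {V : Type*} [AddCommGroup V] [Module (RatFunc K) V] [Module K V]
    [IsScalarTower K (RatFunc K) V]
    (B : LinearMap.BilinForm (RatFunc K) V) (hB : B.Nondegenerate)
    (β γ : Module.Basis ι (RatFunc K) V) {Lf Lf' Li Li' : Submodule K V}
    (hLf : latF β = Lf) (hLf' : latF (B.dualBasis hB β) = Lf')
    (hLi : latInf γ 0 = Li) (hLi' : latInf (B.dualBasis hB γ) (fun _ => -2) = Li')
    (hf : Lf ≤ Lf') (hi : Li' ≤ Li)
    [Module.Finite K (↥Lf' ⧸ Submodule.comap Lf'.subtype Lf)]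
    [Module.Finite K (↥Li ⧸ Submodule.comap Li.subtype Li')] :
    Module.Finite K ↥(Lf' ⊓ Li') ∧
    2 * (finrank K ↥(Lf' ⊓ Li') : ℤ) - 2 * (finrank K ↥(Lf ⊓ Li) : ℤ) =
      (finrank K (↥Lf' ⧸ Submodule.comap Lf'.subtype Lf) : ℤ) -
        (finrank K (↥Li ⧸ Submodule.comap Li.subtype Li') : ℤ) := by
  subst hLf hLf' hLi hLi'
  exact ⟨finite_dual_inf B hB β γ, lattice_riemann_roch B hB β γ hf hi⟩

/-- **Riemann–Roch for `(Bf, Binf)`, trace form.** -/
theorem two_mul_finrank_HOL_sub_two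
    (hi : dualInf K F ≤ BinfK K F)
    [Module.Finite K (↥(dualF K F) ⧸ Submodule.comap (dualF K F).subtype (BfK K F))]
    [Module.Finite K (↥(BinfK K F) ⧸ Submodule.comap (BinfK K F).subtype (dualInf K F))] :
    Module.Finite K ↥(HOL K F) ∧
    2 * (finrank K ↥(HOL K F) : ℤ) - 2 =
      (finrank K (↥(dualF K F) ⧸ Submodule.comap (dualF K F).subtype (BfK K F)) : ℤ) -
      (finrank K (↥(BinfK K F) ⧸ Submodule.comap (BinfK K F).subtype (dualInf K F)) : ℤ) := by
  obtain ⟨β, γ, hβ, hγ⟩ := exists_bases_BfK_BinfK K F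
  obtain ⟨h1, h2⟩ := lattice_riemann_roch_of_eq (Algebra.traceForm (RatFunc K) F)
    (traceForm_nondegenerate (RatFunc K) F) β γ hβ (latF_dualBasis_eq_dualF β hβ) hγ
    (latInf_dualBasis_eq_dualInf γ hγ) BfK_le_dualF hi
  refine ⟨h1, ?_⟩
  rw [finrank_BfK_inf_BinfK] at h2
  exact h2

end Main

end Fermat.Agent.X0.RR
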