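import Mathlib
import Fermat.Agent.X0.RR.Lattice
import Fermat.Agent.X0.RR.Setup

/-!
# X-RR (BASIS, coordinate form): the models `Bf`, `Binf` as standard lattices

`Bf K F` is the `K[X]`-lattice `latF β` of a suitable `RatFunc K`-basis `β` of `F`, and
`Binf K F` is the `Rinf K`-lattice `latInf γ 0` of a suitable basis `γ` (from the span forms
`Bf.exists_basis`, `Binf.exists_basis` of `RR/Setup.lean`).
-/

set_option autoImplicit false

open Polynomial Module

namespace Fermat.Agent.X0.RR

variable (K : Type*) [Field K] (F : Type*) [Field F] [Algebra K[X] F] [Algebra (RatFunc K) F]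
  [IsScalarTower K[X] (RatFunc K) F] [FiniteDimensional (RatFunc K) F]
  [Algebra.IsSeparable (RatFunc K) F] [Algebra K F] [IsScalarTower K (RatFunc K) F]

/-- (BASIS) `Bf K F = latF β` for a suitable basis `β` of `F` over `RatFunc K`. -/
theorem exists_basis_Bf :
    ∃ β : Basis (Fin (finrank (RatFunc K) F)) (RatFunc K) F, ∀ h : F, h ∈ Bf K F ↔ h ∈ latF β := by
  obtain ⟨β, hβ⟩ := Bf.exists_basis K F
  refine ⟨β, fun h => ?_⟩
  rw [mem_latF_iff_mem_span, hβ, Subalgebra.mem_toSubmodule]

omit [Algebra K[X] F] [IsScalarTower K[X] (RatFunc K) F] in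
/-- (BASIS) `Binf K F = latInf γ 0` for a suitable basis `γ` of `F` over `RatFunc K`. -/
theorem exists_basis_Binf :
    ∃ γ : Basis (Fin (finrank (RatFunc K) F)) (RatFunc K) F,
      ∀ h : F, h ∈ Binf K F ↔ h ∈ latInf γ 0 := by
  obtain ⟨γ, hγ⟩ := Binf.exists_basis K F
  refine ⟨γ, fun h => ?_⟩
  rw [mem_latInf_zero_iff_mem_span, hγ, Subalgebra.mem_toSubmodule]

end Fermat.Agent.X0.RR
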