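import Mathlib

/-!
# X-RR, piece RR4: `K`-dimension of quotients by ideals of a Dedekind `K`-algebra

`K` a field, `B` a Dedekind domain with `Algebra K B`, `L` its fraction field.

* `finite_and_finrank_quotient_mul` : `dim_K B/(IJ) = dim_K B/I + dim_K B/J` for nonzero ideals.
* `finite_and_finrank_quotient_pow` : `dim_K B/P^m = m * dim_K B/P`.
* `finite_and_finrank_quotient_eq_sum`, `finrank_quotient_eq_sum_count` :
  `dim_K B/I = ∑_P v_P(I) * dim_K B/P`.
* `finite_and_finrank_quotient_eq_card` : residue degree one ⇒ `dim_K B/I = #` prime factors.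
* `exists_fracQuot_linearEquiv`, `finrank_fracQuot` : for fractional ideals `J = 𝔞 * I'`,
  `I'/J ≃ B/𝔞` as `K`-vector spaces; `finrank_inv_quot_one` : `dim_K (I⁻¹/1) = dim_K B/I`.
* `exists_ideal_mul_eq` : for nonzero fractional ideals `J ≤ I'` there is `𝔞` with `J = 𝔞 * I'`.
* `restrictScalarsQuotEquiv` : the same quotients computed as quotients of `K`-subspaces of `L`.
-/

set_option autoImplicit false

open Module
open scoped nonZeroDivisors

namespace Fermat.Agent.X0.RR

section IdealQuot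

variable (K : Type*) [Field K] {B : Type*} [CommRing B] [IsDedekindDomain B] [Algebra K B]

/-- `I / IJ ≃ B / J` in a Dedekind domain, packaged as: the kernel of `B ⧸ IJ → B ⧸ I` is
`K`-linearly isomorphic to `B ⧸ J`. -/
theorem exists_linearEquiv_ker_factor (I J : Ideal B) (hI : I ≠ ⊥) (hJ : J ≠ ⊥) :
    Nonempty ((B ⧸ J) ≃ₗ[K]
      LinearMap.ker (Ideal.Quotient.factorₐ K (Ideal.mul_le_left : I * J ≤ I)).toLinearMap) := by
  have hle : I * J ≤ I := Ideal.mul_le_left
  have hne : I * J ≠ 0 := mul_ne_zero hI hJ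
  obtain ⟨a, ha⟩ := IsDedekindDomain.exists_sup_span_eq hle hne
  have haI : a ∈ I := by
    rw [← ha]
    exact Ideal.mem_sup_right (Ideal.mem_span_singleton_self a)
  obtain ⟨C, hC⟩ := Ideal.dvd_iff_le.mpr ((Ideal.span_singleton_le_iff_mem I).mpr haI)
  -- `span {a} = I * C`, and `J ⊔ C = ⊤`
  have hsup : J ⊔ C = ⊤ := by
    have h1 : I * (J ⊔ C) = I * ⊤ := by
      rw [Ideal.mul_sup, ← hC, ha, Ideal.mul_top]
    exact mul_left_cancel₀ hI h1
  -- the map `x ↦ a * x mod IJ`
  let g : B →ₗ[K] B ⧸ (I * J) :=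
    (Ideal.Quotient.mkₐ K (I * J)).toLinearMap ∘ₗ (LinearMap.mulLeft K a)
  have hg : ∀ x, g x = Ideal.Quotient.mk (I * J) (a * x) := fun x => rfl
  have hker : LinearMap.ker g = J.restrictScalars K := by
    ext x
    rw [LinearMap.mem_ker, hg, Ideal.Quotient.eq_zero_iff_mem, Submodule.restrictScalars_mem]
    constructor
    · intro h
      have h1 : Ideal.span {a} * Ideal.span {x} ≤ I * J := by
        rw [Ideal.span_singleton_mul_span_singleton, Ideal.span_singleton_le_iff_mem]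
        exact h
      rw [hC, mul_assoc, ← Ideal.dvd_iff_le, mul_dvd_mul_iff_left hI] at h1
      have h2 : J ∣ Ideal.span {x} := by
        have hcop : IsCoprime J C := Ideal.isCoprime_iff_sup_eq.mpr hsup
        exact hcop.dvd_of_dvd_mul_left h1
      exact (Ideal.span_singleton_le_iff_mem J).mp (Ideal.dvd_iff_le.mp h2)
    · intro h
      exact Ideal.mul_mem_mul haI h
  have hrange : LinearMap.range g =
      LinearMap.ker (Ideal.Quotient.factorₐ K hle).toLinearMap := by
    ext y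
    rw [LinearMap.mem_range, LinearMap.mem_ker]
    constructor
    · rintro ⟨x, rfl⟩
      rw [hg, AlgHom.toLinearMap_apply]
      change Ideal.Quotient.factor hle (Ideal.Quotient.mk (I * J) (a * x)) = 0
      rw [Ideal.Quotient.factor_mk, Ideal.Quotient.eq_zero_iff_mem]
      exact I.mul_mem_right x haI
    · intro hy
      obtain ⟨c, rfl⟩ := Ideal.Quotient.mk_surjective y
      rw [AlgHom.toLinearMap_apply] at hy
      change Ideal.Quotient.factor hle (Ideal.Quotient.mk (I * J) c) = 0 at hy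
      rw [Ideal.Quotient.factor_mk, Ideal.Quotient.eq_zero_iff_mem, ← ha, sup_comm,
        Ideal.mem_span_singleton_sup] at hy
      obtain ⟨x, e, he, hxe⟩ := hy
      refine ⟨x, ?_⟩
      rw [hg, ← hxe, map_add, Ideal.Quotient.eq_zero_iff_mem.mpr he, add_zero, mul_comm a x]
  exact ⟨(Submodule.Quotient.restrictScalarsEquiv K J).symm ≪≫ₗ
    (Submodule.quotEquivOfEq _ _ hker.symm) ≪≫ₗ g.quotKerEquivRange ≪≫ₗ
    (LinearEquiv.ofEq _ _ hrange)⟩

/-- Finiteness and additivity of `dim_K (B ⧸ I)` for products of nonzero ideals. -/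
theorem finite_and_finrank_quotient_mul (I J : Ideal B) (hI : I ≠ ⊥) (hJ : J ≠ ⊥)
    [Module.Finite K (B ⧸ I)] [Module.Finite K (B ⧸ J)] :
    Module.Finite K (B ⧸ I * J) ∧
      finrank K (B ⧸ I * J) = finrank K (B ⧸ I) + finrank K (B ⧸ J) := by
  obtain ⟨e⟩ := exists_linearEquiv_ker_factor K I J hI hJ
  set π : (B ⧸ I * J) →ₗ[K] (B ⧸ I) :=
    (Ideal.Quotient.factorₐ K (Ideal.mul_le_left : I * J ≤ I)).toLinearMap with hπ
  have hsurj : Function.Surjective π :=
    Ideal.Quotient.factor_surjective (Ideal.mul_le_left : I * J ≤ I)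
  have e' : ((B ⧸ I * J) ⧸ LinearMap.ker π) ≃ₗ[K] (B ⧸ I) := π.quotKerEquivOfSurjective hsurj
  have : Module.Finite K (LinearMap.ker π) := Module.Finite.equiv e
  have : Module.Finite K ((B ⧸ I * J) ⧸ LinearMap.ker π) := Module.Finite.equiv e'.symm
  have : Module.Finite K (B ⧸ I * J) := Module.Finite.of_submodule_quotient (LinearMap.ker π)
  refine ⟨inferInstance, ?_⟩
  rw [← Submodule.finrank_quotient_add_finrank (LinearMap.ker π), e'.finrank_eq, e.finrank_eq]

omit [IsDedekindDomain B] in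
theorem finite_quotient_top : Module.Finite K (B ⧸ (⊤ : Ideal B)) :=
  haveI : Subsingleton (B ⧸ (⊤ : Ideal B)) := Ideal.Quotient.subsingleton_iff.mpr rfl
  inferInstance

omit [IsDedekindDomain B] in
theorem finrank_quotient_top : finrank K (B ⧸ (⊤ : Ideal B)) = 0 :=
  haveI : Subsingleton (B ⧸ (⊤ : Ideal B)) := Ideal.Quotient.subsingleton_iff.mpr rfl
  finrank_zero_of_subsingleton

/-- Powers: `dim_K (B ⧸ P ^ m) = m * dim_K (B ⧸ P)` (for any nonzero ideal `P`). -/
theorem finite_and_finrank_quotient_pow (P : Ideal B) (hP : P ≠ ⊥) [Module.Finite K (B ⧸ P)]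
    (m : ℕ) :
    Module.Finite K (B ⧸ P ^ m) ∧ finrank K (B ⧸ P ^ m) = m * finrank K (B ⧸ P) := by
  induction m with
  | zero =>
    rw [pow_zero, Ideal.one_eq_top, Nat.zero_mul]
    exact ⟨finite_quotient_top K, finrank_quotient_top K⟩
  | succ m ih =>
    obtain ⟨h1, h2⟩ := ih
    have := finite_and_finrank_quotient_mul K (P ^ m) P (pow_ne_zero m hP) hP
    rw [pow_succ]
    refine ⟨this.1, ?_⟩
    rw [this.2, h2]
    ring

/-- Products of multisets of nonzero ideals. -/
theorem finite_and_finrank_quotient_multiset_prod (s : Multiset (Ideal B))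
    (h0 : ∀ P ∈ s, P ≠ ⊥) (hfin : ∀ P ∈ s, Module.Finite K (B ⧸ P)) :
    Module.Finite K (B ⧸ s.prod) ∧
      finrank K (B ⧸ s.prod) = (s.map fun P => finrank K (B ⧸ P)).sum := by
  induction s using Multiset.induction_on with
  | empty =>
    rw [Multiset.prod_zero, Ideal.one_eq_top, Multiset.map_zero, Multiset.sum_zero]
    exact ⟨finite_quotient_top K, finrank_quotient_top K⟩
  | cons P s ih =>
    obtain ⟨h1, h2⟩ := ih (fun Q hQ => h0 Q (Multiset.mem_cons_of_mem hQ))
      (fun Q hQ => hfin Q (Multiset.mem_cons_of_mem hQ))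
    have hP0 : P ≠ ⊥ := h0 P (Multiset.mem_cons_self P s)
    have hPfin : Module.Finite K (B ⧸ P) := hfin P (Multiset.mem_cons_self P s)
    have hs0 : s.prod ≠ ⊥ := by
      rw [← Ideal.zero_eq_bot]
      refine Multiset.prod_ne_zero ?_
      intro h
      exact h0 _ (Multiset.mem_cons_of_mem h) rfl
    have := finite_and_finrank_quotient_mul K P s.prod hP0 hs0
    rw [Multiset.prod_cons, Multiset.map_cons, Multiset.sum_cons]
    exact ⟨this.1, by rw [this.2, h2]⟩

open UniqueFactorizationMonoid in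
/-- `dim_K (B ⧸ I)` is the sum over the prime factors `P` of `I` (with multiplicity) of
`dim_K (B ⧸ P)`. -/
theorem finite_and_finrank_quotient_eq_sum (I : Ideal B) (hI : I ≠ ⊥)
    (hfin : ∀ P ∈ normalizedFactors I, Module.Finite K (B ⧸ P)) :
    Module.Finite K (B ⧸ I) ∧
      finrank K (B ⧸ I) = ((normalizedFactors I).map fun P => finrank K (B ⧸ P)).sum := by
  have := finite_and_finrank_quotient_multiset_prod K (normalizedFactors I)
    (fun P hP => ne_zero_of_mem_normalizedFactors hP) hfin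
  rwa [Ideal.prod_normalizedFactors_eq_self hI] at this

open UniqueFactorizationMonoid in
/-- Version of `finite_and_finrank_quotient_eq_sum` as a sum over the set of prime factors. -/
theorem finrank_quotient_eq_sum_count [DecidableEq (Ideal B)] (I : Ideal B) (hI : I ≠ ⊥)
    (hfin : ∀ P ∈ normalizedFactors I, Module.Finite K (B ⧸ P)) :
    finrank K (B ⧸ I) = ∑ P ∈ (normalizedFactors I).toFinset,
      (normalizedFactors I).count P * finrank K (B ⧸ P) := by
  rw [(finite_and_finrank_quotient_eq_sum K I hI hfin).2, Finset.sum_multiset_map_count]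
  simp only [smul_eq_mul]

open UniqueFactorizationMonoid in
/-- Residue degree one: `dim_K (B ⧸ I)` is the number of prime factors of `I` with multiplicity. -/
theorem finite_and_finrank_quotient_eq_card (I : Ideal B) (hI : I ≠ ⊥)
    (h1 : ∀ P : Ideal B, P.IsMaximal → finrank K (B ⧸ P) = 1) :
    Module.Finite K (B ⧸ I) ∧ finrank K (B ⧸ I) = Multiset.card (normalizedFactors I) := by
  have hmax : ∀ P ∈ normalizedFactors I, P.IsMaximal := by
    intro P hP
    have hP0 : P ≠ ⊥ := ne_zero_of_mem_normalizedFactors hP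
    have hPp : P.IsPrime := ((Ideal.mem_normalizedFactors_iff hI).mp hP).1
    exact Ring.DimensionLEOne.maximalOfPrime hP0 hPp
  have hfin : ∀ P ∈ normalizedFactors I, Module.Finite K (B ⧸ P) := by
    intro P hP
    exact Module.finite_of_finrank_pos (by rw [h1 P (hmax P hP)]; exact one_pos)
  obtain ⟨h2, h3⟩ := finite_and_finrank_quotient_eq_sum K I hI hfin
  refine ⟨h2, ?_⟩
  rw [h3, Multiset.map_congr rfl (fun P hP => h1 P (hmax P hP))]
  simp

end IdealQuot

section FracQuot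

variable (K : Type*) [Field K] {B : Type*} [CommRing B] [IsDedekindDomain B] [Algebra K B]
  (L : Type*) [Field L] [Algebra B L] [IsFractionRing B L] [Algebra K L] [IsScalarTower K B L]

/-- `B ≃ (1 : FractionalIdeal B⁰ L)` as `B`-modules. -/
noncomputable def oneEquiv :
    B ≃ₗ[B] ↥((1 : FractionalIdeal B⁰ L) : Submodule B L) :=
  LinearEquiv.ofBijective
    ((Algebra.linearMap B L).codRestrict ((1 : FractionalIdeal B⁰ L) : Submodule B L)
      (fun x => by
        rw [FractionalIdeal.coe_one, Submodule.mem_one]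
        exact ⟨x, rfl⟩))
    ⟨fun x y h => by
      have := congrArg Subtype.val h
      exact FaithfulSMul.algebraMap_injective B L this,
    fun ⟨y, hy⟩ => by
      rw [FractionalIdeal.coe_one, Submodule.mem_one] at hy
      obtain ⟨x, rfl⟩ := hy
      exact ⟨x, rfl⟩⟩

omit [IsDedekindDomain B] in
theorem oneEquiv_apply (x : B) : ((oneEquiv L x : ↥((1 : FractionalIdeal B⁰ L) : Submodule B L)) : L)
    = algebraMap B L x := rfl

/-- `(1 : FractionalIdeal) / 𝔞 ≃ B ⧸ 𝔞`. -/
noncomputable def oneQuotEquiv (𝔞 : Ideal B) :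
    (↥((1 : FractionalIdeal B⁰ L) : Submodule B L) ⧸
      ((𝔞 : FractionalIdeal B⁰ L) : Submodule B L).comap
        ((1 : FractionalIdeal B⁰ L) : Submodule B L).subtype) ≃ₗ[B] (B ⧸ 𝔞) :=
  (Submodule.Quotient.equiv 𝔞 _ (oneEquiv L) (by
    ext ⟨y, hy⟩
    simp only [Submodule.mem_map, Submodule.mem_comap, Submodule.subtype_apply,
      FractionalIdeal.coe_coeIdeal, IsLocalization.mem_coeSubmodule]
    constructor
    · rintro ⟨x, hx, hxy⟩
      refine ⟨x, hx, ?_⟩
      rw [← oneEquiv_apply L x]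
      exact congrArg Subtype.val hxy
    · rintro ⟨x, hx, rfl⟩
      exact ⟨x, hx, Subtype.ext (oneEquiv_apply L x)⟩)).symm

variable {L}

/-- For fractional ideals `J = 𝔞 * I'` (`𝔞` a nonzero integral ideal), `I' / J ≃ B ⧸ 𝔞` as
`K`-vector spaces. -/
theorem exists_fracQuot_linearEquiv (I' J : FractionalIdeal B⁰ L) (𝔞 : Ideal B) (hI' : I' ≠ 0)
    (h𝔞 : 𝔞 ≠ ⊥) (H : (𝔞 : FractionalIdeal B⁰ L) * I' = J) :
    Nonempty ((↥(I' : Submodule B L) ⧸
      (J : Submodule B L).comap (I' : Submodule B L).subtype) ≃ₗ[K] (B ⧸ 𝔞)) := by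
  have h𝔞0 : (𝔞 : FractionalIdeal B⁰ L) ≠ 0 := FractionalIdeal.coeIdeal_ne_zero.mpr h𝔞
  have h𝔞1 : (𝔞 : FractionalIdeal B⁰ L) ≤ 1 := FractionalIdeal.coeIdeal_le_one
  have hJI : J ≤ I' := by
    rw [← H]
    calc (𝔞 : FractionalIdeal B⁰ L) * I' ≤ 1 * I' := mul_le_mul_left h𝔞1 I'
      _ = I' := one_mul _
  have e1 := FractionalIdeal.quotientEquiv I' J 1 (𝔞 : FractionalIdeal B⁰ L)
    (by rw [one_mul, ← H, mul_comm]) hJI h𝔞1 h𝔞0 hI'
  exact ⟨(e1 ≪≫ₗ oneQuotEquiv L 𝔞).restrictScalars K⟩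


omit [Algebra K B] [Algebra K L] [IsScalarTower K B L] in
/-- For nonzero fractional ideals `J ≤ I'` there is a nonzero integral ideal `𝔞` with
`J = 𝔞 * I'`. -/
theorem exists_ideal_mul_eq (I' J : FractionalIdeal B⁰ L) (hI' : I' ≠ 0) (hJ : J ≠ 0)
    (h : J ≤ I') : ∃ 𝔞 : Ideal B, 𝔞 ≠ ⊥ ∧ (𝔞 : FractionalIdeal B⁰ L) * I' = J := by
  have h1 : J * I'⁻¹ ≤ 1 := by
    calc J * I'⁻¹ ≤ I' * I'⁻¹ := mul_le_mul_left h _
      _ = 1 := mul_inv_cancel₀ hI'
  obtain ⟨𝔞, h𝔞⟩ := FractionalIdeal.le_one_iff_exists_coeIdeal.mp h1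
  refine ⟨𝔞, ?_, ?_⟩
  · rintro rfl
    rw [FractionalIdeal.coeIdeal_bot] at h𝔞
    exact mul_ne_zero hJ (inv_ne_zero hI') h𝔞.symm
  · rw [h𝔞, mul_assoc, inv_mul_cancel₀ hI', mul_one]

/-- `dim_K (I'/J) = dim_K (B ⧸ 𝔞)` when `J = 𝔞 * I'`. -/
theorem finrank_fracQuot (I' J : FractionalIdeal B⁰ L) (𝔞 : Ideal B) (hI' : I' ≠ 0)
    (h𝔞 : 𝔞 ≠ ⊥) (H : (𝔞 : FractionalIdeal B⁰ L) * I' = J) :
    finrank K (↥(I' : Submodule B L) ⧸ (J : Submodule B L).comap (I' : Submodule B L).subtype) =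
      finrank K (B ⧸ 𝔞) := by
  obtain ⟨e⟩ := exists_fracQuot_linearEquiv K I' J 𝔞 hI' h𝔞 H
  exact e.finrank_eq

/-- Finiteness of `I'/J` from that of `B ⧸ 𝔞` when `J = 𝔞 * I'`. -/
theorem finite_fracQuot (I' J : FractionalIdeal B⁰ L) (𝔞 : Ideal B) (hI' : I' ≠ 0)
    (h𝔞 : 𝔞 ≠ ⊥) (H : (𝔞 : FractionalIdeal B⁰ L) * I' = J) [Module.Finite K (B ⧸ 𝔞)] :
    Module.Finite K
      (↥(I' : Submodule B L) ⧸ (J : Submodule B L).comap (I' : Submodule B L).subtype) := by
  obtain ⟨e⟩ := exists_fracQuot_linearEquiv K I' J 𝔞 hI' h𝔞 H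
  exact Module.Finite.equiv e.symm

/-- `dim_K (I⁻¹ / 1) = dim_K (B ⧸ I)` for a nonzero ideal `I`. -/
theorem finrank_inv_quot_one (I : Ideal B) (hI : I ≠ ⊥) :
    finrank K (↥(((I : FractionalIdeal B⁰ L)⁻¹ : FractionalIdeal B⁰ L) : Submodule B L) ⧸
      ((1 : FractionalIdeal B⁰ L) : Submodule B L).comap
        (((I : FractionalIdeal B⁰ L)⁻¹ : FractionalIdeal B⁰ L) : Submodule B L).subtype) =
      finrank K (B ⧸ I) := by
  have hI0 : (I : FractionalIdeal B⁰ L) ≠ 0 := FractionalIdeal.coeIdeal_ne_zero.mpr hI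
  exact finrank_fracQuot K _ _ I (inv_ne_zero hI0) hI (mul_inv_cancel₀ hI0)

end FracQuot

section RestrictScalars

variable (K : Type*) [Field K] {B : Type*} [CommRing B] [Algebra K B]
  {L : Type*} [AddCommGroup L] [Module B L] [Module K L] [IsScalarTower K B L]

/-- The quotient of two `B`-submodules of `L`, computed as `K`-subspaces. -/
noncomputable def restrictScalarsQuotEquiv (W V : Submodule B L) :
    (↥(W.restrictScalars K) ⧸ (V.restrictScalars K).comap (W.restrictScalars K).subtype) ≃ₗ[K]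
      (↥W ⧸ V.comap W.subtype) :=
  let e0 : ↥(W.restrictScalars K) ≃ₗ[K] ↥W :=
    { toFun := fun x => ⟨x.1, x.2⟩
      invFun := fun x => ⟨x.1, x.2⟩
      map_add' := fun _ _ => rfl
      map_smul' := fun _ _ => rfl
      left_inv := fun _ => rfl
      right_inv := fun _ => rfl }
  Submodule.Quotient.equiv _ ((V.comap W.subtype).restrictScalars K) e0 (by
      ext ⟨x, hx⟩
      simp only [Submodule.mem_map, Submodule.mem_comap, Submodule.subtype_apply,
        Submodule.restrictScalars_mem, Subtype.exists]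
      constructor
      · rintro ⟨y, hy, hyV, hxy⟩
        have : y = x := congrArg Subtype.val hxy
        rwa [← this]
      · intro h
        exact ⟨x, hx, h, rfl⟩) ≪≫ₗ
    Submodule.Quotient.restrictScalarsEquiv K (V.comap W.subtype)

end RestrictScalars

end Fermat.Agent.X0.RR
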