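import Mathlib

/-!
# X-RR piece RR3: the different at a tamely ramified prime

For Dedekind domains `A ⊆ B` (finite, torsion free, separable fraction fields), a maximal ideal
`P` of `B` over a maximal ideal `p ≠ ⊥` of `A`, with `pB = P ^ e * Q`, `P` and `Q` coprime:
if `e * f` is invertible in `A ⧸ p` (`f = [B ⧸ P : A ⧸ p]`) then `P ^ e ∤ differentIdeal A B`.
Together with Mathlib's `pow_sub_one_dvd_differentIdeal` the exponent of `P` in the different
is exactly `e - 1`.
-/

set_option autoImplicit false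
set_option linter.deprecated false

namespace Fermat.Agent.X0.RR

open Ideal Module

attribute [local instance] FractionRing.liftAlgebra FractionRing.isScalarTower_liftAlgebra
  Ideal.Quotient.field

variable (A : Type*) {B : Type*} [CommRing A] [CommRing B] [Algebra A B]
  [IsDedekindDomain A] [IsDedekindDomain B] [IsTorsionFree A B] [Module.Finite A B]

omit [IsDedekindDomain A] [IsTorsionFree A B] [Module.Finite A B] in
/-- The (old-style) ramification index is `e` when `pB = P ^ e * Q` with `P`, `Q` coprime. -/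
theorem ramificationIdx'_eq_of_map_eq
    {p : Ideal A} (P Q : Ideal B) [P.IsMaximal] (e : ℕ)
    (hPQ : IsCoprime P Q) (hP : P ^ e * Q = Ideal.map (algebraMap A B) p) (hP0 : P ≠ ⊥) :
    p.ramificationIdx' P = e := by
  refine Ideal.ramificationIdx'_spec ?_ ?_
  · rw [← hP]
    exact Ideal.mul_le_left (I := P ^ e) (J := Q)
  · rw [← hP, ← Ideal.dvd_iff_le, pow_succ]
    intro hdvd
    have hne : P ^ e ≠ 0 := pow_ne_zero _ hP0
    have h1 : P ∣ Q := (mul_dvd_mul_iff_left hne).mp hdvd
    have h2 : IsUnit P := hPQ.isUnit_of_dvd' dvd_rfl h1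
    exact (Ideal.IsMaximal.ne_top ‹P.IsMaximal›) (Ideal.isUnit_iff.mp h2)

omit [Module.Finite A B] in
/-- Dimension of `B ⧸ P ^ e` over `A ⧸ p` when `pB = P ^ e * Q` with `P`, `Q` coprime. -/
theorem finrank_quotient_pow_of_map_eq
    {p : Ideal A} [p.IsMaximal] (P Q : Ideal B) [P.IsMaximal] [P.LiesOver p] (e : ℕ) (he : e ≠ 0)
    (hPQ : IsCoprime P Q) (hP : P ^ e * Q = Ideal.map (algebraMap A B) p) (hp : p ≠ ⊥)
    (hle : p ≤ (P ^ e).comap (algebraMap A B)) :
    @finrank (A ⧸ p) (B ⧸ P ^ e) _ _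
        (@Algebra.toModule _ _ _ _ (Ideal.Quotient.algebraQuotientOfLEComap hle)) =
      e * finrank (A ⧸ p) (B ⧸ P) := by
  have hP0 : P ≠ ⊥ := Ideal.ne_bot_of_liesOver_of_ne_bot hp P
  have hram : p.ramificationIdx' P = e := ramificationIdx'_eq_of_map_eq A P Q e hPQ hP hP0
  subst hram
  exact Ideal.finrank_prime_pow_ramificationIdx p P hP0 he

/-- **Tame upper bound for the different.** If `pB = P ^ e * Q` with `P` maximal over `p`,
`P` and `Q` coprime, and `e * [B ⧸ P : A ⧸ p]` is nonzero in `A ⧸ p`, then `P ^ e` does not divide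
the different ideal. -/
theorem not_pow_dvd_differentIdeal_of_tame
    [Algebra.IsSeparable (FractionRing A) (FractionRing B)]
    {p : Ideal A} [p.IsMaximal] (P Q : Ideal B) [P.IsMaximal] [P.LiesOver p] (e : ℕ) (he : e ≠ 0)
    (hPQ : IsCoprime P Q) (hP : P ^ e * Q = Ideal.map (algebraMap A B) p) (hp : p ≠ ⊥)
    (htame : ((e * finrank (A ⧸ p) (B ⧸ P) : ℕ) : A ⧸ p) ≠ 0) :
    ¬ P ^ e ∣ differentIdeal A B := by
  have hleQ : p ≤ Q.comap (algebraMap A B) := by
    rw [← Ideal.map_le_iff_le_comap, ← hP]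
    exact Ideal.mul_le_right (I := P ^ e) (J := Q)
  have hleP : p ≤ (P ^ e).comap (algebraMap A B) := by
    rw [← Ideal.map_le_iff_le_comap, ← hP]
    exact Ideal.mul_le_left (I := P ^ e) (J := Q)
  let _iQ : Algebra (A ⧸ p) (B ⧸ Q) := Ideal.Quotient.algebraQuotientOfLEComap hleQ
  let _iP : Algebra (A ⧸ p) (B ⧸ P ^ e) := Ideal.Quotient.algebraQuotientOfLEComap hleP
  have : IsScalarTower A (A ⧸ p) (B ⧸ Q) := .of_algebraMap_eq' rfl
  have : IsScalarTower A (A ⧸ p) (B ⧸ P ^ e) := .of_algebraMap_eq' rfl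
  have : Module.Finite (A ⧸ p) (B ⧸ Q) :=
    Module.Finite.of_restrictScalars_finite A (A ⧸ p) (B ⧸ Q)
  have : Module.Finite (A ⧸ p) (B ⧸ P ^ e) :=
    Module.Finite.of_restrictScalars_finite A (A ⧸ p) (B ⧸ P ^ e)
  have hcop : IsCoprime (P ^ e) Q := hPQ.pow_left
  let E : (B ⧸ p.map (algebraMap A B)) ≃ₐ[A ⧸ p] ((B ⧸ P ^ e) × B ⧸ Q) :=
    { __ := (Ideal.quotEquivOfEq hP.symm).trans (Ideal.quotientMulEquivQuotientProd (P ^ e) Q hcop),
      commutes' := Quotient.ind fun _ ↦ rfl }
  obtain ⟨y, hy⟩ := Ideal.Quotient.mk_surjective (E.symm (1, 0))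
  refine not_dvd_differentIdeal_of_intTrace_not_mem A (P ^ e) Q hP y ?_ ?_
  · have := congr((E $hy).2)
    simp at this
    simpa [E, Ideal.Quotient.eq_zero_iff_mem] using this
  · rw [← Ideal.Quotient.eq_zero_iff_mem, ← Algebra.trace_quotient_eq_of_isDedekindDomain,
      hy, Algebra.trace_eq_of_algEquiv, Algebra.trace_prod_apply]
    simp only [map_zero, add_zero]
    have h1 : Algebra.trace (A ⧸ p) (B ⧸ P ^ e) 1 =
        ((finrank (A ⧸ p) (B ⧸ P ^ e) : ℕ) : A ⧸ p) := by
      have := Algebra.trace_algebraMap (R := A ⧸ p) (S := B ⧸ P ^ e) 1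
      rw [map_one] at this
      rw [this]
      simp
    rw [h1, finrank_quotient_pow_of_map_eq A P Q e he hPQ hP hp hleP]
    exact htame

/-- **Exact exponent of the different at a tame prime.** -/
theorem pow_dvd_differentIdeal_iff_of_tame
    [Algebra.IsSeparable (FractionRing A) (FractionRing B)]
    {p : Ideal A} [p.IsMaximal] (P Q : Ideal B) [P.IsMaximal] [P.LiesOver p] (e : ℕ) (he : e ≠ 0)
    (hPQ : IsCoprime P Q) (hP : P ^ e * Q = Ideal.map (algebraMap A B) p) (hp : p ≠ ⊥)
    (htame : ((e * finrank (A ⧸ p) (B ⧸ P) : ℕ) : A ⧸ p) ≠ 0) (k : ℕ) :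
    P ^ k ∣ differentIdeal A B ↔ k ≤ e - 1 := by
  constructor
  · intro h
    by_contra hk
    have hek : e ≤ k := by omega
    exact not_pow_dvd_differentIdeal_of_tame A P Q e he hPQ hP hp htame
      ((pow_dvd_pow P hek).trans h)
  · intro hk
    have h1 : P ^ (e - 1) ∣ differentIdeal A B :=
      pow_sub_one_dvd_differentIdeal A P e hp ⟨Q, hP.symm⟩
    exact (pow_dvd_pow P hk).trans h1

/-- The multiplicity of a tame prime in the different is `e - 1`. -/
theorem count_normalizedFactors_differentIdeal_of_tame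
    [Algebra.IsSeparable (FractionRing A) (FractionRing B)]
    {p : Ideal A} [p.IsMaximal] (P Q : Ideal B) [P.IsMaximal] [P.LiesOver p] (e : ℕ) (he : e ≠ 0)
    (hPQ : IsCoprime P Q) (hP : P ^ e * Q = Ideal.map (algebraMap A B) p) (hp : p ≠ ⊥)
    (htame : ((e * finrank (A ⧸ p) (B ⧸ P) : ℕ) : A ⧸ p) ≠ 0) :
    (UniqueFactorizationMonoid.normalizedFactors (differentIdeal A B)).count P = e - 1 := by
  have hiff := pow_dvd_differentIdeal_iff_of_tame A P Q e he hPQ hP hp htame
  apply Ideal.count_normalizedFactors_eq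
  · rw [← Ideal.dvd_iff_le]
    exact (hiff (e - 1)).mpr le_rfl
  · rw [← Ideal.dvd_iff_le]
    intro h
    have := (hiff (e - 1 + 1)).mp h
    omega

omit [IsDedekindDomain A] [IsDedekindDomain B] [IsTorsionFree A B] in
/-- In residue characteristic zero every prime is tame. -/
theorem tame_of_charZero {p : Ideal A} [p.IsMaximal] (P : Ideal B) [P.IsMaximal] [P.LiesOver p]
    [CharZero (A ⧸ p)] (e : ℕ) (he : e ≠ 0) :
    ((e * finrank (A ⧸ p) (B ⧸ P) : ℕ) : A ⧸ p) ≠ 0 := by
  have : Module.Finite (A ⧸ p) (B ⧸ P) :=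
    Module.Finite.of_restrictScalars_finite A (A ⧸ p) (B ⧸ P)
  have hf : 0 < finrank (A ⧸ p) (B ⧸ P) := Module.finrank_pos
  rw [Nat.cast_ne_zero]
  exact Nat.mul_ne_zero he hf.ne'

omit [IsDedekindDomain A] [IsTorsionFree A B] [Module.Finite A B] in
/-- Factor out the exact power of a maximal ideal. -/
theorem exists_isCoprime_pow_count_mul_eq (I P : Ideal B) [P.IsMaximal] (hI : I ≠ ⊥)
    (hP0 : P ≠ ⊥) :
    ∃ Q : Ideal B, IsCoprime P Q ∧
      P ^ ((UniqueFactorizationMonoid.normalizedFactors I).count P) * Q = I := by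
  have hprime : Prime P := Ideal.prime_of_isPrime hP0 inferInstance
  have hmult : multiplicity P I = (UniqueFactorizationMonoid.normalizedFactors I).count P := by
    rw [UniqueFactorizationMonoid.multiplicity_eq_count_normalizedFactors hprime.irreducible hI,
      normalize_eq]
  have hfin : FiniteMultiplicity P I := FiniteMultiplicity.of_prime_left hprime hI
  have hnot : ¬ P ^ (multiplicity P I + 1) ∣ I :=
    hfin.not_pow_dvd_of_multiplicity_lt (Nat.lt_succ_self _)
  have hdvd0 : P ^ multiplicity P I ∣ I := pow_multiplicity_dvd P I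
  rw [hmult] at hnot hdvd0
  generalize (UniqueFactorizationMonoid.normalizedFactors I).count P = m at hnot hdvd0 ⊢
  obtain ⟨Q, hQ⟩ := hdvd0
  refine ⟨Q, ?_, hQ.symm⟩
  rw [Ideal.isCoprime_iff_sup_eq]
  by_contra hne
  have hle : Q ≤ P := by
    have h1 : P ≤ P ⊔ Q := le_sup_left
    have h2 : P = P ⊔ Q := Ideal.IsMaximal.eq_of_le ‹P.IsMaximal› hne h1
    rw [h2]
    exact le_sup_right
  obtain ⟨R, hR⟩ : P ∣ Q := Ideal.dvd_iff_le.mpr hle
  apply hnot
  refine ⟨R, ?_⟩
  rw [hQ, hR, pow_succ, mul_assoc]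

/-- **Different at a tame prime, intrinsic form.** The multiplicity of `P` in the different is one
less than its multiplicity in `pB`, provided `e * f ≠ 0` in `A ⧸ p`. -/
theorem count_normalizedFactors_differentIdeal_eq_pred
    [Algebra.IsSeparable (FractionRing A) (FractionRing B)]
    {p : Ideal A} [p.IsMaximal] (P : Ideal B) [P.IsMaximal] [P.LiesOver p] (hp : p ≠ ⊥)
    (htame : (((UniqueFactorizationMonoid.normalizedFactors
      (Ideal.map (algebraMap A B) p)).count P * finrank (A ⧸ p) (B ⧸ P) : ℕ) : A ⧸ p) ≠ 0) :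
    (UniqueFactorizationMonoid.normalizedFactors (differentIdeal A B)).count P =
      (UniqueFactorizationMonoid.normalizedFactors (Ideal.map (algebraMap A B) p)).count P - 1 := by
  have hP0 : P ≠ ⊥ := Ideal.ne_bot_of_liesOver_of_ne_bot hp P
  have hmap : Ideal.map (algebraMap A B) p ≠ ⊥ :=
    (Ideal.map_eq_bot_iff_of_injective (FaithfulSMul.algebraMap_injective A B)).not.mpr hp
  obtain ⟨Q, hPQ, hQ⟩ := exists_isCoprime_pow_count_mul_eq (Ideal.map (algebraMap A B) p) P hmap hP0
  have he : (UniqueFactorizationMonoid.normalizedFactors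
      (Ideal.map (algebraMap A B) p)).count P ≠ 0 := by
    intro h0
    rw [h0, zero_mul, Nat.cast_zero] at htame
    exact htame rfl
  exact count_normalizedFactors_differentIdeal_of_tame A P Q _ he hPQ hQ hp htame

/-- **Different at a tame prime, via `Ideal.ramificationIdx`.** -/
theorem count_normalizedFactors_differentIdeal_eq_ramificationIdx_sub_one
    [Algebra.IsSeparable (FractionRing A) (FractionRing B)]
    {p : Ideal A} [p.IsMaximal] (P : Ideal B) [P.IsMaximal] [P.LiesOver p] (hp : p ≠ ⊥)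
    (htame : ((P.ramificationIdx A * finrank (A ⧸ p) (B ⧸ P) : ℕ) : A ⧸ p) ≠ 0) :
    (UniqueFactorizationMonoid.normalizedFactors (differentIdeal A B)).count P =
      P.ramificationIdx A - 1 := by
  have hmap : Ideal.map (algebraMap A B) p ≠ ⊥ :=
    (Ideal.map_eq_bot_iff_of_injective (FaithfulSMul.algebraMap_injective A B)).not.mpr hp
  rw [Ideal.IsDedekindDomain.ramificationIdx_eq_normalizedFactors_count p P hmap] at htame ⊢
  exact count_normalizedFactors_differentIdeal_eq_pred A P hp htame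

end Fermat.Agent.X0.RR
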