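import Mathlib
import Fermat.Agent.X0.RR.TameDifferent
import Fermat.Agent.X0.RR.IdealQuotDim

/-!
# X-RR piece RR6a: `dim_k (B^* / B) = ∑_P (e_P - 1)`

`k` a field of characteristic zero, `A ⊆ B` Dedekind domains which are `k`-algebras
(`k → A → B` a scalar tower), `B` finite and torsion free over `A`, separable fraction fields.
If every maximal ideal `P` of `B` has residue field of dimension one over `k` then

* `count_normalizedFactors_differentIdeal_of_charZero` : the exponent of a nonzero maximal ideal `P`
  in the different is `e_P - 1`;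
* `finrank_quotient_differentIdeal_eq_sum` : `dim_k (B ⧸ 𝔇) = ∑_{P ∣ 𝔇} (e_P - 1)`;
* `finrank_dual_one_quot_one` : `dim_k (B^* / B) = dim_k (B ⧸ 𝔇)` where `B^*` is the trace dual of
  `B` in an arbitrary fraction field `L` of `B`.
-/

set_option autoImplicit false
set_option linter.deprecated false

namespace Fermat.Agent.X0.RR

open Ideal Module UniqueFactorizationMonoid
open scoped nonZeroDivisors

attribute [local instance] FractionRing.liftAlgebra FractionRing.isScalarTower_liftAlgebra
  Ideal.Quotient.field

section Count

variable (k : Type*) [Field k] [CharZero k]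
  (A : Type*) {B : Type*} [CommRing A] [CommRing B] [Algebra A B]
  [IsDedekindDomain A] [IsDedekindDomain B] [IsTorsionFree A B] [Module.Finite A B]
  [Algebra k A]

include k

omit [IsDedekindDomain A] in
/-- Residue fields of a `k`-algebra, `k` of characteristic zero, have characteristic zero. -/
theorem charZero_quotient_of_isMaximal_of_algebra (p : Ideal A) [p.IsMaximal] : CharZero (A ⧸ p) :=
  charZero_of_injective_algebraMap (algebraMap k (A ⧸ p)).injective

/-- In characteristic zero the exponent of `P` in the different is `e_P - 1`. -/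
theorem count_normalizedFactors_differentIdeal_of_charZero
    [Algebra.IsSeparable (FractionRing A) (FractionRing B)]
    {p : Ideal A} [p.IsMaximal] (P : Ideal B) [P.IsMaximal] [P.LiesOver p] (hp : p ≠ ⊥) :
    (normalizedFactors (differentIdeal A B)).count P = P.ramificationIdx A - 1 := by
  have : CharZero (A ⧸ p) := charZero_quotient_of_isMaximal_of_algebra k A p
  refine count_normalizedFactors_differentIdeal_eq_ramificationIdx_sub_one A P hp ?_
  exact tame_of_charZero A P _ (P.ramificationIdx_pos A).ne'

/-- The exponent of any nonzero maximal ideal `P` of `B` in the different is `e_P - 1`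
(over the prime `P ∩ A`). -/
theorem count_normalizedFactors_differentIdeal_under
    [Algebra.IsSeparable (FractionRing A) (FractionRing B)]
    (P : Ideal B) [P.IsMaximal] (hP : P ≠ ⊥) :
    (normalizedFactors (differentIdeal A B)).count P = P.ramificationIdx A - 1 :=
  count_normalizedFactors_differentIdeal_of_charZero k A (p := P.under A) P
    (Ideal.under_ne_bot A hP)

variable [Algebra k B]

/-- `dim_k (B ⧸ 𝔇) = ∑_{P ∣ 𝔇} (e_P - 1)` when all residue fields of `B` are `k`. -/
theorem finrank_quotient_differentIdeal_eq_sum
    [Algebra.IsSeparable (FractionRing A) (FractionRing B)]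
    (hres : ∀ P : Ideal B, P.IsMaximal → finrank k (B ⧸ P) = 1) :
    Module.Finite k (B ⧸ differentIdeal A B) ∧
      finrank k (B ⧸ differentIdeal A B) =
        ∑ P ∈ (normalizedFactors (differentIdeal A B)).toFinset, (P.ramificationIdx A - 1) := by
  have hD : differentIdeal A B ≠ ⊥ := differentIdeal_ne_bot
  obtain ⟨h1, h2⟩ := finite_and_finrank_quotient_eq_card k (differentIdeal A B) hD hres
  refine ⟨h1, ?_⟩
  rw [h2, ← Multiset.toFinset_sum_count_eq]
  refine Finset.sum_congr rfl fun P hP => ?_
  rw [Multiset.mem_toFinset] at hP
  have hP0 : P ≠ ⊥ := ne_zero_of_mem_normalizedFactors hP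
  have hPp : P.IsPrime := ((Ideal.mem_normalizedFactors_iff hD).mp hP).1
  have : P.IsMaximal := Ring.DimensionLEOne.maximalOfPrime hP0 hPp
  exact count_normalizedFactors_differentIdeal_under k A P hP0

/-- Sum over any finite set `S` of nonzero maximal ideals containing all prime factors of the
different. -/
theorem finrank_quotient_differentIdeal_eq_sum_of_subset
    [Algebra.IsSeparable (FractionRing A) (FractionRing B)]
    (hres : ∀ P : Ideal B, P.IsMaximal → finrank k (B ⧸ P) = 1)
    (S : Finset (Ideal B)) (hS : ∀ P ∈ S, P.IsMaximal ∧ P ≠ ⊥)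
    (hsub : ∀ P : Ideal B, P.IsMaximal → P ≠ ⊥ → 1 < P.ramificationIdx A → P ∈ S) :
    finrank k (B ⧸ differentIdeal A B) = ∑ P ∈ S, (P.ramificationIdx A - 1) := by
  have hD : differentIdeal A B ≠ ⊥ := differentIdeal_ne_bot
  rw [(finrank_quotient_differentIdeal_eq_sum k A hres).2]
  have hmax : ∀ P ∈ (normalizedFactors (differentIdeal A B)).toFinset,
      P.IsMaximal ∧ P ≠ ⊥ := by
    intro P hP
    rw [Multiset.mem_toFinset] at hP
    have hP0 : P ≠ ⊥ := ne_zero_of_mem_normalizedFactors hP
    have hPp : P.IsPrime := ((Ideal.mem_normalizedFactors_iff hD).mp hP).1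
    exact ⟨Ring.DimensionLEOne.maximalOfPrime hP0 hPp, hP0⟩
  have hcount : ∀ P : Ideal B, P.IsMaximal → P ≠ ⊥ →
      (normalizedFactors (differentIdeal A B)).count P = P.ramificationIdx A - 1 := by
    intro P hPm hP0
    exact count_normalizedFactors_differentIdeal_under k A P hP0
  refine Finset.sum_subset_zero_on_sdiff ?_ ?_ (fun _ _ => rfl)
  · intro P hP
    obtain ⟨hPm, hP0⟩ := hmax P hP
    refine hsub P hPm hP0 ?_
    have h1 := hcount P hPm hP0
    have h2 : 0 < (normalizedFactors (differentIdeal A B)).count P :=
      Multiset.count_pos.mpr (Multiset.mem_toFinset.mp hP)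
    omega
  · intro P hP
    rw [Finset.mem_sdiff, Multiset.mem_toFinset] at hP
    obtain ⟨hPm, hP0⟩ := hS P hP.1
    rw [← hcount P hPm hP0]
    exact Multiset.count_eq_zero.mpr hP.2

end Count

section Dual

variable (k : Type*) [Field k]
  (A Q : Type*) {L : Type*} {B : Type*} [CommRing A] [Field Q] [CommRing B] [Field L]
  [Algebra A Q] [Algebra B L] [Algebra A B] [Algebra Q L] [Algebra A L]
  [IsScalarTower A Q L] [IsScalarTower A B L]
  [IsFractionRing A Q] [FiniteDimensional Q L] [Algebra.IsSeparable Q L] [IsIntegralClosure B A L]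
  [IsFractionRing B L] [IsDedekindDomain A] [IsDedekindDomain B] [IsTorsionFree A B]
  [Algebra k B] [Algebra k L] [IsScalarTower k B L]

include Q L in
/-- The different is nonzero (general fraction fields). -/
theorem differentIdeal_ne_bot_of_isFractionRing :
    differentIdeal A B ≠ ⊥ := by
  rw [ne_eq, ← FractionalIdeal.coeIdeal_inj (K := L), coeIdeal_differentIdeal A Q L B]
  simp

/-- `dim_k (B^* / B) = dim_k (B ⧸ 𝔇)`, with `B^*` the dual fractional ideal of `1`. -/
theorem finrank_dual_one_quot_one :
    finrank k (↥((FractionalIdeal.dual A Q (1 : FractionalIdeal B⁰ L) : FractionalIdeal B⁰ L) :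
        Submodule B L) ⧸
      ((1 : FractionalIdeal B⁰ L) : Submodule B L).comap
        ((FractionalIdeal.dual A Q (1 : FractionalIdeal B⁰ L) : FractionalIdeal B⁰ L) :
          Submodule B L).subtype) =
      finrank k (B ⧸ differentIdeal A B) := by
  have hD : differentIdeal A B ≠ ⊥ := differentIdeal_ne_bot_of_isFractionRing A Q (L := L) (B := B)
  have h := finrank_inv_quot_one k (L := L) (differentIdeal A B) hD
  rw [coeIdeal_differentIdeal A Q L B, inv_inv] at h
  exact h

/-- `dim_k (B^* / B) = dim_k (B ⧸ 𝔇)`, with `B^*` the trace dual submodule of `1`. -/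
theorem finrank_traceDual_one_quot_one :
    finrank k (↥(Submodule.traceDual A Q (1 : Submodule B L)) ⧸
      (1 : Submodule B L).comap (Submodule.traceDual A Q (1 : Submodule B L)).subtype) =
      finrank k (B ⧸ differentIdeal A B) := by
  have h := finrank_dual_one_quot_one k A Q (L := L) (B := B)
  rw [FractionalIdeal.coe_dual_one A Q L B, FractionalIdeal.coe_one] at h
  exact h

include Q L in
omit [FiniteDimensional Q L] [IsIntegralClosure B A L] [IsDedekindDomain A] [IsDedekindDomain B]
  [IsTorsionFree A B] in
/-- Transport of separability to the canonical fraction fields. -/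
theorem isSeparable_fractionRing_of_isFractionRing [IsDomain A] [IsDomain B]
    [FaithfulSMul A B] :
    Algebra.IsSeparable (FractionRing A) (FractionRing B) := by
  have H : RingHom.comp (algebraMap (FractionRing A) (FractionRing B))
      ↑(FractionRing.algEquiv A Q).symm.toRingEquiv =
        RingHom.comp ↑(FractionRing.algEquiv B L).symm.toRingEquiv (algebraMap Q L) := by
    apply IsLocalization.ringHom_ext A⁰
    ext
    simp only [RingHom.coe_comp, RingHom.coe_coe,
      AlgEquiv.coe_ringEquiv, Function.comp_apply, AlgEquiv.commutes,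
      ← IsScalarTower.algebraMap_apply]
    rw [IsScalarTower.algebraMap_apply A B L, AlgEquiv.commutes, ← IsScalarTower.algebraMap_apply]
  exact Algebra.IsSeparable.of_equiv_equiv _ _ H

include Q L in
omit [IsDedekindDomain B] [IsTorsionFree A B] [IsFractionRing B L] in
/-- Finiteness of `B` over `A` in the AKLB setting. -/
theorem module_finite_of_isIntegralClosure : Module.Finite A B :=
  IsIntegralClosure.finite A Q L B

variable [CharZero k] [Algebra k A]

/-- **`dim_k (B^* / B) = ∑_P (e_P - 1)`** in the AKLB setting (arbitrary fraction fields `Q`, `L`),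
all residue fields of `B` equal to `k`, characteristic zero. The sum is over any finite set `S`
of nonzero maximal ideals containing all ramified ones. -/
theorem finrank_traceDual_one_quot_one_eq_sum
    (hres : ∀ P : Ideal B, P.IsMaximal → finrank k (B ⧸ P) = 1)
    (S : Finset (Ideal B)) (hS : ∀ P ∈ S, P.IsMaximal ∧ P ≠ ⊥)
    (hsub : ∀ P : Ideal B, P.IsMaximal → P ≠ ⊥ → 1 < P.ramificationIdx A → P ∈ S) :
    finrank k (↥(Submodule.traceDual A Q (1 : Submodule B L)) ⧸
      (1 : Submodule B L).comap (Submodule.traceDual A Q (1 : Submodule B L)).subtype) =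
      ∑ P ∈ S, (P.ramificationIdx A - 1) := by
  have h1 : Module.Finite A B := module_finite_of_isIntegralClosure A Q (L := L) (B := B)
  have h2 : Algebra.IsSeparable (FractionRing A) (FractionRing B) :=
    isSeparable_fractionRing_of_isFractionRing A Q (L := L) (B := B)
  rw [finrank_traceDual_one_quot_one k A Q (L := L) (B := B)]
  exact finrank_quotient_differentIdeal_eq_sum_of_subset k A hres S hS hsub

include k Q L in
omit [Algebra k B] [Algebra k L] [IsScalarTower k B L] in
/-- The exponent of a nonzero maximal ideal `P` in the different is `e_P - 1`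
(AKLB setting, characteristic zero). -/
theorem count_normalizedFactors_differentIdeal_aklb (P : Ideal B) [P.IsMaximal] (hP : P ≠ ⊥) :
    (normalizedFactors (differentIdeal A B)).count P = P.ramificationIdx A - 1 := by
  have h1 : Module.Finite A B := module_finite_of_isIntegralClosure A Q (L := L) (B := B)
  have h2 : Algebra.IsSeparable (FractionRing A) (FractionRing B) :=
    isSeparable_fractionRing_of_isFractionRing A Q (L := L) (B := B)
  exact count_normalizedFactors_differentIdeal_under k A P hP

end Dual

end Fermat.Agent.X0.RR
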