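import Fermat.Agent.X0.RR.IdealQuotDim

/-!
# X-RR, piece RR4 (continued): the count formula for quotients of fractional ideals

* `card_normalizedFactors_eq_finsum` : the number of prime factors of a nonzero ideal as a finite
  sum over the height one spectrum.
* `finrank_fracQuot_eq_finsum` : for nonzero fractional ideals `J ≤ I'` of a Dedekind `K`-algebra
  with all residue degrees one, `dim_K (I'/J) = ∑ᶠ v, (count v J - count v I')`.
-/

set_option autoImplicit false

open Module IsDedekindDomain
open scoped nonZeroDivisors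

namespace Fermat.Agent.X0.RR

section CountFormula

variable {B : Type*} [CommRing B] [IsDedekindDomain B]

open UniqueFactorizationMonoid in
/-- The number of prime factors (with multiplicity) of a nonzero ideal, as a finite sum over the
height one spectrum. -/
theorem card_normalizedFactors_eq_finsum [DecidableEq (Ideal B)] (𝔞 : Ideal B) (h𝔞 : 𝔞 ≠ ⊥) :
    Multiset.card (normalizedFactors 𝔞) =
      ∑ᶠ v : HeightOneSpectrum B, (normalizedFactors 𝔞).count v.asIdeal := by
  classical
  have hmem : ∀ P ∈ (normalizedFactors 𝔞).toFinset, P.IsPrime ∧ P ≠ ⊥ := by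
    intro P hP
    rw [Multiset.mem_toFinset] at hP
    exact ⟨((Ideal.mem_normalizedFactors_iff h𝔞).mp hP).1, ne_zero_of_mem_normalizedFactors hP⟩
  let f : {P // P ∈ (normalizedFactors 𝔞).toFinset} → HeightOneSpectrum B :=
    fun P => ⟨P.1, (hmem P.1 P.2).1, (hmem P.1 P.2).2⟩
  let T : Finset (HeightOneSpectrum B) := (normalizedFactors 𝔞).toFinset.attach.image f
  have hsupp : (Function.support fun v : HeightOneSpectrum B =>
      (normalizedFactors 𝔞).count v.asIdeal) ⊆ T := by
    intro v hv
    rw [Function.mem_support, Multiset.count_ne_zero] at hv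
    rw [Finset.mem_coe, Finset.mem_image]
    exact ⟨⟨v.asIdeal, Multiset.mem_toFinset.mpr hv⟩, Finset.mem_attach _ _, rfl⟩
  rw [finsum_eq_sum_of_support_subset _ hsupp, Finset.sum_image, ← Multiset.toFinset_sum_count_eq,
    ← Finset.sum_attach]
  · intro P _ Q _ h
    exact Subtype.ext (congrArg HeightOneSpectrum.asIdeal h)

variable (K : Type*) [Field K] [Algebra K B]
  {L : Type*} [Field L] [Algebra B L] [IsFractionRing B L] [Algebra K L] [IsScalarTower K B L]

open UniqueFactorizationMonoid in
/-- **Dimension of a quotient of fractional ideals** (residue degree one): for nonzero fractional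
ideals `J ≤ I'`, `dim_K (I'/J) = ∑_v (v(J) - v(I'))`. -/
theorem finrank_fracQuot_eq_finsum (I' J : FractionalIdeal B⁰ L) (hI' : I' ≠ 0) (hJ : J ≠ 0)
    (h : J ≤ I') (h1 : ∀ P : Ideal B, P.IsMaximal → finrank K (B ⧸ P) = 1) :
    (finrank K (↥(I' : Submodule B L) ⧸
        (J : Submodule B L).comap (I' : Submodule B L).subtype) : ℤ) =
      ∑ᶠ v : HeightOneSpectrum B, (FractionalIdeal.count L v J - FractionalIdeal.count L v I') := by
  classical
  obtain ⟨𝔞, h𝔞, H⟩ := exists_ideal_mul_eq I' J hI' hJ h
  have h𝔞0 : (𝔞 : FractionalIdeal B⁰ L) ≠ 0 := FractionalIdeal.coeIdeal_ne_zero.mpr h𝔞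
  rw [finrank_fracQuot K I' J 𝔞 hI' h𝔞 H, (finite_and_finrank_quotient_eq_card K 𝔞 h𝔞 h1).2,
    card_normalizedFactors_eq_finsum 𝔞 h𝔞]
  have hv : ∀ v : HeightOneSpectrum B,
      FractionalIdeal.count L v J - FractionalIdeal.count L v I' =
        ((normalizedFactors 𝔞).count v.asIdeal : ℤ) := by
    intro v
    rw [← H, FractionalIdeal.count_mul L v h𝔞0 hI', add_sub_cancel_right,
      FractionalIdeal.count_coe L v h𝔞, Ideal.count_associates_factors_eq h𝔞 v.isPrime v.ne_bot]
  simp_rw [hv]
  have hfin : (Function.support fun v : HeightOneSpectrum B =>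
      (normalizedFactors 𝔞).count v.asIdeal).Finite := by
    refine (Ideal.finite_factors h𝔞).subset ?_
    intro v hv
    rw [Function.mem_support, Multiset.count_ne_zero] at hv
    exact Ideal.dvd_iff_le.mpr ((Ideal.mem_normalizedFactors_iff h𝔞).mp hv).2
  exact map_finsum (Nat.castAddMonoidHom ℤ) hfin

end CountFormula

end Fermat.Agent.X0.RR
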