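import Mathlib
import Fermat.Agent.X0.RR.EOver
import Fermat.Agent.X0.RR.TameDifferent
import Fermat.Agent.X0.RR.IdealQuotDim
import Fermat.Agent.X0.RR.IdealQuotCount
import Fermat.Agent.X0.RR.DeltaFormula

/-!
# X-RR piece Δf: the degree of the different (abstract form)

`K` a field of characteristic zero, `A ⊆ B` Dedekind `K`-algebras, `B` finite torsion free over `A`
with separable fraction fields, all residue fields of `B` of dimension one over `K`,
`𝔇 = differentIdeal A B`, `F` a fraction field of `B`.

* `(Δ0) count_differentIdeal_eq` : `v(𝔇) = eOver A v - 1` for every height one prime `v` of `B`.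
* `(Δ1) finrank_dual_quot`, `finite_dual_quot` : `dim_K (𝔇⁻¹ / B) = ∑ᶠ v, (eOver A v - 1)`.
* `(Δ2) mem_inv_differentIdeal_iff_of` : valuation description of `𝔇⁻¹`.
* `(Δ3) inv_differentIdeal_eq_dual`, `mem_inv_differentIdeal_iff_trace` : `𝔇⁻¹` is the trace dual
  of `B`.
-/

set_option autoImplicit false
set_option linter.deprecated false

namespace Fermat.Agent.X0.RR

open Ideal Module UniqueFactorizationMonoid IsDedekindDomain
open scoped nonZeroDivisors

attribute [local instance] FractionRing.liftAlgebra FractionRing.isScalarTower_liftAlgebra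
  Ideal.Quotient.field

section EOver

variable (A : Type*) {B : Type*} [CommRing A] [CommRing B] [Algebra A B]
  [IsDedekindDomain B]

/-- `eOver` with an arbitrary decidability instance. -/
theorem eOver_eq_count [DecidableEq (Ideal B)] (v : HeightOneSpectrum B) :
    eOver A v =
      (normalizedFactors (Ideal.map (algebraMap A B) (v.asIdeal.under A))).count v.asIdeal := by
  unfold eOver
  congr

/-- `eOver` is the ramification index. -/
theorem eOver_eq_ramificationIdx [IsDomain A] [IsTorsionFree A B] [Algebra.IsIntegral A B]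
    (v : HeightOneSpectrum B) : eOver A v = v.asIdeal.ramificationIdx A := by
  have hp : v.asIdeal.under A ≠ ⊥ := Ideal.under_ne_bot A v.ne_bot
  have hmap : Ideal.map (algebraMap A B) (v.asIdeal.under A) ≠ ⊥ :=
    (Ideal.map_eq_bot_iff_of_injective (FaithfulSMul.algebraMap_injective A B)).not.mpr hp
  rw [eOver_eq_count,
    Ideal.IsDedekindDomain.ramificationIdx_eq_normalizedFactors_count (v.asIdeal.under A)
      v.asIdeal hmap]

/-- `1 ≤ eOver A v`. -/
theorem one_le_eOver [IsDomain A] [IsTorsionFree A B] [Module.Finite A B]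
    (v : HeightOneSpectrum B) : 1 ≤ eOver A v := by
  rw [eOver_eq_ramificationIdx]
  have := v.isPrime
  exact v.asIdeal.ramificationIdx_pos A

end EOver

section Delta

variable (K : Type*) [Field K] [CharZero K]
  (A : Type*) {B : Type*} [CommRing A] [CommRing B] [Algebra A B]
  [IsDedekindDomain A] [IsDedekindDomain B] [IsTorsionFree A B] [Module.Finite A B]
  [Algebra.IsSeparable (FractionRing A) (FractionRing B)]
  [Algebra K A] [Algebra K B]

include K in
omit [Algebra K B] in
/-- **(Δ0)** The exponent of the height one prime `v` in the different is `eOver A v - 1`. -/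
theorem count_differentIdeal_eq (v : HeightOneSpectrum B) :
    (normalizedFactors (differentIdeal A B)).count v.asIdeal = eOver A v - 1 := by
  have := v.isMaximal
  rw [eOver_eq_ramificationIdx]
  exact count_normalizedFactors_differentIdeal_under K A v.asIdeal v.ne_bot

variable (F : Type*) [Field F] [Algebra B F] [IsFractionRing B F]

include K in
omit [Algebra K B] in
/-- The valuation of the different at `v`, as a fractional ideal. -/
theorem count_coe_differentIdeal (v : HeightOneSpectrum B) :
    FractionalIdeal.count F v ((differentIdeal A B : Ideal B) : FractionalIdeal B⁰ F) =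
      (eOver A v : ℤ) - 1 := by
  have hD : differentIdeal A B ≠ ⊥ := differentIdeal_ne_bot
  rw [FractionalIdeal.count_coe F v hD, Ideal.count_associates_factors_eq hD v.isPrime v.ne_bot,
    count_differentIdeal_eq K A v, Nat.cast_sub (one_le_eOver A v), Nat.cast_one]

include K in
omit [Algebra K B] in
/-- The valuation of the inverse different at `v`. -/
theorem count_inv_differentIdeal (v : HeightOneSpectrum B) :
    FractionalIdeal.count F v ((differentIdeal A B : Ideal B) : FractionalIdeal B⁰ F)⁻¹ =
      -((eOver A v : ℤ) - 1) := by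
  rw [FractionalIdeal.count_inv, count_coe_differentIdeal K A F v]

omit [CharZero K] [Algebra K A] [Algebra K B] in
/-- `B ≤ 𝔇⁻¹`. -/
theorem one_le_inv_differentIdeal :
    (1 : FractionalIdeal B⁰ F) ≤ ((differentIdeal A B : Ideal B) : FractionalIdeal B⁰ F)⁻¹ := by
  have hD : differentIdeal A B ≠ ⊥ := differentIdeal_ne_bot
  have hD0 : ((differentIdeal A B : Ideal B) : FractionalIdeal B⁰ F) ≠ 0 :=
    FractionalIdeal.coeIdeal_ne_zero.mpr hD
  have h1 : (1 : FractionalIdeal B⁰ F) ≠ 0 := one_ne_zero
  rw [FractionalIdeal.le_inv_comm h1 hD0, inv_one]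
  exact FractionalIdeal.coeIdeal_le_one

variable [Algebra K F] [IsScalarTower K B F]

/-- **(Δ1)** `dim_K (𝔇⁻¹ / B) = ∑ᶠ v, (eOver A v - 1)`. -/
theorem finrank_dual_quot (h1 : ∀ P : Ideal B, P.IsMaximal → finrank K (B ⧸ P) = 1) :
    (finrank K (↥((((differentIdeal A B : Ideal B) : FractionalIdeal B⁰ F)⁻¹ :
        FractionalIdeal B⁰ F) : Submodule B F) ⧸
      ((1 : FractionalIdeal B⁰ F) : Submodule B F).comap
        ((((differentIdeal A B : Ideal B) : FractionalIdeal B⁰ F)⁻¹ :
          FractionalIdeal B⁰ F) : Submodule B F).subtype) : ℤ) =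
      ∑ᶠ v : HeightOneSpectrum B, ((eOver A v : ℤ) - 1) := by
  have hD : differentIdeal A B ≠ ⊥ := differentIdeal_ne_bot
  have hD0 : ((differentIdeal A B : Ideal B) : FractionalIdeal B⁰ F) ≠ 0 :=
    FractionalIdeal.coeIdeal_ne_zero.mpr hD
  rw [finrank_fracQuot_eq_finsum K _ _ (inv_ne_zero hD0) one_ne_zero
    (one_le_inv_differentIdeal A F) h1]
  refine finsum_congr fun v => ?_
  rw [FractionalIdeal.count_one, count_inv_differentIdeal K A F v]
  ring

omit [CharZero K] [Algebra K A] in
/-- **(Δ1)** finiteness of `𝔇⁻¹ / B` over `K`. -/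
theorem finite_dual_quot (h1 : ∀ P : Ideal B, P.IsMaximal → finrank K (B ⧸ P) = 1) :
    Module.Finite K (↥((((differentIdeal A B : Ideal B) : FractionalIdeal B⁰ F)⁻¹ :
        FractionalIdeal B⁰ F) : Submodule B F) ⧸
      ((1 : FractionalIdeal B⁰ F) : Submodule B F).comap
        ((((differentIdeal A B : Ideal B) : FractionalIdeal B⁰ F)⁻¹ :
          FractionalIdeal B⁰ F) : Submodule B F).subtype) := by
  have hD : differentIdeal A B ≠ ⊥ := differentIdeal_ne_bot
  have hD0 : ((differentIdeal A B : Ideal B) : FractionalIdeal B⁰ F) ≠ 0 :=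
    FractionalIdeal.coeIdeal_ne_zero.mpr hD
  have := (finite_and_finrank_quotient_eq_card K (differentIdeal A B) hD h1).1
  exact finite_fracQuot K _ _ (differentIdeal A B) (inv_ne_zero hD0) hD (mul_inv_cancel₀ hD0)

include K in
omit [Algebra K B] [Algebra K F] [IsScalarTower K B F] in
/-- **(Δ2)**, with the valuation description of fractional ideals (V1) as a hypothesis:
`x ∈ 𝔇⁻¹ ↔ ∀ v, v(x) ≥ -(eOver A v - 1)`. -/
theorem mem_inv_differentIdeal_iff_of
    (hV1 : ∀ (I : FractionalIdeal B⁰ F), I ≠ 0 → ∀ x : F,
      x ∈ I ↔ ∀ v : HeightOneSpectrum B,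
        v.valuation F x ≤ WithZero.exp (-(FractionalIdeal.count F v I)))
    (x : F) :
    x ∈ ((differentIdeal A B : Ideal B) : FractionalIdeal B⁰ F)⁻¹ ↔
      ∀ v : HeightOneSpectrum B, v.valuation F x ≤ WithZero.exp ((eOver A v : ℤ) - 1) := by
  have hD : differentIdeal A B ≠ ⊥ := differentIdeal_ne_bot
  have hD0 : ((differentIdeal A B : Ideal B) : FractionalIdeal B⁰ F) ≠ 0 :=
    FractionalIdeal.coeIdeal_ne_zero.mpr hD
  rw [hV1 _ (inv_ne_zero hD0) x]
  refine forall_congr' fun v => ?_
  rw [count_inv_differentIdeal K A F v, neg_neg]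

end Delta

section TraceDual

variable (A Q : Type*) {B : Type*} (F : Type*) [CommRing A] [Field Q] [CommRing B] [Field F]
  [Algebra A Q] [Algebra B F] [Algebra A B] [Algebra Q F] [Algebra A F]
  [IsScalarTower A Q F] [IsScalarTower A B F]
  [IsFractionRing A Q] [FiniteDimensional Q F] [Algebra.IsSeparable Q F] [IsIntegralClosure B A F]
  [IsFractionRing B F] [IsDedekindDomain A] [IsDedekindDomain B] [IsTorsionFree A B]

/-- **(Δ3)** `𝔇⁻¹` is the trace dual of `B`. -/
theorem inv_differentIdeal_eq_dual :
    ((differentIdeal A B : Ideal B) : FractionalIdeal B⁰ F)⁻¹ =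
      FractionalIdeal.dual A Q (1 : FractionalIdeal B⁰ F) := by
  rw [coeIdeal_differentIdeal A Q F B, inv_inv]

/-- **(Δ3)** membership in `𝔇⁻¹` via traces. -/
theorem mem_inv_differentIdeal_iff_trace (x : F) :
    x ∈ ((differentIdeal A B : Ideal B) : FractionalIdeal B⁰ F)⁻¹ ↔
      ∀ a : B, Algebra.trace Q F (x * algebraMap B F a) ∈ (algebraMap A Q).range := by
  have h1 : (1 : FractionalIdeal B⁰ F) ≠ 0 := one_ne_zero
  rw [inv_differentIdeal_eq_dual A Q F, FractionalIdeal.mem_dual h1]
  constructor
  · intro h a
    have := h (algebraMap B F a) ((FractionalIdeal.mem_one_iff B⁰).mpr ⟨a, rfl⟩)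
    rwa [Algebra.traceForm_apply] at this
  · intro h a ha
    obtain ⟨b, rfl⟩ := (FractionalIdeal.mem_one_iff B⁰).mp ha
    rw [Algebra.traceForm_apply]
    exact h b

/-- **(Δ3)** the trace dual submodule of `B` is (the underlying submodule of) `𝔇⁻¹`. -/
theorem coe_inv_differentIdeal_eq_traceDual :
    ((((differentIdeal A B : Ideal B) : FractionalIdeal B⁰ F)⁻¹ : FractionalIdeal B⁰ F) :
        Submodule B F) = Submodule.traceDual A Q (1 : Submodule B F) := by
  rw [inv_differentIdeal_eq_dual A Q F, FractionalIdeal.coe_dual_one A Q F B]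

end TraceDual

section AKLB

/-! Versions in the AKLB setting: finiteness of `B` over `A` and separability of the canonical
fraction fields are derived from `[FiniteDimensional Q F] [Algebra.IsSeparable Q F]
[IsIntegralClosure B A F]`. -/

variable (K : Type*) [Field K] [CharZero K]
  (A Q : Type*) {B : Type*} (F : Type*) [CommRing A] [Field Q] [CommRing B] [Field F]
  [Algebra A Q] [Algebra B F] [Algebra A B] [Algebra Q F] [Algebra A F]
  [IsScalarTower A Q F] [IsScalarTower A B F]
  [IsFractionRing A Q] [FiniteDimensional Q F] [Algebra.IsSeparable Q F] [IsIntegralClosure B A F]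
  [IsFractionRing B F] [IsDedekindDomain A] [IsDedekindDomain B] [IsTorsionFree A B]
  [Algebra K A]

include K Q F in
/-- (Δ0) in the AKLB setting. -/
theorem count_differentIdeal_eq_aklb (v : HeightOneSpectrum B) :
    (normalizedFactors (differentIdeal A B)).count v.asIdeal = eOver A v - 1 := by
  have h1 : Module.Finite A B := module_finite_of_isIntegralClosure A Q (L := F) (B := B)
  have h2 : Algebra.IsSeparable (FractionRing A) (FractionRing B) :=
    isSeparable_fractionRing_of_isFractionRing A Q (L := F) (B := B)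
  exact count_differentIdeal_eq K A v

include K Q in
/-- (Δ2) in the AKLB setting (valuation description (V1) as a hypothesis). -/
theorem mem_inv_differentIdeal_iff_of_aklb
    (hV1 : ∀ (I : FractionalIdeal B⁰ F), I ≠ 0 → ∀ x : F,
      x ∈ I ↔ ∀ v : HeightOneSpectrum B,
        v.valuation F x ≤ WithZero.exp (-(FractionalIdeal.count F v I)))
    (x : F) :
    x ∈ ((differentIdeal A B : Ideal B) : FractionalIdeal B⁰ F)⁻¹ ↔
      ∀ v : HeightOneSpectrum B, v.valuation F x ≤ WithZero.exp ((eOver A v : ℤ) - 1) := by
  have h1 : Module.Finite A B := module_finite_of_isIntegralClosure A Q (L := F) (B := B)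
  have h2 : Algebra.IsSeparable (FractionRing A) (FractionRing B) :=
    isSeparable_fractionRing_of_isFractionRing A Q (L := F) (B := B)
  exact mem_inv_differentIdeal_iff_of K A F hV1 x

variable [Algebra K B] [Algebra K F] [IsScalarTower K B F]

/-- (Δ1) in the AKLB setting, for the trace dual submodule:
`dim_K (B^* / B) = ∑ᶠ v, (eOver A v - 1)`. -/
theorem finrank_traceDual_quot_eq_finsum
    (h1 : ∀ P : Ideal B, P.IsMaximal → finrank K (B ⧸ P) = 1) :
    (finrank K (↥(Submodule.traceDual A Q (1 : Submodule B F)) ⧸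
      (1 : Submodule B F).comap (Submodule.traceDual A Q (1 : Submodule B F)).subtype) : ℤ) =
      ∑ᶠ v : HeightOneSpectrum B, ((eOver A v : ℤ) - 1) := by
  have h2 : Module.Finite A B := module_finite_of_isIntegralClosure A Q (L := F) (B := B)
  have h3 : Algebra.IsSeparable (FractionRing A) (FractionRing B) :=
    isSeparable_fractionRing_of_isFractionRing A Q (L := F) (B := B)
  have h := finrank_dual_quot K A F h1
  rw [coe_inv_differentIdeal_eq_traceDual A Q F, FractionalIdeal.coe_one] at h
  exact h

omit [CharZero K] [Algebra K A] in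
/-- (Δ1) finiteness in the AKLB setting, for the trace dual submodule. -/
theorem finite_traceDual_quot
    (h1 : ∀ P : Ideal B, P.IsMaximal → finrank K (B ⧸ P) = 1) :
    Module.Finite K (↥(Submodule.traceDual A Q (1 : Submodule B F)) ⧸
      (1 : Submodule B F).comap (Submodule.traceDual A Q (1 : Submodule B F)).subtype) := by
  have h2 : Module.Finite A B := module_finite_of_isIntegralClosure A Q (L := F) (B := B)
  have h3 : Algebra.IsSeparable (FractionRing A) (FractionRing B) :=
    isSeparable_fractionRing_of_isFractionRing A Q (L := F) (B := B)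
  have h := finite_dual_quot K A F h1
  rw [coe_inv_differentIdeal_eq_traceDual A Q F, FractionalIdeal.coe_one] at h
  exact h

end AKLB

end Fermat.Agent.X0.RR
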