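import Mathlib
import Fermat.Agent.X0.RR.EOver
import Fermat.Agent.X0.RR.IdealQuotDim
import Fermat.Agent.X0.RR.IdealQuotCount

/-!
# X-RR: valuation description of fractional ideals (VALDESC) and the ideal `t² D⁻¹` (Δ∞)

* `mem_fractionalIdeal_iff_valuation_le` (V1): for a nonzero fractional ideal `I` of a Dedekind
  domain, `x ∈ I ↔ ∀ v, v.valuation L x ≤ exp (-(count v I))`.
* `fractionalIdeal_le_iff_count_le` : comparison of nonzero fractional ideals by counts.
* `deltaInfIdeal F t D = (t)² D⁻¹` (V2): over a local base with maximal ideal `(t)`, if the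
  multiplicities of `D` are `e_v - 1`, then those of `t² D⁻¹` are `e_v + 1`
  (`count_deltaInfIdeal`), it is integral (`deltaInfIdeal_le_one`), it is described by valuations
  (`mem_deltaInfIdeal_iff`) and `dim_K (B / t² D⁻¹) = ∑ᶠ v, (e_v + 1)`
  (`finrank_one_quot_deltaInfIdeal`, `finite_one_quot_deltaInfIdeal`).
-/

set_option autoImplicit false

open Module IsDedekindDomain IsDedekindDomain.HeightOneSpectrum WithZero UniqueFactorizationMonoid
open scoped nonZeroDivisors

namespace Fermat.Agent.X0.RR

section V1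

variable {B : Type*} [CommRing B] [IsDedekindDomain B]

/-- Membership in a nonzero ideal of a Dedekind domain is detected by the adic valuations. -/
theorem mem_ideal_iff_intValuation_le {J : Ideal B} (hJ : J ≠ ⊥) (b : B) :
    b ∈ J ↔ ∀ v : HeightOneSpectrum B, v.intValuation b ≤
      exp (-((Associates.mk v.asIdeal).count (Associates.mk J).factors : ℤ)) := by
  conv_lhs => rw [← Ideal.iInf_maxPowDividing_eq hJ]
  rw [Ideal.mem_iInf]
  refine forall_congr' fun v => ?_
  rw [IsDedekindDomain.HeightOneSpectrum.maxPowDividing, intValuation_le_pow_iff_mem]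

variable {L : Type*} [Field L] [Algebra B L] [IsFractionRing B L]

/-- **Valuation description of a fractional ideal** of a Dedekind domain. -/
theorem mem_fractionalIdeal_iff_valuation_le (I : FractionalIdeal B⁰ L) (hI : I ≠ 0) (x : L) :
    x ∈ I ↔ ∀ v : HeightOneSpectrum B,
      v.valuation L x ≤ exp (-(FractionalIdeal.count L v I)) := by
  obtain ⟨a, J, ha, haJ⟩ := FractionalIdeal.exists_eq_spanSingleton_mul I
  have hJ0 : J ≠ ⊥ := FractionalIdeal.ideal_factor_ne_zero hI haJ
  have haL : algebraMap B L a ≠ 0 := by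
    rwa [Ne, map_eq_zero_iff _ (IsFractionRing.injective B L)]
  have hcount : ∀ v : HeightOneSpectrum B, FractionalIdeal.count L v I =
      ((Associates.mk v.asIdeal).count (Associates.mk J).factors : ℤ) -
        ((Associates.mk v.asIdeal).count (Associates.mk (Ideal.span {a})).factors : ℤ) :=
    fun v => FractionalIdeal.count_well_defined L v hI haJ
  have hva : ∀ v : HeightOneSpectrum B, v.valuation L (algebraMap B L a) =
      exp (-((Associates.mk v.asIdeal).count (Associates.mk (Ideal.span {a})).factors : ℤ)) :=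
    fun v => by rw [valuation_of_algebraMap, intValuation_if_neg v ha]
  -- key: for `y = a x`, valuation condition on `x` is valuation condition on `y`
  have key : ∀ v : HeightOneSpectrum B,
      v.valuation L x ≤ exp (-(FractionalIdeal.count L v I)) ↔
      v.valuation L (algebraMap B L a * x) ≤
        exp (-((Associates.mk v.asIdeal).count (Associates.mk J).factors : ℤ)) := by
    intro v
    rw [map_mul, hva, hcount]
    have h0 : (exp (-((Associates.mk v.asIdeal).count
        (Associates.mk (Ideal.span {a})).factors : ℤ)) : ℤᵐ⁰) ≠ 0 := exp_ne_zero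
    rw [← mul_le_mul_iff_right₀ (zero_lt_iff.mpr h0), ← exp_add]
    congr! 2
    ring
  simp_rw [key]
  constructor
  · intro hx v
    rw [haJ, FractionalIdeal.mem_singleton_mul] at hx
    obtain ⟨y, hy, rfl⟩ := hx
    rw [FractionalIdeal.mem_coeIdeal] at hy
    obtain ⟨b, hb, rfl⟩ := hy
    rw [← mul_assoc, mul_inv_cancel₀ haL, one_mul, valuation_of_algebraMap]
    exact (mem_ideal_iff_intValuation_le hJ0 b).mp hb v
  · intro h
    have hint : ∀ v : HeightOneSpectrum B, v.valuation L (algebraMap B L a * x) ≤ 1 := by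
      intro v
      refine (h v).trans ?_
      rw [← exp_zero, exp_le_exp]
      omega
    obtain ⟨b, hb⟩ := mem_integers_of_valuation_le_one L _ hint
    have hbJ : b ∈ J := by
      rw [mem_ideal_iff_intValuation_le hJ0]
      intro v
      have := h v
      rwa [← hb, valuation_of_algebraMap] at this
    rw [haJ, FractionalIdeal.mem_singleton_mul]
    refine ⟨algebraMap B L b, FractionalIdeal.mem_coeIdeal_of_mem _ hbJ, ?_⟩
    rw [hb, ← mul_assoc, inv_mul_cancel₀ haL, one_mul]

end V1

section Finite

variable {B : Type*} [CommRing B] [IsDedekindDomain B]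
  (K : Type*) [Field K] [Algebra K B]
  {L : Type*} [Field L] [Algebra B L] [IsFractionRing B L] [Algebra K L] [IsScalarTower K B L]

/-- Finiteness of a quotient of nonzero fractional ideals (residue degree one). -/
theorem finite_fracQuot_of_le (I' J : FractionalIdeal B⁰ L) (hI' : I' ≠ 0) (hJ : J ≠ 0)
    (h : J ≤ I') (h1 : ∀ P : Ideal B, P.IsMaximal → finrank K (B ⧸ P) = 1) :
    Module.Finite K (↥(I' : Submodule B L) ⧸
        (J : Submodule B L).comap (I' : Submodule B L).subtype) := by
  obtain ⟨𝔞, h𝔞, H⟩ := exists_ideal_mul_eq I' J hI' hJ h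
  have := (finite_and_finrank_quotient_eq_card K 𝔞 h𝔞 h1).1
  exact finite_fracQuot K I' J 𝔞 hI' h𝔞 H

end Finite

section Order

variable {B : Type*} [CommRing B] [IsDedekindDomain B]
  {L : Type*} [Field L] [Algebra B L] [IsFractionRing B L]

/-- Comparison of nonzero fractional ideals by their counts. -/
theorem fractionalIdeal_le_iff_count_le (I J : FractionalIdeal B⁰ L) (hI : I ≠ 0) (hJ : J ≠ 0) :
    I ≤ J ↔ ∀ v : HeightOneSpectrum B,
      FractionalIdeal.count L v J ≤ FractionalIdeal.count L v I := by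
  refine ⟨fun h v => FractionalIdeal.count_mono L v hI h, fun h x hx => ?_⟩
  rw [mem_fractionalIdeal_iff_valuation_le J hJ]
  rw [mem_fractionalIdeal_iff_valuation_le I hI] at hx
  intro v
  refine (hx v).trans ?_
  rw [exp_le_exp]
  have := h v
  omega

/-- The count of a principal fractional ideal generated by an element of `B`. -/
theorem count_spanSingleton_algebraMap (v : HeightOneSpectrum B) (b : B) (hb : b ≠ 0) :
    FractionalIdeal.count L v (FractionalIdeal.spanSingleton B⁰ (algebraMap B L b)) =
      ((normalizedFactors (Ideal.span {b})).count v.asIdeal : ℤ) := by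
  classical
  have hb' : (Ideal.span {b} : Ideal B) ≠ 0 := by
    rwa [Ne, Ideal.zero_eq_bot, Ideal.span_singleton_eq_bot]
  rw [← FractionalIdeal.coeIdeal_span_singleton, FractionalIdeal.count_coe L v hb',
    Ideal.count_associates_factors_eq hb' v.isPrime v.ne_bot]

/-- The count of the inverse of an integral ideal. -/
theorem count_inv_coeIdeal (v : HeightOneSpectrum B) (D : Ideal B) (hD : D ≠ ⊥) :
    FractionalIdeal.count L v ((D : FractionalIdeal B⁰ L)⁻¹) =
      -((normalizedFactors D).count v.asIdeal : ℤ) := by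
  classical
  rw [FractionalIdeal.count_inv, FractionalIdeal.count_coe L v hD,
    Ideal.count_associates_factors_eq hD v.isPrime v.ne_bot]

end Order

section V2

variable (K : Type*) [Field K] {A B : Type*} [CommRing A] [IsDedekindDomain A]
  [CommRing B] [IsDedekindDomain B] [Algebra A B] [Module.Finite A B] [Module.IsTorsionFree A B]
  [Algebra K B]
  (F : Type*) [Field F] [Algebra B F] [IsFractionRing B F] [Algebra K F] [IsScalarTower K B F]

omit [IsDedekindDomain A] [Module.IsTorsionFree A B] in
/-- Over a local base with maximal ideal `(t)`, every height-one prime of `B` contracts to `(t)`. -/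
theorem under_eq_span_of_local (t : A)
    (hloc : ∀ p : Ideal A, p.IsMaximal → p = Ideal.span {t}) (v : HeightOneSpectrum B) :
    v.asIdeal.under A = Ideal.span {t} := by
  have : v.asIdeal.IsMaximal := v.isMaximal
  exact hloc _ (Ideal.isMaximal_comap_of_isIntegral_of_isMaximal (R := A) v.asIdeal)

omit [IsDedekindDomain A] [Module.IsTorsionFree A B] in
/-- Over a local base with maximal ideal `(t)`, the ramification index is the multiplicity in
`t B`. -/
theorem eOver_eq_count_span (t : A)
    (hloc : ∀ p : Ideal A, p.IsMaximal → p = Ideal.span {t}) (v : HeightOneSpectrum B) :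
    eOver A v = (normalizedFactors (Ideal.span {algebraMap A B t})).count v.asIdeal := by
  classical
  rw [eOver, under_eq_span_of_local t hloc v, Ideal.map_span, Set.image_singleton]

/-- The ramification index is positive. -/
theorem one_le_eOver_of_local (t : A) (ht : t ≠ 0)
    (hloc : ∀ p : Ideal A, p.IsMaximal → p = Ideal.span {t}) (v : HeightOneSpectrum B) :
    1 ≤ eOver A v := by
  classical
  rw [eOver_eq_count_span t hloc v, Nat.one_le_iff_ne_zero, Multiset.count_ne_zero]
  have htB : algebraMap A B t ≠ 0 := by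
    rwa [Ne, map_eq_zero_iff _ (FaithfulSMul.algebraMap_injective A B)]
  have hspan : (Ideal.span {algebraMap A B t} : Ideal B) ≠ ⊥ := by
    rwa [Ne, Ideal.span_singleton_eq_bot]
  rw [Ideal.mem_normalizedFactors_iff hspan]
  refine ⟨v.isPrime, ?_⟩
  rw [Ideal.span_singleton_le_iff_mem]
  have h1 : t ∈ v.asIdeal.under A := by
    rw [under_eq_span_of_local t hloc v]
    exact Ideal.mem_span_singleton_self t
  exact h1

/-- The fractional ideal `t² D⁻¹`. -/
noncomputable def deltaInfIdeal (t : A) (D : Ideal B) : FractionalIdeal B⁰ F :=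
  FractionalIdeal.spanSingleton B⁰ (algebraMap B F (algebraMap A B t)) ^ 2 *
    (D : FractionalIdeal B⁰ F)⁻¹

variable {F}

omit [Module.Finite A B] in
theorem deltaInfIdeal_ne_zero (t : A) (ht : t ≠ 0) (D : Ideal B) (hD0 : D ≠ ⊥) :
    deltaInfIdeal F t D ≠ 0 := by
  have htB : algebraMap A B t ≠ 0 := by
    rwa [Ne, map_eq_zero_iff _ (FaithfulSMul.algebraMap_injective A B)]
  have htF : algebraMap B F (algebraMap A B t) ≠ 0 := by
    rwa [Ne, map_eq_zero_iff _ (IsFractionRing.injective B F)]
  refine mul_ne_zero (pow_ne_zero _ ?_) (inv_ne_zero ?_)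
  · rwa [Ne, FractionalIdeal.spanSingleton_eq_zero_iff]
  · rwa [Ne, FractionalIdeal.coeIdeal_eq_zero]

/-- The multiplicities of `t² D⁻¹`. -/
theorem count_deltaInfIdeal (t : A) (ht : t ≠ 0)
    (hloc : ∀ p : Ideal A, p.IsMaximal → p = Ideal.span {t})
    (D : Ideal B) (hD0 : D ≠ ⊥)
    (hD : ∀ v : HeightOneSpectrum B, (normalizedFactors D).count v.asIdeal = eOver A v - 1)
    (v : HeightOneSpectrum B) :
    FractionalIdeal.count F v (deltaInfIdeal F t D) = (eOver A v : ℤ) + 1 := by
  classical
  have htB : algebraMap A B t ≠ 0 := by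
    rwa [Ne, map_eq_zero_iff _ (FaithfulSMul.algebraMap_injective A B)]
  have htF : algebraMap B F (algebraMap A B t) ≠ 0 := by
    rwa [Ne, map_eq_zero_iff _ (IsFractionRing.injective B F)]
  have h1 : FractionalIdeal.spanSingleton B⁰ (algebraMap B F (algebraMap A B t)) ^ 2 ≠ 0 := by
    refine pow_ne_zero _ ?_
    rwa [Ne, FractionalIdeal.spanSingleton_eq_zero_iff]
  have h2 : ((D : FractionalIdeal B⁰ F))⁻¹ ≠ 0 := by
    refine inv_ne_zero ?_
    rwa [Ne, FractionalIdeal.coeIdeal_eq_zero]
  rw [deltaInfIdeal, FractionalIdeal.count_mul F v h1 h2, FractionalIdeal.count_pow,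
    count_spanSingleton_algebraMap v _ htB, count_inv_coeIdeal v D hD0, hD v,
    ← eOver_eq_count_span t hloc v]
  have := one_le_eOver_of_local t ht hloc v
  push_cast [this]
  ring

/-- **Valuation description of `t² D⁻¹`.** -/
theorem mem_deltaInfIdeal_iff (t : A) (ht : t ≠ 0)
    (hloc : ∀ p : Ideal A, p.IsMaximal → p = Ideal.span {t})
    (D : Ideal B) (hD0 : D ≠ ⊥)
    (hD : ∀ v : HeightOneSpectrum B, (normalizedFactors D).count v.asIdeal = eOver A v - 1)
    (x : F) :
    x ∈ deltaInfIdeal F t D ↔ ∀ v : HeightOneSpectrum B,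
      v.valuation F x ≤ exp (-((eOver A v : ℤ) + 1)) := by
  rw [mem_fractionalIdeal_iff_valuation_le _ (deltaInfIdeal_ne_zero t ht D hD0)]
  simp_rw [count_deltaInfIdeal t ht hloc D hD0 hD]

/-- `t² D⁻¹` is an integral ideal. -/
theorem deltaInfIdeal_le_one (t : A) (ht : t ≠ 0)
    (hloc : ∀ p : Ideal A, p.IsMaximal → p = Ideal.span {t})
    (D : Ideal B) (hD0 : D ≠ ⊥)
    (hD : ∀ v : HeightOneSpectrum B, (normalizedFactors D).count v.asIdeal = eOver A v - 1) :
    deltaInfIdeal F t D ≤ 1 := by
  rw [fractionalIdeal_le_iff_count_le (deltaInfIdeal F t D) 1 (deltaInfIdeal_ne_zero t ht D hD0)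
    one_ne_zero]
  intro v
  rw [count_deltaInfIdeal t ht hloc D hD0 hD, FractionalIdeal.count_one]
  positivity

/-- **`Δ∞`**: `dim_K (B / t² D⁻¹) = ∑ (e + 1)`. -/
theorem finrank_one_quot_deltaInfIdeal (t : A) (ht : t ≠ 0)
    (hloc : ∀ p : Ideal A, p.IsMaximal → p = Ideal.span {t})
    (D : Ideal B) (hD0 : D ≠ ⊥)
    (hD : ∀ v : HeightOneSpectrum B, (normalizedFactors D).count v.asIdeal = eOver A v - 1)
    (h1 : ∀ P : Ideal B, P.IsMaximal → finrank K (B ⧸ P) = 1) :
    (finrank K (↥((1 : FractionalIdeal B⁰ F) : Submodule B F) ⧸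
        ((deltaInfIdeal F t D : FractionalIdeal B⁰ F) : Submodule B F).comap
          ((1 : FractionalIdeal B⁰ F) : Submodule B F).subtype) : ℤ) =
      ∑ᶠ v : HeightOneSpectrum B, ((eOver A v : ℤ) + 1) := by
  rw [finrank_fracQuot_eq_finsum K 1 (deltaInfIdeal F t D) one_ne_zero
    (deltaInfIdeal_ne_zero t ht D hD0) (deltaInfIdeal_le_one t ht hloc D hD0 hD) h1]
  refine finsum_congr fun v => ?_
  rw [count_deltaInfIdeal t ht hloc D hD0 hD, FractionalIdeal.count_one, sub_zero]

end V2

section V2Finite

variable (K : Type*) [Field K] {A B : Type*} [CommRing A] [IsDedekindDomain A]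
  [CommRing B] [IsDedekindDomain B] [Algebra A B] [Module.Finite A B] [Module.IsTorsionFree A B]
  [Algebra K B]
  {F : Type*} [Field F] [Algebra B F] [IsFractionRing B F] [Algebra K F] [IsScalarTower K B F]

/-- Finiteness of `B / t² D⁻¹` over `K`. -/
theorem finite_one_quot_deltaInfIdeal (t : A) (ht : t ≠ 0)
    (hloc : ∀ p : Ideal A, p.IsMaximal → p = Ideal.span {t})
    (D : Ideal B) (hD0 : D ≠ ⊥)
    (hD : ∀ v : HeightOneSpectrum B, (normalizedFactors D).count v.asIdeal = eOver A v - 1)
    (h1 : ∀ P : Ideal B, P.IsMaximal → finrank K (B ⧸ P) = 1) :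
    Module.Finite K (↥((1 : FractionalIdeal B⁰ F) : Submodule B F) ⧸
        ((deltaInfIdeal F t D : FractionalIdeal B⁰ F) : Submodule B F).comap
          ((1 : FractionalIdeal B⁰ F) : Submodule B F).subtype) :=
  finite_fracQuot_of_le K 1 (deltaInfIdeal F t D) one_ne_zero
    (deltaInfIdeal_ne_zero t ht D hD0) (deltaInfIdeal_le_one t ht hloc D hD0 hD) h1

end V2Finite

end Fermat.Agent.X0.RR
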