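import Fermat.Agent.X0.RR.Setup
import Fermat.Agent.X0.RR.IntegralBasis
import Fermat.Agent.X0.RR.DeltaCount

/-!
# X-RR, piece RR5 (continued): the `eOver` forms of (INF) and the coordinate forms of (BASIS)

* `exists_basis_Bf_repr` : a `RatFunc K`-basis `β` of `F` with
  `h ∈ Bf K F ↔ ∀ i, β.repr h i ∈ polySub K`;
* `exists_basis_Binf_repr` : a basis `γ` with `h ∈ Binf K F ↔ ∀ i, γ.repr h i ∈ Rinf K`;
* `Binf.under_eq_span_Xinv`, `Binf.finsum_eOver`, `Binf.finsum_eOver_nat` : every nonzero prime of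
  `Binf K F` lies over `span {Xinv}` and `∑ᶠ w, (eOver (Rinf K) w : ℤ) = finrank (RatFunc K) F`.
-/

set_option autoImplicit false

open Polynomial Module IsDedekindDomain

namespace Fermat.Agent.X0.RR

section

variable (K : Type*) [Field K] (F : Type*) [Field F] [Algebra (RatFunc K) F]
  [FiniteDimensional (RatFunc K) F] [Algebra.IsSeparable (RatFunc K) F]
  [Algebra K F] [IsScalarTower K (RatFunc K) F]

/-- (BASIS) for `Bf`, coordinate form. -/
theorem exists_basis_Bf_repr [Algebra K[X] F] [IsScalarTower K[X] (RatFunc K) F] :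
    ∃ β : Basis (Fin (finrank (RatFunc K) F)) (RatFunc K) F,
      ∀ h : F, h ∈ Bf K F ↔ ∀ i, β.repr h i ∈ polySub K := by
  obtain ⟨β, hβ⟩ := exists_basis_Bf K F
  exact ⟨β, fun h => (hβ h).trans mem_latF⟩

/-- (BASIS) for `Binf`, coordinate form. -/
theorem exists_basis_Binf_repr :
    ∃ γ : Basis (Fin (finrank (RatFunc K) F)) (RatFunc K) F,
      ∀ h : F, h ∈ Binf K F ↔ ∀ i, γ.repr h i ∈ Rinf K := by
  obtain ⟨γ, hγ⟩ := exists_basis_Binf K F
  exact ⟨γ, fun h => (hγ h).trans mem_latInf_zero⟩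

end

section

variable {K : Type*} [Field K] {F : Type*} [Field F] [Algebra (RatFunc K) F]

/-- (INF): every nonzero prime of `Binf K F` lies over `span {Xinv}`. -/
theorem Binf.under_eq_span_Xinv (w : HeightOneSpectrum (Binf K F)) :
    w.asIdeal.under (Rinf K) = Ideal.span {Xinv} := by
  have := Binf.liesOver_maximalIdeal w.asIdeal w.ne_bot
  rw [← maximalIdeal_Rinf_eq_span]
  exact (this.over).symm

variable [IsAlgClosed K] [FiniteDimensional (RatFunc K) F] [Algebra.IsSeparable (RatFunc K) F]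
  [Algebra K F] [IsScalarTower K (RatFunc K) F]

/-- (INF), natural number version: `∑_{w | ∞} e(w) = n`, in the `eOver` form. -/
theorem Binf.finsum_eOver_nat :
    ∑ᶠ w : HeightOneSpectrum (Binf K F), eOver (Rinf K) w = finrank (RatFunc K) F := by
  rw [← Binf.finsum_ramificationIdx (K := K) (F := F)]
  exact finsum_congr fun w => eOver_eq_ramificationIdx (Rinf K) w

/-- (INF): `∑_{w | ∞} e(w) = n`, in the `eOver` form, as integers. -/
theorem Binf.finsum_eOver :
    ∑ᶠ w : HeightOneSpectrum (Binf K F), (eOver (Rinf K) w : ℤ) = finrank (RatFunc K) F := by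
  rw [← Binf.finsum_eOver_nat (K := K) (F := F)]
  let _ := Fintype.ofFinite (HeightOneSpectrum (Binf K F))
  rw [finsum_eq_sum_of_fintype, finsum_eq_sum_of_fintype, Nat.cast_sum]

end

end Fermat.Agent.X0.RR
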