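import Mathlib
import Fermat.Agent.X0.RR.DualLattice

/-!
# X-RR (RR6 glue, G1): trace duals of the models `Bf`, `Binf` in coordinates

`F / RatFunc K` finite separable, `T` the trace form, `β.traceDual` the `T`-dual basis of a
`RatFunc K`-basis `β` of `F`.

All names are in the namespace `Fermat.Agent.X0.RR.TraceDualLattice`.

* `mem_traceDual_iff_mem_latF` : if `Bf K F = latF β` then `(Bf)^* = latF β.traceDual`;
* `mem_traceDual_iff_mem_latInf` : if `Binf K F = latInf γ 0` then `(Binf)^* = latInf γ.traceDual 0`;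
* `X_zpow_smul_mem_traceDual_iff_mem_latInf` : `X ^ k • h ∈ (Binf)^* ↔ h ∈ latInf γ.traceDual (-k)`
  (so `X⁻² (Binf)^* = latInf γ.traceDual (-2)`).

Here `B^* = Submodule.traceDual A (RatFunc K) (1 : Submodule B F)` is Mathlib's trace dual.
-/

set_option autoImplicit false

open Polynomial

namespace Fermat.Agent.X0.RR.TraceDualLattice

variable (K : Type*) [Field K] (F : Type*) [Field F] [Algebra (RatFunc K) F]
  [FiniteDimensional (RatFunc K) F] [Algebra.IsSeparable (RatFunc K) F]
  [Algebra K F] [IsScalarTower K (RatFunc K) F]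
  {ι : Type*} [Fintype ι] [DecidableEq ι]

section Finite

variable [Algebra K[X] F] [IsScalarTower K[X] (RatFunc K) F]

omit [FiniteDimensional (RatFunc K) F] [Algebra.IsSeparable (RatFunc K) F] [Algebra K F]
  [IsScalarTower K (RatFunc K) F] in
/-- Abstract form: the trace dual of `Bf K F` is cut out by the trace pairing against `Bf K F`. -/
theorem mem_traceDual_Bf_iff (h : F) :
    h ∈ Submodule.traceDual K[X] (RatFunc K) (1 : Submodule (Bf K F) F) ↔
      ∀ u ∈ Bf K F, Algebra.traceForm (RatFunc K) F h u ∈ polySub K := by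
  rw [Submodule.mem_traceDual]
  constructor
  · intro H u hu
    obtain ⟨p, hp⟩ := H u (Submodule.mem_one.mpr ⟨⟨u, hu⟩, rfl⟩)
    exact mem_polySub.mpr ⟨p, hp⟩
  · intro H a ha
    obtain ⟨u, rfl⟩ := Submodule.mem_one.mp ha
    obtain ⟨p, hp⟩ := mem_polySub.mp (H (u : F) u.2)
    exact ⟨p, hp⟩

/-- If `Bf K F = latF β` then the trace dual of `Bf K F` is `latF β.traceDual`. -/
theorem mem_traceDual_iff_mem_latF (β : Module.Basis ι (RatFunc K) F)
    (hβ : ∀ h : F, h ∈ Bf K F ↔ h ∈ latF β) (h : F) :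
    h ∈ Submodule.traceDual K[X] (RatFunc K) (1 : Submodule (Bf K F) F) ↔
      h ∈ latF β.traceDual := by
  rw [mem_traceDual_Bf_iff, Module.Basis.traceDual, mem_latF_dualBasis_iff]
  exact ⟨fun H u hu => H u ((hβ u).mpr hu), fun H u hu => H u ((hβ u).mp hu)⟩

end Finite

section Infinite

omit [FiniteDimensional (RatFunc K) F] [Algebra.IsSeparable (RatFunc K) F] [Algebra K F]
  [IsScalarTower K (RatFunc K) F] in
/-- Abstract form: the trace dual of `Binf K F` is cut out by the trace pairing against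
`Binf K F`. -/
theorem mem_traceDual_Binf_iff (h : F) :
    h ∈ Submodule.traceDual (Rinf K) (RatFunc K) (1 : Submodule (Binf K F) F) ↔
      ∀ u ∈ Binf K F, Algebra.traceForm (RatFunc K) F h u ∈ Rinf K := by
  rw [Submodule.mem_traceDual]
  constructor
  · intro H u hu
    obtain ⟨p, hp⟩ := H u (Submodule.mem_one.mpr ⟨⟨u, hu⟩, rfl⟩)
    rw [← hp]
    exact p.2
  · intro H a ha
    obtain ⟨u, rfl⟩ := Submodule.mem_one.mp ha
    exact ⟨⟨_, H (u : F) u.2⟩, rfl⟩

/-- If `Binf K F = latInf γ 0` then the trace dual of `Binf K F` is `latInf γ.traceDual 0`. -/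
theorem mem_traceDual_iff_mem_latInf (γ : Module.Basis ι (RatFunc K) F)
    (hγ : ∀ h : F, h ∈ Binf K F ↔ h ∈ latInf γ 0) (h : F) :
    h ∈ Submodule.traceDual (Rinf K) (RatFunc K) (1 : Submodule (Binf K F) F) ↔
      h ∈ latInf γ.traceDual 0 := by
  rw [mem_traceDual_Binf_iff, Module.Basis.traceDual]
  have h0 := mem_latInf_dualBasis_iff (Algebra.traceForm (RatFunc K) F)
    (traceForm_nondegenerate (RatFunc K) F) γ 0 h
  have e : (fun i : ι => -(0 : ι → ℤ) i) = 0 := by
    funext i; simp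
  rw [e] at h0
  rw [h0]
  exact ⟨fun H u hu => H u ((hγ u).mpr hu), fun H u hu => H u ((hγ u).mp hu)⟩

/-- `X ^ k • h ∈ (Binf)^* ↔ h ∈ latInf γ.traceDual (-k)`: the lattice `X ^ (-k) • (Binf)^*` in
coordinates. -/
theorem X_zpow_smul_mem_traceDual_iff_mem_latInf (γ : Module.Basis ι (RatFunc K) F)
    (hγ : ∀ h : F, h ∈ Binf K F ↔ h ∈ latInf γ 0) (k : ℤ) (h : F) :
    (RatFunc.X : RatFunc K) ^ k • h ∈
        Submodule.traceDual (Rinf K) (RatFunc K) (1 : Submodule (Binf K F) F) ↔
      h ∈ latInf γ.traceDual (fun _ => -k) := by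
  rw [mem_traceDual_iff_mem_latInf K F γ hγ]
  have := X_zpow_smul_mem_latInf_iff (b := γ.traceDual) (d := fun _ => -k) (v := h) k
  have e : (fun _ : ι => -k + k) = 0 := by
    funext i; simp
  rw [e] at this
  exact this

end Infinite

end Fermat.Agent.X0.RR.TraceDualLattice
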