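import Mathlib
import Fermat.Agent.X0.RR.DeltaCount
import Fermat.Agent.X0.RR.FracIdealVal

/-!
# X-RR piece Δf, part (Δ2): valuation description of the inverse different (unconditional)

`x ∈ 𝔇⁻¹ ↔ ∀ v, v(x) ≥ -(eOver A v - 1)`, i.e. `v.valuation F x ≤ exp (eOver A v - 1)`,
in the general and in the AKLB setting; also for the trace dual of `B`.
-/

set_option autoImplicit false

namespace Fermat.Agent.X0.RR

open Ideal Module UniqueFactorizationMonoid IsDedekindDomain
open scoped nonZeroDivisors

attribute [local instance] FractionRing.liftAlgebra FractionRing.isScalarTower_liftAlgebra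

section General

variable (K : Type*) [Field K] [CharZero K]
  (A : Type*) {B : Type*} [CommRing A] [CommRing B] [Algebra A B]
  [IsDedekindDomain A] [IsDedekindDomain B] [IsTorsionFree A B] [Module.Finite A B]
  [Algebra.IsSeparable (FractionRing A) (FractionRing B)]
  [Algebra K A]
  (F : Type*) [Field F] [Algebra B F] [IsFractionRing B F]

include K in
/-- **(Δ2)** `x ∈ 𝔇⁻¹ ↔ ∀ v, v.valuation F x ≤ exp (eOver A v - 1)`. -/
theorem mem_inv_differentIdeal_iff (x : F) :
    x ∈ ((differentIdeal A B : Ideal B) : FractionalIdeal B⁰ F)⁻¹ ↔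
      ∀ v : HeightOneSpectrum B, v.valuation F x ≤ WithZero.exp ((eOver A v : ℤ) - 1) :=
  mem_inv_differentIdeal_iff_of K A F
    (fun I hI y => mem_fractionalIdeal_iff_valuation_le I hI y) x

end General

section AKLB

variable (K : Type*) [Field K] [CharZero K]
  (A Q : Type*) {B : Type*} (F : Type*) [CommRing A] [Field Q] [CommRing B] [Field F]
  [Algebra A Q] [Algebra B F] [Algebra A B] [Algebra Q F] [Algebra A F]
  [IsScalarTower A Q F] [IsScalarTower A B F]
  [IsFractionRing A Q] [FiniteDimensional Q F] [Algebra.IsSeparable Q F] [IsIntegralClosure B A F]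
  [IsFractionRing B F] [IsDedekindDomain A] [IsDedekindDomain B] [IsTorsionFree A B]
  [Algebra K A]

include K Q in
/-- (Δ2) in the AKLB setting. -/
theorem mem_inv_differentIdeal_iff_aklb (x : F) :
    x ∈ ((differentIdeal A B : Ideal B) : FractionalIdeal B⁰ F)⁻¹ ↔
      ∀ v : HeightOneSpectrum B, v.valuation F x ≤ WithZero.exp ((eOver A v : ℤ) - 1) :=
  mem_inv_differentIdeal_iff_of_aklb K A Q F
    (fun I hI y => mem_fractionalIdeal_iff_valuation_le I hI y) x

include K in
/-- (Δ2) for the trace dual of `B`: `x ∈ B^* ↔ ∀ v, v.valuation F x ≤ exp (eOver A v - 1)`. -/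
theorem mem_traceDual_one_iff_valuation_le (x : F) :
    x ∈ Submodule.traceDual A Q (1 : Submodule B F) ↔
      ∀ v : HeightOneSpectrum B, v.valuation F x ≤ WithZero.exp ((eOver A v : ℤ) - 1) := by
  rw [← mem_inv_differentIdeal_iff_aklb K A Q F x, ← coe_inv_differentIdeal_eq_traceDual A Q F,
    FractionalIdeal.mem_coe]

end AKLB

end Fermat.Agent.X0.RR
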