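import Mathlib
import Fermat.Agent.X0.RR.CoreTrace
import Fermat.Agent.X0.RR.DeltaCountVal

/-!
# X-RR (RR6): the finite half of Riemann–Roch for `(Bf, Binf)`

With the notation of `CoreTrace.lean` (`dualF K F` the trace dual of `Bf K F`, as a `K`-subspace of
`F`, and `BfK K F` the subspace `Bf K F`):

* `dualF_eq_restrictScalars_traceDual`, `BfK_eq_restrictScalars_one` : identification with the
  `Bf`-submodules `Submodule.traceDual K[X] (RatFunc K) 1` and `1`;
* `mem_dualF_iff_valuation` : `h ∈ dualF K F ↔ ∀ v, v(h) ≥ -(e_v - 1)`;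
* `finite_dualF_quot`, `finrank_dualF_quot` :
  `dim_K (Bf^* / Bf) = ∑ᶠ v, (eOver K[X] v - 1)`.
-/

set_option autoImplicit false
set_option linter.unusedSectionVars false

open Polynomial Module IsDedekindDomain
open scoped nonZeroDivisors

namespace Fermat.Agent.X0.RR

variable (K F : Type*) [Field K] [Field F] [Algebra K[X] F] [Algebra (RatFunc K) F]
  [IsScalarTower K[X] (RatFunc K) F] [Algebra K F] [IsScalarTower K (RatFunc K) F]
  [IsAlgClosed K] [CharZero K] [FiniteDimensional (RatFunc K) F]

/-- `dualF K F` is the trace dual of `Bf K F`, with scalars restricted to `K`. -/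
theorem dualF_eq_restrictScalars_traceDual :
    dualF K F =
      (Submodule.traceDual K[X] (RatFunc K) (1 : Submodule (Bf K F) F)).restrictScalars K := by
  ext h
  rw [Submodule.restrictScalars_mem, Submodule.mem_traceDual, mem_dualF]
  constructor
  · intro hh a ha
    obtain ⟨b, rfl⟩ := Submodule.mem_one.mp ha
    rw [Algebra.traceForm_apply]
    obtain ⟨p, hp⟩ := mem_polySub.mp (hh (b : F) b.2)
    exact ⟨p, hp⟩
  · intro hh u hu
    have := hh u (Submodule.mem_one.mpr ⟨⟨u, hu⟩, rfl⟩)
    rw [Algebra.traceForm_apply] at this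
    obtain ⟨p, hp⟩ := this
    exact mem_polySub.mpr ⟨p, hp⟩

/-- `BfK K F` is the unit submodule of `F` over `Bf K F`, with scalars restricted to `K`. -/
theorem BfK_eq_restrictScalars_one :
    BfK K F = (1 : Submodule (Bf K F) F).restrictScalars K := by
  ext h
  rw [Submodule.restrictScalars_mem, mem_BfK, Submodule.mem_one]
  constructor
  · intro hh
    exact ⟨⟨h, hh⟩, rfl⟩
  · rintro ⟨b, rfl⟩
    exact b.2

/-- Valuation description of the trace dual of `Bf`:
`h ∈ dualF K F ↔ ∀ v, v.valuation F h ≤ exp (eOver K[X] v - 1)`. -/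
theorem mem_dualF_iff_valuation (h : F) :
    h ∈ dualF K F ↔ ∀ v : HeightOneSpectrum (Bf K F),
      v.valuation F h ≤ WithZero.exp ((eOver K[X] v : ℤ) - 1) := by
  rw [dualF_eq_restrictScalars_traceDual, Submodule.restrictScalars_mem]
  exact mem_traceDual_one_iff_valuation_le K K[X] (RatFunc K) F h

/-- Transport of quotients along equalities of submodules. -/
theorem finrank_quot_congr {V : Type*} [AddCommGroup V] [Module K V] {W W' U U' : Submodule K V}
    (hW : W = W') (hU : U = U') :
    finrank K (↥W ⧸ Submodule.comap W.subtype U) =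
      finrank K (↥W' ⧸ Submodule.comap W'.subtype U') := by
  subst hW hU
  rfl

/-- Transport of finiteness of quotients along equalities of submodules. -/
theorem finite_quot_congr {V : Type*} [AddCommGroup V] [Module K V] {W W' U U' : Submodule K V}
    (hW : W = W') (hU : U = U')
    (h : Module.Finite K (↥W' ⧸ Submodule.comap W'.subtype U')) :
    Module.Finite K (↥W ⧸ Submodule.comap W.subtype U) := by
  subst hW hU
  exact h

/-- `Bf^* / Bf` is finite dimensional over `K`. -/
theorem finite_dualF_quot :
    Module.Finite K (↥(dualF K F) ⧸ Submodule.comap (dualF K F).subtype (BfK K F)) := by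
  refine finite_quot_congr K (dualF_eq_restrictScalars_traceDual K F)
    (BfK_eq_restrictScalars_one K F) ?_
  have h1 : ∀ P : Ideal (Bf K F), P.IsMaximal → finrank K (Bf K F ⧸ P) = 1 :=
    fun P hP => Bf.finrank_quotient P
  have := finite_traceDual_quot K K[X] (RatFunc K) F (B := Bf K F) h1
  exact Module.Finite.equiv
    (restrictScalarsQuotEquiv K (Submodule.traceDual K[X] (RatFunc K) (1 : Submodule (Bf K F) F))
      (1 : Submodule (Bf K F) F)).symm

/-- **Finite half of Riemann–Roch**: `dim_K (Bf^* / Bf) = ∑ᶠ v, (eOver K[X] v - 1)`. -/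
theorem finrank_dualF_quot :
    (finrank K (↥(dualF K F) ⧸ Submodule.comap (dualF K F).subtype (BfK K F)) : ℤ) =
      ∑ᶠ v : HeightOneSpectrum (Bf K F), ((eOver K[X] v : ℤ) - 1) := by
  rw [finrank_quot_congr K (dualF_eq_restrictScalars_traceDual K F)
    (BfK_eq_restrictScalars_one K F)]
  have h1 : ∀ P : Ideal (Bf K F), P.IsMaximal → finrank K (Bf K F ⧸ P) = 1 :=
    fun P hP => Bf.finrank_quotient P
  rw [(restrictScalarsQuotEquiv K
    (Submodule.traceDual K[X] (RatFunc K) (1 : Submodule (Bf K F) F))
      (1 : Submodule (Bf K F) F)).finrank_eq]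
  exact finrank_traceDual_quot_eq_finsum K K[X] (RatFunc K) F (B := Bf K F) h1

end Fermat.Agent.X0.RR
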