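import Mathlib
import Fermat.Agent.X0.RR.CoreTrace
import Fermat.Agent.X0.RR.CoreFin
import Fermat.Agent.X0.RR.DeltaCountVal
import Fermat.Agent.X0.RR.FracIdealVal
import Fermat.Agent.X0.RR.TraceDualLattice

/-!
# X-RR (RR6): the infinite half of Riemann–Roch for `(Bf, Binf)`

`dualInf K F = X⁻² Binf^*` is the fractional ideal `(X⁻¹)² 𝔇_∞⁻¹` of `Binf`; it is contained in
`Binf`, `dim_K (Binf / X⁻² Binf^*) = ∑ᶠ w, (eOver (Rinf K) w + 1)`, and
`h ∈ dualInf K F ↔ ∀ w, w(h) ≥ e_w + 1`.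
-/

set_option autoImplicit false
set_option linter.unusedSectionVars false

open Polynomial Module IsDedekindDomain
open scoped nonZeroDivisors

namespace Fermat.Agent.X0.RR

variable (K F : Type*) [Field K] [Field F] [Algebra K[X] F] [Algebra (RatFunc K) F]
  [IsScalarTower K[X] (RatFunc K) F] [Algebra K F] [IsScalarTower K (RatFunc K) F]
  [IsAlgClosed K] [CharZero K] [FiniteDimensional (RatFunc K) F]

/-- The different of `Binf` over `Rinf`. -/
noncomputable abbrev diffInf : Ideal (Binf K F) := differentIdeal ↥(Rinf K) (Binf K F)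

theorem hloc_Rinf : ∀ p : Ideal ↥(Rinf K), p.IsMaximal → p = Ideal.span {(Xinv : ↥(Rinf K))} := by
  intro p hp
  rw [IsLocalRing.eq_maximalIdeal hp, maximalIdeal_Rinf_eq_span]

theorem count_diffInf (w : HeightOneSpectrum (Binf K F)) :
    (UniqueFactorizationMonoid.normalizedFactors (diffInf K F)).count w.asIdeal =
      eOver ↥(Rinf K) w - 1 :=
  count_differentIdeal_eq_aklb K ↥(Rinf K) (RatFunc K) F w

theorem diffInf_ne_bot : diffInf K F ≠ ⊥ :=
  differentIdeal_ne_bot_of_isFractionRing ↥(Rinf K) (RatFunc K) (L := F) (B := Binf K F)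

/-- The image of `Xinv` in `F` is `X⁻¹`. -/
theorem algebraMap_Xinv :
    algebraMap (Binf K F) F (algebraMap ↥(Rinf K) (Binf K F) Xinv) =
      algebraMap (RatFunc K) F (RatFunc.X)⁻¹ := by
  rw [← IsScalarTower.algebraMap_apply ↥(Rinf K) (Binf K F) F,
    IsScalarTower.algebraMap_apply ↥(Rinf K) (RatFunc K) F]
  rfl

/-- `dualInf K F` is the fractional ideal `(X⁻¹)² 𝔇_∞⁻¹`. -/
theorem dualInf_eq_restrictScalars_deltaInfIdeal :
    dualInf K F =
      ((deltaInfIdeal F (Xinv : ↥(Rinf K)) (diffInf K F) : FractionalIdeal (Binf K F)⁰ F) :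
        Submodule (Binf K F) F).restrictScalars K := by
  have hX : algebraMap (RatFunc K) F (RatFunc.X : RatFunc K) ≠ 0 := by
    rw [Ne, map_eq_zero]; exact RatFunc.X_ne_zero
  ext h
  rw [Submodule.restrictScalars_mem, FractionalIdeal.mem_coe, deltaInfIdeal,
    FractionalIdeal.spanSingleton_pow, FractionalIdeal.mem_singleton_mul, mem_dualInf]
  -- membership in `𝔇⁻¹` is membership in the trace dual
  have hmem : ∀ y : F, y ∈ ((diffInf K F : FractionalIdeal (Binf K F)⁰ F))⁻¹ ↔
      ∀ u ∈ Binf K F, Algebra.trace (RatFunc K) F (y * u) ∈ Rinf K := by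
    intro y
    rw [← FractionalIdeal.mem_coe,
      coe_inv_differentIdeal_eq_traceDual ↥(Rinf K) (RatFunc K) F,
      TraceDualLattice.mem_traceDual_Binf_iff]
    rfl
  rw [algebraMap_Xinv]
  constructor
  · intro hh
    refine ⟨algebraMap (RatFunc K) F (RatFunc.X) ^ 2 * h, (hmem _).mpr fun u hu => ?_, ?_⟩
    · have := hh u hu
      rw [intDegLE_iff_mul_X_zpow_mem_Rinf] at this
      have e : algebraMap (RatFunc K) F RatFunc.X ^ 2 * h * u =
          ((RatFunc.X : RatFunc K) ^ 2) • (h * u) := by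
        rw [Algebra.smul_def, map_pow, mul_assoc]
      rw [e, map_smul, smul_eq_mul, mul_comm]
      simpa using this
    · rw [map_inv₀, inv_pow, ← mul_assoc, inv_mul_cancel₀ (pow_ne_zero 2 hX), one_mul]
  · rintro ⟨y, hy, rfl⟩ u hu
    have := (hmem y).mp hy u hu
    rw [intDegLE_iff_mul_X_zpow_mem_Rinf]
    have e : algebraMap (RatFunc K) F (RatFunc.X)⁻¹ ^ 2 * y * u =
        (((RatFunc.X : RatFunc K))⁻¹ ^ 2) • (y * u) := by
      rw [Algebra.smul_def, map_pow, mul_assoc]
    rw [e, map_smul, smul_eq_mul]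
    have hXq : (RatFunc.X : RatFunc K) ≠ 0 := RatFunc.X_ne_zero
    have e2 : (RatFunc.X : RatFunc K)⁻¹ ^ 2 * Algebra.trace (RatFunc K) F (y * u) *
        RatFunc.X ^ (-(-2 : ℤ)) = Algebra.trace (RatFunc K) F (y * u) := by
      rw [neg_neg, zpow_ofNat]
      field_simp
    rw [e2]
    exact this

/-- `BinfK K F` is the unit submodule of `F` over `Binf K F`, with scalars restricted to `K`. -/
theorem BinfK_eq_restrictScalars_one :
    BinfK K F = (((1 : FractionalIdeal (Binf K F)⁰ F) : Submodule (Binf K F) F)).restrictScalars K := by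
  ext h
  rw [Submodule.restrictScalars_mem, mem_BinfK, FractionalIdeal.coe_one, Submodule.mem_one]
  constructor
  · intro hh
    exact ⟨⟨h, hh⟩, rfl⟩
  · rintro ⟨b, rfl⟩
    exact b.2

/-- `X⁻² Binf^* ⊆ Binf`. -/
theorem dualInf_le_BinfK : dualInf K F ≤ BinfK K F := by
  rw [dualInf_eq_restrictScalars_deltaInfIdeal, BinfK_eq_restrictScalars_one]
  intro h hh
  rw [Submodule.restrictScalars_mem] at hh ⊢
  exact deltaInfIdeal_le_one (Xinv : ↥(Rinf K)) Xinv_ne_zero (hloc_Rinf K) (diffInf K F)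
    (diffInf_ne_bot K F) (count_diffInf K F) hh

/-- Valuation description of `X⁻² Binf^*`. -/
theorem mem_dualInf_iff_valuation (h : F) :
    h ∈ dualInf K F ↔ ∀ w : HeightOneSpectrum (Binf K F),
      w.valuation F h ≤ WithZero.exp (-((eOver ↥(Rinf K) w : ℤ) + 1)) := by
  rw [dualInf_eq_restrictScalars_deltaInfIdeal, Submodule.restrictScalars_mem,
    FractionalIdeal.mem_coe]
  exact mem_deltaInfIdeal_iff (Xinv : ↥(Rinf K)) Xinv_ne_zero (hloc_Rinf K) (diffInf K F)
    (diffInf_ne_bot K F) (count_diffInf K F) h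

theorem finite_BinfK_quot :
    Module.Finite K (↥(BinfK K F) ⧸ Submodule.comap (BinfK K F).subtype (dualInf K F)) := by
  refine finite_quot_congr K (BinfK_eq_restrictScalars_one K F)
    (dualInf_eq_restrictScalars_deltaInfIdeal K F) ?_
  have h1 : ∀ P : Ideal (Binf K F), P.IsMaximal → finrank K (Binf K F ⧸ P) = 1 :=
    fun P hP => Binf.finrank_quotient P
  have := finite_one_quot_deltaInfIdeal K (F := F) (Xinv : ↥(Rinf K)) Xinv_ne_zero (hloc_Rinf K)
    (diffInf K F) (diffInf_ne_bot K F) (count_diffInf K F) h1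
  exact Module.Finite.equiv (restrictScalarsQuotEquiv K _ _).symm

/-- **Infinite half of Riemann–Roch**:
`dim_K (Binf / X⁻² Binf^*) = ∑ᶠ w, (eOver (Rinf K) w + 1)`. -/
theorem finrank_BinfK_quot :
    (finrank K (↥(BinfK K F) ⧸ Submodule.comap (BinfK K F).subtype (dualInf K F)) : ℤ) =
      ∑ᶠ w : HeightOneSpectrum (Binf K F), ((eOver ↥(Rinf K) w : ℤ) + 1) := by
  rw [finrank_quot_congr K (BinfK_eq_restrictScalars_one K F)
    (dualInf_eq_restrictScalars_deltaInfIdeal K F)]
  have h1 : ∀ P : Ideal (Binf K F), P.IsMaximal → finrank K (Binf K F ⧸ P) = 1 :=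
    fun P hP => Binf.finrank_quotient P
  rw [(restrictScalarsQuotEquiv K _ _).finrank_eq]
  exact finrank_one_quot_deltaInfIdeal K (Xinv : ↥(Rinf K)) Xinv_ne_zero (hloc_Rinf K)
    (diffInf K F) (diffInf_ne_bot K F) (count_diffInf K F) h1

end Fermat.Agent.X0.RR
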