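import Mathlib
import Fermat.Agent.X0.RR.CoreTrace
import Fermat.Agent.X0.RR.CoreFin
import Fermat.Agent.X0.RR.CoreInf

/-!
# X-RR (RR6): Riemann–Roch for the canonical bundle of a function field over `RatFunc K`

`K` algebraically closed of characteristic zero, `F` a finite extension of `RatFunc K`,
`Bf K F`, `Binf K F` the integral closures of `K[X]` and of `Rinf K` in `F`.
`HOL K F` is the `K`-space of all `h : F` with
`v(h) ≥ -(e_v - 1)` at the primes `v` of `Bf` and `w(h) ≥ e_w + 1` at the primes `w` of `Binf`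
(the functions `h` such that `h dx` is a holomorphic differential). Then

`2 dim_K HOL - 2 = ∑_v (e_v - 1) - ∑_w (e_w + 1)`.
-/

set_option autoImplicit false

open Polynomial Module IsDedekindDomain

namespace Fermat.Agent.X0.RR

variable (K F : Type*) [Field K] [Field F] [Algebra K[X] F] [Algebra (RatFunc K) F]
  [IsScalarTower K[X] (RatFunc K) F] [Algebra K F] [IsScalarTower K (RatFunc K) F]
  [IsAlgClosed K] [CharZero K] [FiniteDimensional (RatFunc K) F]

/-- Valuation description of `HOL`. -/
theorem mem_HOL_iff (h : F) :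
    h ∈ HOL K F ↔
      (∀ v : HeightOneSpectrum (Bf K F),
        v.valuation F h ≤ WithZero.exp ((eOver K[X] v : ℤ) - 1)) ∧
      (∀ w : HeightOneSpectrum (Binf K F),
        w.valuation F h ≤ WithZero.exp (-((eOver ↥(Rinf K) w : ℤ) + 1))) := by
  unfold HOL
  rw [Submodule.mem_inf, mem_dualF_iff_valuation, mem_dualInf_iff_valuation]

/-- **RR-core.** -/
theorem rr_core :
    Module.Finite K ↥(HOL K F) ∧
    2 * (finrank K ↥(HOL K F) : ℤ) - 2 =
      ∑ᶠ v : HeightOneSpectrum (Bf K F), ((eOver K[X] v : ℤ) - 1) -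
        ∑ᶠ w : HeightOneSpectrum (Binf K F), ((eOver ↥(Rinf K) w : ℤ) + 1) := by
  have := finite_dualF_quot K F
  have := finite_BinfK_quot K F
  obtain ⟨h1, h2⟩ := two_mul_finrank_HOL_sub_two (K := K) (F := F) (dualInf_le_BinfK K F)
  refine ⟨h1, ?_⟩
  rw [h2, finrank_dualF_quot, finrank_BinfK_quot]

end Fermat.Agent.X0.RR
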