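import Mathlib

/-!
# X-RR, piece RR7a: descent of linear independence along a field extension

If elements `w i` of an `L`-vector space `W` have "coordinates" (with respect to an injective
`L`-linear coordinate map `q : W → (κ → L)`) lying in a subfield `K`, then `K`-linear independence
(against scalars from `K`) implies `L`-linear independence.

Intended use: `K = ℚ̄`, `L = ℂ`, `W` a space of cusp forms, `q` the `q`-expansion coefficients.
-/

set_option autoImplicit false

namespace Fermat.Agent.X0.RR

/-- Elements with `K`-rational coordinates which are linearly independent over `K` are linearly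
independent over `L`. -/
theorem linearIndependent_of_rational_coeffs {K L : Type*} [Field K] [Field L] [Algebra K L]
    {W : Type*} [AddCommGroup W] [Module L W] {κ : Type*} (q : W →ₗ[L] (κ → L))
    (hq : Function.Injective q) {ι : Type*} (w : ι → W)
    (hrat : ∀ i k, q (w i) k ∈ (algebraMap K L).range)
    (hind : ∀ c : ι →₀ K, (c.sum fun i a => algebraMap K L a • w i) = 0 → c = 0) :
    LinearIndependent L w := by
  classical
  let b := Module.Free.chooseBasis K L
  rw [linearIndependent_iff]
  intro l hl
  choose r hr using hrat
  have key : ∀ α, l.mapRange (b.coord α) (map_zero _) = 0 := by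
    intro α
    apply hind
    apply hq
    rw [map_zero]
    funext k
    rw [Finsupp.sum_mapRange_index (by intro i; simp)]
    simp only [Finsupp.sum, map_sum, map_smul, Finset.sum_apply, Pi.smul_apply, smul_eq_mul,
      Pi.zero_apply]
    have h1 : ∑ i ∈ l.support, l i * q (w i) k = 0 := by
      have := congrFun (congrArg q hl) k
      simpa [Finsupp.linearCombination_apply, Finsupp.sum, map_sum] using this
    have h2 := congrArg (b.coord α) h1
    rw [map_sum, map_zero] at h2
    have h3 : ∀ i, b.coord α (l i * q (w i) k) = b.coord α (l i) * r i k := by
      intro i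
      rw [← hr i k, mul_comm (l i), ← Algebra.smul_def, map_smul, smul_eq_mul, mul_comm]
    simp_rw [h3] at h2
    calc ∑ i ∈ l.support, algebraMap K L (b.coord α (l i)) * q (w i) k
        = ∑ i ∈ l.support, algebraMap K L (b.coord α (l i) * r i k) := by
          refine Finset.sum_congr rfl fun i _ => ?_
          rw [map_mul, hr]
      _ = algebraMap K L (∑ i ∈ l.support, b.coord α (l i) * r i k) := (map_sum _ _ _).symm
      _ = 0 := by rw [h2, map_zero]
  ext i
  apply b.ext_elem
  intro α
  have := DFunLike.congr_fun (key α) i
  simpa using this

/-- A `K`-linear injection `Φ : H → W` into an `L`-vector space whose image has `K`-rational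
coordinates does not decrease dimension: `dim_K H ≤ dim_L W`. -/
theorem finrank_le_of_rational_coeffs {K L : Type*} [Field K] [Field L] [Algebra K L]
    {H W : Type*} [AddCommGroup H] [Module K H] [Module.Finite K H]
    [AddCommGroup W] [Module L W] [Module K W] [IsScalarTower K L W] [Module.Finite L W]
    {κ : Type*} (q : W →ₗ[L] (κ → L)) (hq : Function.Injective q)
    (Φ : H →ₗ[K] W) (hΦ : Function.Injective Φ)
    (hrat : ∀ h k, q (Φ h) k ∈ (algebraMap K L).range) :
    Module.finrank K H ≤ Module.finrank L W := by
  classical
  let e := Module.finBasis K H
  have hli : LinearIndependent L (fun i => Φ (e i)) := by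
    refine linearIndependent_of_rational_coeffs q hq _ (fun i k => hrat (e i) k) fun c hc => ?_
    have h1 : (c.sum fun i a => algebraMap K L a • Φ (e i)) = Φ (c.sum fun i a => a • e i) := by
      rw [map_finsuppSum]
      refine Finsupp.sum_congr fun i _ => ?_
      rw [algebraMap_smul, map_smul]
    rw [h1] at hc
    have h2 : (c.sum fun i a => a • e i) = 0 := hΦ (by rw [hc, map_zero])
    have h3 := linearIndependent_iff.mp e.linearIndependent c
    exact h3 (by rw [Finsupp.linearCombination_apply]; exact h2)
  simpa using hli.fintype_card_le_finrank

end Fermat.Agent.X0.RR
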